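import Fermat.Agent.S53.MatrixRep

set_option autoImplicit false

open scoped TensorProduct
open IsLocalRing

namespace Fermat.Agent.S53

section Res

variable {k : Type} [Field k]

/-- Matrix form of a residual representation in a basis. -/
noncomputable def toMatRes (ρ : ResidualGaloisRep k) (b : Module.Basis (Fin 2) k ρ.V) : GQ →* M2 k :=
  (LinearMap.toMatrixAlgEquiv b : Module.End k ρ.V →* M2 k).comp ρ.ρ

theorem toMatRes_apply (ρ : ResidualGaloisRep k) (b : Module.Basis (Fin 2) k ρ.V) (σ : GQ) :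
    toMatRes ρ b σ = LinearMap.toMatrix b b (ρ.ρ σ) := rfl

theorem exists_conj_of_isEquiv_res {ρ₁ ρ₂ : ResidualGaloisRep k} (h : ρ₁.IsEquiv ρ₂)
    (b₁ : Module.Basis (Fin 2) k ρ₁.V) (b₂ : Module.Basis (Fin 2) k ρ₂.V) :
    ∃ M : (M2 k)ˣ, ∀ σ, (M : M2 k) * toMatRes ρ₁ b₁ σ = toMatRes ρ₂ b₂ σ * (M : M2 k) := by
  obtain ⟨e⟩ := h
  refine ⟨Matrix.nonsingInvUnit (LinearMap.toMatrix b₁ b₂ (e.toLinearEquiv : ρ₁.V →ₗ[k] ρ₂.V))
    (LinearEquiv.isUnit_det e.toLinearEquiv b₁ b₂), fun σ => ?_⟩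
  show LinearMap.toMatrix b₁ b₂ (e.toLinearEquiv : ρ₁.V →ₗ[k] ρ₂.V) * _ =
    _ * LinearMap.toMatrix b₁ b₂ (e.toLinearEquiv : ρ₁.V →ₗ[k] ρ₂.V)
  rw [toMatRes_apply, toMatRes_apply, ← LinearMap.toMatrix_comp, ← LinearMap.toMatrix_comp]
  congr 1
  exact LinearMap.ext fun x => e.map_apply σ x

theorem isEquiv_res_of_toMatRes_eq {ρ₁ ρ₂ : ResidualGaloisRep k}
    (b₁ : Module.Basis (Fin 2) k ρ₁.V) (b₂ : Module.Basis (Fin 2) k ρ₂.V)
    (h : toMatRes ρ₁ b₁ = toMatRes ρ₂ b₂) : ρ₁.IsEquiv ρ₂ := by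
  refine ⟨⟨b₁.equiv b₂ (Equiv.refl _), fun σ x => ?_⟩⟩
  have h1 : LinearMap.toMatrix b₁ b₂
      (((b₁.equiv b₂ (Equiv.refl _) : ρ₁.V ≃ₗ[k] ρ₂.V) : ρ₁.V →ₗ[k] ρ₂.V) ∘ₗ ρ₁.ρ σ) =
      LinearMap.toMatrix b₁ b₂
      (ρ₂.ρ σ ∘ₗ ((b₁.equiv b₂ (Equiv.refl _) : ρ₁.V ≃ₗ[k] ρ₂.V) : ρ₁.V →ₗ[k] ρ₂.V)) := by
    rw [LinearMap.toMatrix_comp b₁ b₁ b₂, LinearMap.toMatrix_comp b₁ b₂ b₂,
      LinearMap.toMatrix_basis_equiv, one_mul, mul_one]
    exact DFunLike.congr_fun h σ
  exact LinearMap.congr_fun ((LinearMap.toMatrix b₁ b₂).injective h1) x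

/-- The base changed basis of a residual representation. -/
noncomputable def baseChangeBasisRes {k' : Type} [Field k'] (ι : k →+* k') (ρ : ResidualGaloisRep k)
    (b : Module.Basis (Fin 2) k ρ.V) : Module.Basis (Fin 2) k' (ρ.baseChangeAlong ι).V :=
  letI : Algebra k k' := ι.toAlgebra
  Algebra.TensorProduct.basis k' b

theorem toMatRes_baseChangeAlong {k' : Type} [Field k'] (ι : k →+* k') (ρ : ResidualGaloisRep k)
    (b : Module.Basis (Fin 2) k ρ.V) :
    toMatRes (ρ.baseChangeAlong ι) (baseChangeBasisRes ι ρ b) = mapRep ι (toMatRes ρ b) := by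
  let _ : Algebra k k' := ι.toAlgebra
  ext σ : 1
  exact LinearMap.toMatrix_baseChange k' (ρ.ρ σ) b b

end Res

section Residual

variable {A : Type} [CommRing A] [IsLocalRing A]

/-- The basis of the residual representation induced by a basis. -/
noncomputable def residualBasis (ρ : GaloisRepAdic A) (b : Module.Basis (Fin 2) A ρ.V) :
    Module.Basis (Fin 2) (ResidueField A) ρ.residual.V :=
  Algebra.TensorProduct.basis (ResidueField A) b

theorem toMatRes_residual (ρ : GaloisRepAdic A) (b : Module.Basis (Fin 2) A ρ.V) :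
    toMatRes ρ.residual (residualBasis ρ b) = mapRep (residue A) (toMat ρ b) := by
  ext σ : 1
  exact LinearMap.toMatrix_baseChange (ResidueField A) (ρ.ρ σ) b b

/-- Lift an invertible matrix over the residue field. -/
theorem exists_unit_lift (M : (M2 (ResidueField A))ˣ) :
    ∃ N : (M2 A)ˣ, (N : M2 A).map (residue A) = (M : M2 (ResidueField A)) := by
  choose f hf using fun i j => residue_surjective (R := A) ((M : M2 (ResidueField A)) i j)
  have hmap : (Matrix.of f : M2 A).map (residue A) = (M : M2 (ResidueField A)) := by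
    ext i j
    exact hf i j
  have hdet : IsUnit (Matrix.of f : M2 A).det := by
    have h1 : residue A (Matrix.of f : M2 A).det = (M : M2 (ResidueField A)).det := by
      rw [RingHom.map_det, RingHom.mapMatrix_apply, hmap]
    have h2 : IsUnit (M : M2 (ResidueField A)).det :=
      (Matrix.isUnit_iff_isUnit_det _).1 M.isUnit
    rw [← h1] at h2
    exact isUnit_of_map_unit (residue A) _ h2
  exact ⟨Matrix.nonsingInvUnit _ hdet, hmap⟩

/-- Conjugate a matrix representation. -/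
noncomputable def conjRep {A : Type} [CommRing A] (M : (M2 A)ˣ) (r : GQ →* M2 A) : GQ →* M2 A where
  toFun σ := (M : M2 A) * r σ * ((M⁻¹ : (M2 A)ˣ) : M2 A)
  map_one' := by rw [map_one, mul_one, Units.mul_inv]
  map_mul' σ τ := by
    rw [map_mul]
    calc (M : M2 A) * (r σ * r τ) * ((M⁻¹ : (M2 A)ˣ) : M2 A)
        = (M : M2 A) * r σ * (1 : M2 A) * r τ * ((M⁻¹ : (M2 A)ˣ) : M2 A) := by
          simp only [mul_one, mul_assoc]
      _ = _ := by
          rw [← Units.inv_mul M]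
          simp only [mul_assoc]

theorem conjRep_apply {A : Type} [CommRing A] (M : (M2 A)ˣ) (r : GQ →* M2 A) (σ : GQ) :
    conjRep M r σ = (M : M2 A) * r σ * ((M⁻¹ : (M2 A)ˣ) : M2 A) := rfl

theorem mul_eq_conjRep_mul {A : Type} [CommRing A] (M : (M2 A)ˣ) (r : GQ →* M2 A) (σ : GQ) :
    (M : M2 A) * r σ = conjRep M r σ * (M : M2 A) := by
  rw [conjRep_apply, mul_assoc, Units.inv_mul, mul_one]

theorem eq_conjRep_of_mul_eq {A : Type} [CommRing A] {M : (M2 A)ˣ} {r r' : GQ →* M2 A}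
    (h : ∀ σ, (M : M2 A) * r σ = r' σ * (M : M2 A)) : r' = conjRep M r := by
  ext σ : 1
  rw [conjRep_apply, h, mul_assoc, Units.mul_inv, mul_one]

theorem MatCont.conjRep {r : GQ →* M2 A} (hr : MatCont A r) (M : (M2 A)ˣ) :
    MatCont A (Fermat.Agent.S53.conjRep M r) := by
  intro n
  obtain ⟨L, hL, h⟩ := hr n
  refine ⟨L, hL, fun σ hσ i j => ?_⟩
  have h1 : Fermat.Agent.S53.conjRep M r σ - 1
      = (M : M2 A) * (r σ - 1) * ((M⁻¹ : (M2 A)ˣ) : M2 A) := by
    rw [conjRep_apply, mul_sub, sub_mul, mul_one, Units.mul_inv]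
  rw [h1, Matrix.mul_apply]
  refine Ideal.sum_mem _ fun a _ => Ideal.mul_mem_right _ _ ?_
  rw [Matrix.mul_apply]
  exact Ideal.sum_mem _ fun b _ => Ideal.mul_mem_left _ _ (h σ hσ b a)

theorem MatCont.of_conj {r r' : GQ →* M2 A} (hr : MatCont A r) {M : (M2 A)ˣ}
    (h : ∀ σ, (M : M2 A) * r σ = r' σ * (M : M2 A)) : MatCont A r' := by
  rw [eq_conjRep_of_mul_eq h]
  exact hr.conjRep M

end Residual

section Dict

variable {𝒪 : Type} [CommRing 𝒪] [IsLocalRing 𝒪]
variable {A : Type} [CommRing A] [IsLocalRing A] [Algebra 𝒪 A]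

theorem lifts_iff_mapRep_eq (rbar : GQ →* M2 (ResidueField 𝒪))
    (ι : ResidueField 𝒪 →+* ResidueField A)
    (hι : ∀ c : 𝒪, ι (residue 𝒪 c) = residue A (algebraMap 𝒪 A c)) (r : GQ →* M2 A) :
    Lifts rbar r ↔ mapRep (residue A) r = mapRep ι rbar := by
  constructor
  · intro h
    ext σ i j
    obtain ⟨c, hc⟩ := residue_surjective (R := 𝒪) (rbar σ i j)
    have h1 := h σ i j c hc
    rw [← residue_eq_zero_iff, map_sub, sub_eq_zero] at h1
    rw [mapRep_apply, mapRep_apply, h1, ← hc, hι]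
  · intro h σ i j c hc
    have h1 : residue A (r σ i j) = ι (rbar σ i j) := by
      have := congrFun (congrFun (DFunLike.congr_fun h σ) i) j
      simpa using this
    rw [← residue_eq_zero_iff, map_sub, sub_eq_zero, h1, ← hc, hι]

/-- If `r` lifts `rbar` entrywise, then the residual representation of `ofMat r` is `ρbar`. -/
theorem residual_isEquiv_of_lifts (ρbar : ResidualGaloisRep (ResidueField 𝒪))
    (b : Module.Basis (Fin 2) (ResidueField 𝒪) ρbar.V) (rbar : GQ →* M2 (ResidueField 𝒪))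
    (hrbar : ∀ σ, LinearMap.toMatrix b b (ρbar.ρ σ) = rbar σ)
    (ι : ResidueField 𝒪 →+* ResidueField A)
    (hι : ∀ c : 𝒪, ι (residue 𝒪 c) = residue A (algebraMap 𝒪 A c))
    (r : GQ →* M2 A) (hc : MatCont A r) (hl : Lifts rbar r) :
    (ofMat r hc).residual.IsEquiv (ρbar.baseChangeAlong ι) := by
  have hb : toMatRes ρbar b = rbar := by
    ext σ : 1
    exact hrbar σ
  refine isEquiv_res_of_toMatRes_eq (residualBasis (ofMat r hc) (Pi.basisFun A (Fin 2)))
    (baseChangeBasisRes ι ρbar b) ?_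
  rw [toMatRes_residual, toMatRes_baseChangeAlong, toMat_ofMat, hb]
  exact (lifts_iff_mapRep_eq rbar ι hι r).1 hl

/-- Every lift of `ρbar` has a matrix form lifting `rbar` entrywise. -/
theorem exists_ofMat_lifts (ρbar : ResidualGaloisRep (ResidueField 𝒪))
    (b : Module.Basis (Fin 2) (ResidueField 𝒪) ρbar.V) (rbar : GQ →* M2 (ResidueField 𝒪))
    (hrbar : ∀ σ, LinearMap.toMatrix b b (ρbar.ρ σ) = rbar σ)
    (ι : ResidueField 𝒪 →+* ResidueField A)
    (hι : ∀ c : 𝒪, ι (residue 𝒪 c) = residue A (algebraMap 𝒪 A c))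
    (ρ : GaloisRepAdic A) (h : ρ.residual.IsEquiv (ρbar.baseChangeAlong ι)) :
    ∃ (r : GQ →* M2 A) (hc : MatCont A r), ρ.IsEquiv (ofMat r hc) ∧ Lifts rbar r := by
  have hb : toMatRes ρbar b = rbar := by
    ext σ : 1
    exact hrbar σ
  obtain ⟨Mbar, hMbar⟩ := exists_conj_of_isEquiv_res h (residualBasis ρ (someBasis ρ))
    (baseChangeBasisRes ι ρbar b)
  rw [toMatRes_residual, toMatRes_baseChangeAlong, hb] at hMbar
  obtain ⟨M, hM⟩ := exists_unit_lift Mbar
  have hcont : MatCont A (conjRep M (toMat ρ (someBasis ρ))) := (toMat_cont ρ _).conjRep M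
  refine ⟨conjRep M (toMat ρ (someBasis ρ)), hcont, ?_, ?_⟩
  · obtain ⟨e⟩ : ρ.IsEquiv _ := ⟨equivOfMat ρ (someBasis ρ)⟩
    obtain ⟨e'⟩ := ofMat_isEquiv_of_conj (toMat_cont ρ (someBasis ρ)) hcont M
      (mul_eq_conjRep_mul M _)
    exact ⟨e.trans e'⟩
  · rw [lifts_iff_mapRep_eq rbar ι hι]
    ext σ : 1
    have h1 := hMbar σ
    have h2 : (M : M2 A).map (residue A) * (toMat ρ (someBasis ρ) σ).map (residue A)
        = (conjRep M (toMat ρ (someBasis ρ)) σ).map (residue A) * (M : M2 A).map (residue A) := by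
      rw [← Matrix.map_mul, ← Matrix.map_mul, mul_eq_conjRep_mul]
    rw [hM] at h2
    rw [mapRep_apply'] at h1
    rw [mapRep_apply']
    exact Mbar.isUnit.mul_right_cancel (h2.symm.trans h1)

end Dict

end Fermat.Agent.S53
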