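import Fermat.Agent.S53.Defs

set_option autoImplicit false

open scoped TensorProduct

namespace Fermat.Agent.S53

section Basics

variable {A : Type} [CommRing A]

theorem mem_smul_top_iff_repr {ι V : Type*} [Fintype ι] [AddCommGroup V] [Module A V]
    (b : Module.Basis ι A V) (I : Ideal A) (v : V) :
    v ∈ I • (⊤ : Submodule A V) ↔ ∀ i, b.repr v i ∈ I := by
  constructor
  · intro hv
    refine Submodule.smul_induction_on (p := fun v => ∀ i, b.repr v i ∈ I) hv ?_ ?_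
    · intro a ha w _ i
      rw [map_smul, Finsupp.smul_apply, smul_eq_mul]
      exact I.mul_mem_right _ ha
    · intro x y hx hy i
      rw [map_add, Finsupp.add_apply]
      exact I.add_mem (hx i) (hy i)
  · intro h
    rw [← b.sum_repr v]
    exact Submodule.sum_mem _ fun i _ => Submodule.smul_mem_smul (h i) Submodule.mem_top

theorem mem_smul_top_pi_iff {ι : Type*} [Fintype ι] [DecidableEq ι] (I : Ideal A) (v : ι → A) :
    v ∈ I • (⊤ : Submodule A (ι → A)) ↔ ∀ i, v i ∈ I := by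
  rw [mem_smul_top_iff_repr (Pi.basisFun A ι)]
  simp

end Basics

section MatCont

variable {A : Type} [CommRing A] [IsLocalRing A]

/-- The Galois representation on `A²` attached to a continuous matrix valued representation. -/
@[reducible] noncomputable def ofMat (r : GQ →* M2 A) (hr : MatCont A r) : GaloisRepAdic A where
  V := Fin 2 → A
  finrank_eq := by simp
  ρ := (Matrix.toLinAlgEquiv' (R := A) (n := Fin 2) : M2 A →* Module.End A (Fin 2 → A)).comp r
  isAdicContinuous := by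
    intro n
    obtain ⟨L, hL, h⟩ := hr n
    refine ⟨L, hL, fun σ hσ v => ?_⟩
    rw [mem_smul_top_pi_iff]
    intro i
    have h1 : ((Matrix.toLinAlgEquiv' (R := A) (n := Fin 2) : M2 A →* Module.End A (Fin 2 → A)).comp r)
        σ v - v = (r σ - 1).mulVec v := by
      rw [Matrix.sub_mulVec, Matrix.one_mulVec]
      rfl
    rw [h1, Matrix.mulVec, dotProduct]
    exact Ideal.sum_mem _ fun j _ => Ideal.mul_mem_right _ _ (h σ hσ i j)

@[simp] theorem ofMat_ρ_apply (r : GQ →* M2 A) (hr : MatCont A r) (σ : GQ) (v : Fin 2 → A) :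
    (ofMat r hr).ρ σ v = (r σ).mulVec v := rfl

/-- The matrix valued representation attached to a basis. -/
noncomputable def toMat (ρ : GaloisRepAdic A) (b : Module.Basis (Fin 2) A ρ.V) : GQ →* M2 A :=
  (LinearMap.toMatrixAlgEquiv b : Module.End A ρ.V →* M2 A).comp ρ.ρ

theorem toMat_apply (ρ : GaloisRepAdic A) (b : Module.Basis (Fin 2) A ρ.V) (σ : GQ) :
    toMat ρ b σ = LinearMap.toMatrix b b (ρ.ρ σ) := rfl

theorem toMat_cont (ρ : GaloisRepAdic A) (b : Module.Basis (Fin 2) A ρ.V) : MatCont _ (toMat ρ b) := by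
  intro n
  obtain ⟨L, hL, h⟩ := ρ.isAdicContinuous n
  refine ⟨L, hL, fun σ hσ i j => ?_⟩
  have h1 := (mem_smul_top_iff_repr b _ _).1 (h σ hσ (b j)) i
  rw [Matrix.sub_apply, toMat_apply, LinearMap.toMatrix_apply, Matrix.one_apply]
  rw [map_sub, Finsupp.sub_apply, b.repr_self, Finsupp.single_apply] at h1
  simpa [eq_comm] using h1

/-- A basis of the underlying module. -/
noncomputable def someBasis (ρ : GaloisRepAdic A) : Module.Basis (Fin 2) A ρ.V :=
  Module.finBasisOfFinrankEq A ρ.V ρ.finrank_eq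

/-- Every representation is equivalent to its matrix form. -/
noncomputable def equivOfMat (ρ : GaloisRepAdic A) (b : Module.Basis (Fin 2) A ρ.V) :
    GaloisRepAdic.Equiv ρ (ofMat (toMat ρ b) (toMat_cont ρ b)) where
  toLinearEquiv := b.equivFun
  map_apply σ x := by
    show b.equivFun (ρ.ρ σ x) = (toMat ρ b σ).mulVec (b.equivFun x)
    rw [toMat_apply]
    exact (LinearMap.toMatrix_mulVec_repr b b (ρ.ρ σ) x).symm

theorem exists_isEquiv_ofMat (ρ : GaloisRepAdic A) :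
    ∃ (r : GQ →* M2 A) (hr : MatCont A r), ρ.IsEquiv (ofMat r hr) :=
  ⟨_, _, ⟨equivOfMat ρ (someBasis ρ)⟩⟩

theorem toMat_ofMat (r : GQ →* M2 A) (hr : MatCont A r) :
    toMat (ofMat r hr) (Pi.basisFun A (Fin 2)) = r := by
  ext σ : 1
  rw [toMat_apply]
  exact LinearMap.toMatrix'_toLin' (r σ)

theorem ofMat_congr {r r' : GQ →* M2 A} (h : r = r') (hr : MatCont A r) (hr' : MatCont A r') :
    (ofMat r hr).IsEquiv (ofMat r' hr') := by
  subst h
  exact ⟨GaloisRepAdic.Equiv.refl _⟩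

/-- Conjugate matrix representations give equivalent representations. -/
theorem ofMat_isEquiv_of_conj {r r' : GQ →* M2 A} (hr : MatCont A r) (hr' : MatCont A r')
    (M : GL (Fin 2) A) (h : ∀ σ, (M : M2 A) * r σ = r' σ * (M : M2 A)) :
    (ofMat r hr).IsEquiv (ofMat r' hr') := by
  refine ⟨⟨Matrix.toLin'OfInv (M' := (M : M2 A)) (M := ((M⁻¹ : GL (Fin 2) A) : M2 A))
    (by rw [← Units.val_mul, inv_mul_cancel, Units.val_one])
    (by rw [← Units.val_mul, mul_inv_cancel, Units.val_one]), fun σ x => ?_⟩⟩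
  show (M : M2 A).mulVec ((r σ).mulVec x) = (r' σ).mulVec ((M : M2 A).mulVec x)
  rw [Matrix.mulVec_mulVec, Matrix.mulVec_mulVec, h]

theorem exists_conj_of_ofMat_isEquiv {r r' : GQ →* M2 A} {hr : MatCont A r} {hr' : MatCont A r'}
    (h : (ofMat r hr).IsEquiv (ofMat r' hr')) :
    ∃ M : GL (Fin 2) A, ∀ σ, (M : M2 A) * r σ = r' σ * (M : M2 A) := by
  obtain ⟨e⟩ := h
  let e' : (Fin 2 → A) ≃ₗ[A] (Fin 2 → A) := e.toLinearEquiv
  refine ⟨⟨LinearMap.toMatrix' (e' : (Fin 2 → A) →ₗ[A] (Fin 2 → A)),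
    LinearMap.toMatrix' (e'.symm : (Fin 2 → A) →ₗ[A] (Fin 2 → A)), ?_, ?_⟩, fun σ => ?_⟩
  · rw [← LinearMap.toMatrix'_comp, LinearEquiv.comp_coe, LinearEquiv.symm_trans_self,
      LinearEquiv.refl_toLinearMap, LinearMap.toMatrix'_id]
  · rw [← LinearMap.toMatrix'_comp, LinearEquiv.comp_coe, LinearEquiv.self_trans_symm,
      LinearEquiv.refl_toLinearMap, LinearMap.toMatrix'_id]
  show LinearMap.toMatrix' (e' : (Fin 2 → A) →ₗ[A] (Fin 2 → A)) * r σ
    = r' σ * LinearMap.toMatrix' (e' : (Fin 2 → A) →ₗ[A] (Fin 2 → A))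
  apply Matrix.toLin'.injective
  rw [Matrix.toLin'_mul, Matrix.toLin'_mul, Matrix.toLin'_toMatrix']
  refine LinearMap.ext fun x => ?_
  exact e.map_apply σ x

theorem ofMat_isEquiv_iff {r r' : GQ →* M2 A} (hr : MatCont A r) (hr' : MatCont A r') :
    (ofMat r hr).IsEquiv (ofMat r' hr') ↔
      ∃ M : GL (Fin 2) A, ∀ σ, (M : M2 A) * r σ = r' σ * (M : M2 A) :=
  ⟨exists_conj_of_ofMat_isEquiv, fun ⟨M, h⟩ => ofMat_isEquiv_of_conj hr hr' M h⟩

end MatCont

section BaseChange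

variable {A B : Type} [CommRing A] [IsLocalRing A] [CommRing B] [IsLocalRing B]

theorem mapRep_apply' {A B : Type} [CommRing A] [CommRing B] (φ : A →+* B)
    (r : GQ →* M2 A) (σ : GQ) : mapRep φ r σ = (r σ).map φ := rfl

theorem mapRep_mapRep {A B C : Type} [CommRing A] [CommRing B] [CommRing C] (φ : A →+* B)
    (ψ : B →+* C) (r : GQ →* M2 A) : mapRep ψ (mapRep φ r) = mapRep (ψ.comp φ) r := by
  ext σ i j
  simp

theorem map_maximalIdeal_pow_le (φ : A →+* B) (hφ : IsLocalHom φ) (n : ℕ) :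
    (IsLocalRing.maximalIdeal A ^ n).map φ ≤ IsLocalRing.maximalIdeal B ^ n := by
  rw [Ideal.map_pow]
  exact Ideal.pow_right_mono (Ideal.map_le_iff_le_comap.mpr fun a ha =>
    Ideal.mem_comap.mpr (haveI := hφ; map_nonunit φ a ha)) n

theorem MatCont.mapRep {r : GQ →* M2 A} (hr : MatCont A r) (φ : A →+* B) (hφ : IsLocalHom φ) :
    MatCont _ (Fermat.Agent.S53.mapRep φ r) := by
  intro n
  obtain ⟨L, hL, h⟩ := hr n
  refine ⟨L, hL, fun σ hσ i j => ?_⟩
  have h1 : (Fermat.Agent.S53.mapRep φ r σ - 1) i j = φ ((r σ - 1) i j) := by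
    simp only [mapRep_apply', Matrix.sub_apply, Matrix.map_apply, map_sub, Matrix.one_apply]
    split_ifs <;> simp
  rw [h1]
  exact map_maximalIdeal_pow_le φ hφ n (Ideal.mem_map_of_mem φ (h σ hσ i j))

/-- The base changed basis. -/
noncomputable def baseChangeBasis (φ : A →+* B) (hφ : IsLocalHom φ) (ρ : GaloisRepAdic A)
    (b : Module.Basis (Fin 2) A ρ.V) : Module.Basis (Fin 2) B (ρ.baseChangeAlong φ hφ).V :=
  letI : Algebra A B := φ.toAlgebra
  Algebra.TensorProduct.basis B b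

theorem toMat_baseChangeAlong (φ : A →+* B) (hφ : IsLocalHom φ) (ρ : GaloisRepAdic A)
    (b : Module.Basis (Fin 2) A ρ.V) :
    toMat (ρ.baseChangeAlong φ hφ) (baseChangeBasis φ hφ ρ b) = mapRep φ (toMat ρ b) := by
  let _ : Algebra A B := φ.toAlgebra
  ext σ : 1
  exact LinearMap.toMatrix_baseChange B (ρ.ρ σ) b b

theorem baseChangeAlong_isEquiv_ofMat (φ : A →+* B) (hφ : IsLocalHom φ) (ρ : GaloisRepAdic A)
    (b : Module.Basis (Fin 2) A ρ.V) :
    (ρ.baseChangeAlong φ hφ).IsEquiv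
      (ofMat (mapRep φ (toMat ρ b)) ((toMat_cont ρ b).mapRep φ hφ)) := by
  obtain ⟨e⟩ : (ρ.baseChangeAlong φ hφ).IsEquiv _ :=
    ⟨equivOfMat (ρ.baseChangeAlong φ hφ) (baseChangeBasis φ hφ ρ b)⟩
  obtain ⟨e'⟩ := ofMat_congr (toMat_baseChangeAlong φ hφ ρ b) (toMat_cont _ _)
    ((toMat_cont ρ b).mapRep φ hφ)
  exact ⟨e.trans e'⟩

theorem ofMat_baseChangeAlong_isEquiv (φ : A →+* B) (hφ : IsLocalHom φ) (r : GQ →* M2 A)
    (hr : MatCont A r) :
    ((ofMat r hr).baseChangeAlong φ hφ).IsEquiv (ofMat (mapRep φ r) (hr.mapRep φ hφ)) := by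
  obtain ⟨e⟩ := baseChangeAlong_isEquiv_ofMat φ hφ (ofMat r hr) (Pi.basisFun A (Fin 2))
  obtain ⟨e'⟩ := ofMat_congr (congrArg (mapRep φ) (toMat_ofMat r hr))
    ((toMat_cont _ _).mapRep φ hφ) (hr.mapRep φ hφ)
  exact ⟨e.trans e'⟩

theorem baseChange_ofMat (φ : A →+* B) (hφ : IsLocalHom φ) {r : GQ →* M2 A}
    (hr : MatCont A r) (hr' : MatCont B (mapRep φ r)) :
    ((ofMat r hr).baseChangeAlong φ hφ).IsEquiv (ofMat (mapRep φ r) hr') :=
  ofMat_baseChangeAlong_isEquiv φ hφ r hr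

end BaseChange

section HasMatrix

variable {A : Type} [CommRing A] [IsLocalRing A]

theorem exists_ofMat (ρ : GaloisRepAdic A) :
    ∃ (r : GQ →* M2 A) (hr : MatCont A r), ρ.IsEquiv (ofMat r hr) :=
  exists_isEquiv_ofMat ρ

theorem hasMatrix_toMat (ρ : GaloisRepAdic A) (b : Module.Basis (Fin 2) A ρ.V) :
    HasMatrix ρ (toMat ρ b) := ⟨b, fun _ => rfl⟩

theorem hasMatrix_ofMat (r : GQ →* M2 A) (hr : MatCont A r) : HasMatrix (ofMat r hr) r :=
  ⟨Pi.basisFun A (Fin 2), fun σ => DFunLike.congr_fun (toMat_ofMat r hr) σ⟩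

theorem HasMatrix.matCont {ρ : GaloisRepAdic A} {r : GQ →* M2 A} (h : HasMatrix ρ r) :
    MatCont A r := by
  obtain ⟨b, hb⟩ := h
  have : toMat ρ b = r := by
    ext σ : 1
    exact hb σ
  rw [← this]
  exact toMat_cont ρ b

theorem HasMatrix.isEquiv_ofMat {ρ : GaloisRepAdic A} {r : GQ →* M2 A} (h : HasMatrix ρ r)
    (hr : MatCont A r) : ρ.IsEquiv (ofMat r hr) := by
  obtain ⟨b, hb⟩ := h
  have : toMat ρ b = r := by
    ext σ : 1
    exact hb σ
  subst this
  exact ⟨equivOfMat ρ b⟩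

theorem hasMatrix_of_isEquiv_ofMat {ρ : GaloisRepAdic A} {r : GQ →* M2 A} {hr : MatCont A r}
    (h : ρ.IsEquiv (ofMat r hr)) : HasMatrix ρ r := by
  obtain ⟨e⟩ := h
  refine ⟨(Pi.basisFun A (Fin 2)).map e.toLinearEquiv.symm, fun σ => ?_⟩
  ext i j
  rw [LinearMap.toMatrix_apply, Module.Basis.map_repr, LinearEquiv.trans_apply,
    LinearEquiv.symm_symm, Module.Basis.map_apply, e.map_apply, LinearEquiv.apply_symm_apply]
  show ((r σ).mulVec (Pi.basisFun A (Fin 2) j)) i = r σ i j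
  simp

theorem hasMatrix_iff_isEquiv_ofMat {ρ : GaloisRepAdic A} {r : GQ →* M2 A} (hr : MatCont A r) :
    HasMatrix ρ r ↔ ρ.IsEquiv (ofMat r hr) :=
  ⟨fun h => h.isEquiv_ofMat hr, hasMatrix_of_isEquiv_ofMat⟩

end HasMatrix

end Fermat.Agent.S53
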