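import Mathlib
import Fermat.Prelude.Def_GaloisRep_Residual

set_option autoImplicit false

namespace Fermat.Agent.S53

open Matrix IsLocalRing Polynomial
open scoped TensorProduct

section Unique

variable {A : Type*} [CommRing A]

/-- If `M` intertwines `T` and `T'`, both with first column `(0,1)`, then `M = a + b T'`. -/
theorem eq_add_smul_of_intertwine (T T' M : Matrix (Fin 2) (Fin 2) A)
    (h00 : T 0 0 = 0) (h10 : T 1 0 = 1) (h00' : T' 0 0 = 0) (h10' : T' 1 0 = 1)
    (hM : M * T = T' * M) :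
    M = M 0 0 • (1 : Matrix (Fin 2) (Fin 2) A) + M 1 0 • T' := by
  have e00 := congrFun (congrFun hM 0) 0
  have e10 := congrFun (congrFun hM 1) 0
  simp only [Matrix.mul_apply, Fin.sum_univ_two, h00, h10, h00', h10'] at e00 e10
  ext i j
  fin_cases i <;> fin_cases j <;> simp [h00', h10']
  · linear_combination e00
  · linear_combination e10

/-- Rigidity of the normal form: an intertwiner between two normalised families is scalar. -/
theorem intertwiner_scalar {G : Type*} (r r' : G → Matrix (Fin 2) (Fin 2) A)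
    (s1 s2 : G) (i0 j0 : Fin 2)
    (h00 : r s1 0 0 = 0) (h10 : r s1 1 0 = 1) (h00' : r' s1 0 0 = 0) (h10' : r' s1 1 0 = 1)
    (hc : r s2 i0 j0 = r' s2 i0 j0)
    (hunit : IsUnit ((r' s2 * r' s1 - r' s1 * r s2) i0 j0))
    (M : Matrix (Fin 2) (Fin 2) A) (hconj : ∀ g, M * r g = r' g * M) :
    M = M 0 0 • (1 : Matrix (Fin 2) (Fin 2) A) := by
  have hM := eq_add_smul_of_intertwine (r s1) (r' s1) M h00 h10 h00' h10' (hconj s1)
  set a := M 0 0
  set b := M 1 0
  have h2 := hconj s2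
  rw [hM] at h2
  have h3 : a • (r s2 - r' s2) = b • (r' s2 * r' s1 - r' s1 * r s2) := by
    have : (a • (1 : Matrix (Fin 2) (Fin 2) A) + b • r' s1) * r s2
        = r' s2 * (a • (1 : Matrix (Fin 2) (Fin 2) A) + b • r' s1) := h2
    simp only [add_mul, mul_add, smul_mul_assoc, mul_smul_comm, one_mul, mul_one] at this
    rw [smul_sub, smul_sub, sub_eq_sub_iff_add_eq_add]
    rw [add_comm (b • (r' s2 * r' s1))]
    exact this
  have h4 := congrFun (congrFun h3 i0) j0
  simp only [Matrix.smul_apply, Matrix.sub_apply, hc, sub_self, smul_eq_mul, mul_zero] at h4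
  have hb : b = 0 := by
    have h5 : b * ((r' s2 * r' s1 - r' s1 * r s2) i0 j0) = 0 := by
      simpa [Matrix.sub_apply] using h4.symm
    exact (hunit.mul_left_eq_zero).mp h5
  rw [hM, hb, zero_smul, add_zero]

theorem normalForm_unique {G : Type*} (r r' : G → Matrix (Fin 2) (Fin 2) A)
    (s1 s2 : G) (i0 j0 : Fin 2)
    (h00 : r s1 0 0 = 0) (h10 : r s1 1 0 = 1) (h00' : r' s1 0 0 = 0) (h10' : r' s1 1 0 = 1)
    (hc : r s2 i0 j0 = r' s2 i0 j0)
    (hunit : IsUnit ((r' s2 * r' s1 - r' s1 * r s2) i0 j0))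
    (M : Matrix (Fin 2) (Fin 2) A) (hM : IsUnit M) (hconj : ∀ g, M * r g = r' g * M) :
    r = r' := by
  have hs := intertwiner_scalar r r' s1 s2 i0 j0 h00 h10 h00' h10' hc hunit M hconj
  funext g
  have h := hconj g
  have hcomm : r' g * M = M * r' g := by
    rw [hs]; simp
  rw [hcomm] at h
  exact hM.mul_left_cancel h

end Unique

section Exist
variable {A : Type*} [CommRing A] [IsLocalRing A]

/-- Solving a quadratic `a0 + a1 y + a2 y^2 = 0` with `a0 ∈ m`, `a1` a unit. -/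
theorem exists_quadratic_root [HenselianRing A (maximalIdeal A)] (a0 a1 a2 : A)
    (h0 : a0 ∈ maximalIdeal A) (h1 : IsUnit a1) :
    ∃ y ∈ maximalIdeal A, a0 + a1 * y + a2 * y ^ 2 = 0 := by
  let f : A[X] := X ^ 2 + C a1 * X + C (a0 * a2)
  have hf : f.Monic := by
    have : f = X ^ 2 + (C a1 * X + C (a0 * a2)) := by simp only [f]; ring
    rw [this]
    apply Polynomial.monic_X_pow_add
    refine lt_of_le_of_lt (Polynomial.degree_linear_le) ?_
    norm_num
  have he : f.eval (-a1) ∈ maximalIdeal A := by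
    have : f.eval (-a1) = a0 * a2 := by simp [f]; ring
    rw [this]; exact Ideal.mul_mem_right _ _ h0
  have hd : IsUnit (Ideal.Quotient.mk (maximalIdeal A) (f.derivative.eval (-a1))) := by
    have : f.derivative.eval (-a1) = -a1 := by simp [f]; ring
    rw [this]; exact h1.neg.map _
  obtain ⟨u, hu, hu'⟩ := HenselianRing.is_henselian f hf (-a1) he hd
  have hu0 : u ^ 2 + a1 * u + a0 * a2 = 0 := by
    have := hu; simp only [IsRoot.def, f] at this; simpa using this
  have huu : IsUnit u := by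
    by_contra hnu
    have hum : u ∈ maximalIdeal A := (mem_maximalIdeal u).mpr hnu
    have : a1 ∈ maximalIdeal A := by
      have h := (maximalIdeal A).sub_mem hum hu'
      have e : u - (u - -a1) = -a1 := by ring
      rw [e] at h
      simpa using h
    exact (mem_maximalIdeal a1).mp this h1
  obtain ⟨v, rfl⟩ := huu
  refine ⟨a0 * ↑v⁻¹, Ideal.mul_mem_right _ _ h0, ?_⟩
  have hv : (v : A) * ↑v⁻¹ = 1 := v.mul_inv
  linear_combination (a0 * (↑v⁻¹ : A) ^ 2) * hu0 + (-a0 - a0 * a1 * ↑v⁻¹ - a0 * (v : A) * ↑v⁻¹) * hv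

/-- entrywise congruence to `1` modulo the maximal ideal -/
def CongOne (M : Matrix (Fin 2) (Fin 2) A) : Prop :=
  (residue A).mapMatrix M = 1

theorem congOne_iff (M : Matrix (Fin 2) (Fin 2) A) :
    CongOne M ↔ ∀ i j, (M - 1) i j ∈ maximalIdeal A := by
  unfold CongOne
  constructor
  · intro h i j
    have := congrFun (congrFun h i) j
    rw [← residue_eq_zero_iff, Matrix.sub_apply, map_sub]
    simp only [RingHom.mapMatrix_apply, Matrix.map_apply] at this
    rw [this]
    by_cases hij : i = j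
    · subst hij; simp
    · simp [hij]
  · intro h
    ext i j
    have := h i j
    rw [← residue_eq_zero_iff, Matrix.sub_apply, map_sub, sub_eq_zero] at this
    simp only [RingHom.mapMatrix_apply, Matrix.map_apply, this]
    by_cases hij : i = j
    · subst hij; simp
    · simp [hij]

/-- Step 1: move the first column of `T` to `(0,1)`. -/
theorem exists_conj_firstCol (T : Matrix (Fin 2) (Fin 2) A)
    (h00 : T 0 0 ∈ maximalIdeal A) (h10 : T 1 0 - 1 ∈ maximalIdeal A) :
    ∃ N : (Matrix (Fin 2) (Fin 2) A)ˣ, CongOne (N : Matrix (Fin 2) (Fin 2) A) ∧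
      ((↑N⁻¹ : Matrix (Fin 2) (Fin 2) A) * T * N) 0 0 = 0 ∧
      ((↑N⁻¹ : Matrix (Fin 2) (Fin 2) A) * T * N) 1 0 = 1 := by
  have hu : IsUnit (T 1 0) := by
    by_contra hnu
    have hum : T 1 0 ∈ maximalIdeal A := (mem_maximalIdeal _).mpr hnu
    have h := (maximalIdeal A).sub_mem hum h10
    rw [sub_sub_cancel] at h
    exact (Ideal.ne_top_iff_one _).mp (maximalIdeal.isMaximal A).ne_top h
  obtain ⟨u, hu⟩ := hu
  have huv : T 1 0 * ↑u⁻¹ = 1 := by rw [← hu]; exact u.mul_inv
  have hvu : (↑u⁻¹ : A) * T 1 0 = 1 := by rw [← hu]; exact u.inv_mul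
  let N : Matrix (Fin 2) (Fin 2) A := !![1, T 0 0; 0, T 1 0]
  let N' : Matrix (Fin 2) (Fin 2) A := !![1, -T 0 0 * ↑u⁻¹; 0, ↑u⁻¹]
  have h1 : N * N' = 1 := by
    ext i j
    fin_cases i <;> fin_cases j <;> simp [N, N', Matrix.mul_apply, Fin.sum_univ_two, huv]
  have h2 : N' * N = 1 := by
    ext i j
    fin_cases i <;> fin_cases j <;> simp [N, N', Matrix.mul_apply, Fin.sum_univ_two, hvu]
    linear_combination (-T 0 0) * hvu
  refine ⟨⟨N, N', h1, h2⟩, ?_, ?_, ?_⟩
  · rw [congOne_iff]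
    intro i j
    fin_cases i <;> fin_cases j <;> simp [N, h00, h10]
  · show (N' * T * N) 0 0 = 0
    simp only [N, N', Matrix.mul_apply, Fin.sum_univ_two, Matrix.of_apply, Matrix.cons_val_zero,
      Matrix.cons_val_one, Matrix.cons_val', Matrix.cons_val_fin_one]
    linear_combination (-T 0 0) * hvu
  · show (N' * T * N) 1 0 = 1
    simp only [N, N', Matrix.mul_apply, Fin.sum_univ_two, Matrix.of_apply, Matrix.cons_val_zero,
      Matrix.cons_val_one, Matrix.cons_val', Matrix.cons_val_fin_one]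
    linear_combination hvu

theorem isUnit_of_sub_mem {a b : A} (hb : IsUnit b) (h : a - b ∈ maximalIdeal A) : IsUnit a := by
  by_contra hnu
  have hum : a ∈ maximalIdeal A := (mem_maximalIdeal _).mpr hnu
  have h' := (maximalIdeal A).sub_mem hum h
  rw [sub_sub_cancel] at h'
  exact (mem_maximalIdeal _).mp h' hb

/-- Step 2: conjugating by `1 + y T` to fix one entry of `X`. -/
theorem exists_conj_entry [HenselianRing A (maximalIdeal A)] (T X : Matrix (Fin 2) (Fin 2) A)
    (i0 j0 : Fin 2) (c : A)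
    (hc : X i0 j0 - c ∈ maximalIdeal A) (hunit : IsUnit ((X * T - T * X) i0 j0)) :
    ∃ M : (Matrix (Fin 2) (Fin 2) A)ˣ, CongOne (M : Matrix (Fin 2) (Fin 2) A) ∧
      (↑M⁻¹ : Matrix (Fin 2) (Fin 2) A) * T * M = T ∧
      ((↑M⁻¹ : Matrix (Fin 2) (Fin 2) A) * X * M) i0 j0 = c := by
  set t := T.trace with ht
  set d := T.det with hd
  set S := T.adjugate with hS
  have hS' : S = t • (1 : Matrix (Fin 2) (Fin 2) A) - T := by
    rw [hS, ht, Matrix.adjugate_fin_two, Matrix.trace_fin_two]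
    ext i j
    fin_cases i <;> fin_cases j <;> simp
  have hTS : T * S = d • (1 : Matrix (Fin 2) (Fin 2) A) := Matrix.mul_adjugate T
  have hST : S * T = d • (1 : Matrix (Fin 2) (Fin 2) A) := Matrix.adjugate_mul T
  have hsum : T + S = t • (1 : Matrix (Fin 2) (Fin 2) A) := by rw [hS']; abel
  set a0 := X i0 j0 - c with ha0
  set a1 := (S * X + X * T) i0 j0 - c * t with ha1
  set a2 := (S * X * T) i0 j0 - c * d with ha2
  have ha1' : a1 = t * a0 + (X * T - T * X) i0 j0 := by
    rw [ha1, ha0, hS']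
    simp only [sub_mul, smul_mul_assoc, one_mul, Matrix.add_apply, Matrix.sub_apply,
      Matrix.smul_apply, smul_eq_mul]
    ring
  have hu1 : IsUnit a1 := by
    apply isUnit_of_sub_mem hunit
    rw [ha1', add_sub_cancel_right]
    exact Ideal.mul_mem_left _ _ hc
  obtain ⟨y, hy, hroot⟩ := exists_quadratic_root a0 a1 a2 hc hu1
  set δ := 1 + y * t + y ^ 2 * d with hδ
  have hδu : IsUnit δ := by
    apply isUnit_of_sub_mem isUnit_one
    have : δ - 1 = y * (t + y * d) := by rw [hδ]; ring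
    rw [this]; exact Ideal.mul_mem_right _ _ hy
  obtain ⟨e, he⟩ := hδu
  have hee : (↑e⁻¹ : A) * δ = 1 := by rw [← he]; exact e.inv_mul
  let M : Matrix (Fin 2) (Fin 2) A := 1 + y • T
  let M' : Matrix (Fin 2) (Fin 2) A := 1 + y • S
  have hMM' : M * M' = δ • (1 : Matrix (Fin 2) (Fin 2) A) := by
    have : M * M' = 1 + y • (T + S) + (y ^ 2) • (T * S) := by
      simp only [M, M', add_mul, mul_add, one_mul, mul_one, smul_mul_assoc, mul_smul_comm,
        smul_add, smul_smul]
      rw [pow_two]; abel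
    rw [this, hsum, hTS, hδ]
    simp only [smul_smul, add_smul, one_smul]
  have hM'M : M' * M = δ • (1 : Matrix (Fin 2) (Fin 2) A) := by
    have : M' * M = 1 + y • (T + S) + (y ^ 2) • (S * T) := by
      simp only [M, M', add_mul, mul_add, one_mul, mul_one, smul_mul_assoc, mul_smul_comm,
        smul_add, smul_smul]
      rw [pow_two]; abel
    rw [this, hsum, hST, hδ]
    simp only [smul_smul, add_smul, one_smul]
  have h1 : M * ((↑e⁻¹ : A) • M') = 1 := by
    rw [mul_smul_comm, hMM', smul_smul, hee, one_smul]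
  have h2 : ((↑e⁻¹ : A) • M') * M = 1 := by
    rw [smul_mul_assoc, hM'M, smul_smul, hee, one_smul]
  refine ⟨⟨M, (↑e⁻¹ : A) • M', h1, h2⟩, ?_, ?_, ?_⟩
  · show (residue A).mapMatrix M = 1
    simp only [M, map_add, map_one]
    have : (residue A).mapMatrix (y • T) = 0 := by
      ext i j
      simp [(residue_eq_zero_iff y).mpr hy]
    rw [this, add_zero]
  · show ((↑e⁻¹ : A) • M') * T * M = T
    have hcomm : T * M = M * T := by
      simp only [M, add_mul, mul_add, one_mul, mul_one, smul_mul_assoc, mul_smul_comm]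
    rw [mul_assoc, hcomm, ← mul_assoc, h2, one_mul]
  · show (((↑e⁻¹ : A) • M') * X * M) i0 j0 = c
    have hexp : M' * X * M = X + y • (S * X + X * T) + (y ^ 2) • (S * X * T) := by
      simp only [M, M', add_mul, mul_add, one_mul, mul_one, smul_mul_assoc, mul_smul_comm,
        smul_add, smul_smul]
      rw [pow_two]; abel
    rw [smul_mul_assoc, smul_mul_assoc, hexp]
    simp only [Matrix.smul_apply, Matrix.add_apply, smul_eq_mul]
    have key : X i0 j0 + y * ((S * X) i0 j0 + (X * T) i0 j0) + y ^ 2 * (S * X * T) i0 j0 = c * δ := by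
      have := hroot
      rw [ha0, ha1, ha2, Matrix.add_apply] at this
      rw [hδ]
      linear_combination this
    rw [key]
    linear_combination c * hee


theorem CongOne.inv {M : (Matrix (Fin 2) (Fin 2) A)ˣ} (h : CongOne (M : Matrix (Fin 2) (Fin 2) A)) :
    CongOne ((↑M⁻¹ : Matrix (Fin 2) (Fin 2) A)) := by
  unfold CongOne at *
  have := congrArg (residue A).mapMatrix M.inv_mul
  rw [map_mul, h, mul_one, map_one] at this
  exact this

theorem CongOne.mul {M N : Matrix (Fin 2) (Fin 2) A} (hM : CongOne M) (hN : CongOne N) :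
    CongOne (M * N) := by
  unfold CongOne at *
  rw [map_mul, hM, hN, one_mul]

theorem CongOne.residue_conj {M : (Matrix (Fin 2) (Fin 2) A)ˣ}
    (h : CongOne (M : Matrix (Fin 2) (Fin 2) A)) (X : Matrix (Fin 2) (Fin 2) A) (i j : Fin 2) :
    residue A (((↑M⁻¹ : Matrix (Fin 2) (Fin 2) A) * X * (M : Matrix (Fin 2) (Fin 2) A)) i j)
      = residue A (X i j) := by
  have h1 : (residue A).mapMatrix
      ((↑M⁻¹ : Matrix (Fin 2) (Fin 2) A) * X * (M : Matrix (Fin 2) (Fin 2) A))
      = (residue A).mapMatrix X := by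
    have hi := h.inv
    unfold CongOne at h hi
    rw [map_mul, map_mul, h, hi, one_mul, mul_one]
  exact congrFun (congrFun h1 i) j

/-- Existence of the normal form over a Henselian local ring. -/
theorem exists_normalForm [HenselianRing A (maximalIdeal A)] {G : Type*}
    (r : G → Matrix (Fin 2) (Fin 2) A) (s1 s2 : G) (i0 j0 : Fin 2) (c : A)
    (h00 : r s1 0 0 ∈ maximalIdeal A) (h10 : r s1 1 0 - 1 ∈ maximalIdeal A)
    (hc : r s2 i0 j0 - c ∈ maximalIdeal A)
    (hunit : IsUnit ((r s2 * r s1 - r s1 * r s2) i0 j0)) :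
    ∃ M : (Matrix (Fin 2) (Fin 2) A)ˣ, CongOne (M : Matrix (Fin 2) (Fin 2) A) ∧
      ((↑M⁻¹ : Matrix (Fin 2) (Fin 2) A) * r s1 * (M : Matrix (Fin 2) (Fin 2) A)) 0 0 = 0 ∧
      ((↑M⁻¹ : Matrix (Fin 2) (Fin 2) A) * r s1 * (M : Matrix (Fin 2) (Fin 2) A)) 1 0 = 1 ∧
      ((↑M⁻¹ : Matrix (Fin 2) (Fin 2) A) * r s2 * (M : Matrix (Fin 2) (Fin 2) A)) i0 j0 = c := by
  obtain ⟨N, hN, hN0, hN1⟩ := exists_conj_firstCol (r s1) h00 h10
  have hres := fun X i j => hN.residue_conj X i j
  have hNN : (N : Matrix (Fin 2) (Fin 2) A) * (↑N⁻¹ : Matrix (Fin 2) (Fin 2) A) = 1 := N.mul_inv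
  generalize hNm : (N : Matrix (Fin 2) (Fin 2) A) = Nm at *
  generalize hNi : (↑N⁻¹ : Matrix (Fin 2) (Fin 2) A) = Ni at *
  set T1 := Ni * r s1 * Nm with hT1
  set X1 := Ni * r s2 * Nm with hX1
  have hc1 : X1 i0 j0 - c ∈ maximalIdeal A := by
    rw [← residue_eq_zero_iff, map_sub, hX1, hres, ← map_sub, residue_eq_zero_iff]
    exact hc
  have hcomm : X1 * T1 - T1 * X1 = Ni * (r s2 * r s1 - r s1 * r s2) * Nm := by
    rw [hX1, hT1, mul_sub, sub_mul]
    congr 1
    · calc Ni * r s2 * Nm * (Ni * r s1 * Nm)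
          = Ni * r s2 * (Nm * Ni) * r s1 * Nm := by simp only [mul_assoc]
        _ = _ := by rw [hNN, mul_one]; simp only [mul_assoc]
    · calc Ni * r s1 * Nm * (Ni * r s2 * Nm)
          = Ni * r s1 * (Nm * Ni) * r s2 * Nm := by simp only [mul_assoc]
        _ = _ := by rw [hNN, mul_one]; simp only [mul_assoc]
  have hunit1 : IsUnit ((X1 * T1 - T1 * X1) i0 j0) := by
    rw [hcomm]
    by_contra hnu
    have h0 := (residue_eq_zero_iff _).mpr ((mem_maximalIdeal _).mpr hnu)
    rw [hres, residue_eq_zero_iff] at h0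
    exact (mem_maximalIdeal _).mp h0 hunit
  obtain ⟨M2, hM2, hM2T, hM2X⟩ := exists_conj_entry T1 X1 i0 j0 c hc1 hunit1
  have hconj : ∀ Y : Matrix (Fin 2) (Fin 2) A,
      (↑(N * M2)⁻¹ : Matrix (Fin 2) (Fin 2) A) * Y * (↑(N * M2) : Matrix (Fin 2) (Fin 2) A)
        = (↑M2⁻¹ : Matrix (Fin 2) (Fin 2) A) * (Ni * Y * Nm) * (M2 : Matrix (Fin 2) (Fin 2) A) := by
    intro Y
    rw [_root_.mul_inv_rev, Units.val_mul, Units.val_mul, hNm, hNi]
    simp only [mul_assoc]
  refine ⟨N * M2, ?_, ?_, ?_, ?_⟩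
  · rw [Units.val_mul, hNm]; exact hN.mul hM2
  · rw [hconj, ← hT1, hM2T]; exact hN0
  · rw [hconj, ← hT1, hM2T]; exact hN1
  · rw [hconj, ← hX1]; exact hM2X

end Exist

section Choice

variable {k : Type} [Field k]

local notation "Γℚ" => (AlgebraicClosure ℚ ≃ₐ[ℚ] AlgebraicClosure ℚ)

theorem exists_not_mem_span (ρbar : ResidualGaloisRep k) (habs : ρbar.IsAbsolutelyIrreducible)
    (b0 : Module.Basis (Fin 2) k ρbar.V) :
    ∃ s1 : Γℚ, ρbar.ρ s1 (b0 0) ∉ Submodule.span k {b0 0} := by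
  by_contra hcon
  push Not at hcon
  let K := AlgebraicClosure k
  let B : Module.Basis (Fin 2) K (K ⊗[k] ρbar.V) := Algebra.TensorProduct.basis K b0
  let W : Submodule K (K ⊗[k] ρbar.V) := Submodule.span K {B 0}
  have hstab : ∀ σ : Γℚ, ∀ x ∈ W, (ρbar.baseChange K).ρ σ x ∈ W := by
    intro σ x hx
    obtain ⟨c, rfl⟩ := Submodule.mem_span_singleton.mp hx
    obtain ⟨a, ha⟩ := Submodule.mem_span_singleton.mp (hcon σ)
    show (ρbar.ρ σ).baseChange K (c • B 0) ∈ W
    rw [map_smul]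
    apply Submodule.smul_mem
    have : B 0 = (1 : K) ⊗ₜ[k] b0 0 := Algebra.TensorProduct.basis_apply b0 0
    rw [this, LinearMap.baseChange_tmul, ← ha, TensorProduct.tmul_smul, ← this]
    rw [← algebraMap_smul K a (B 0)]
    exact Submodule.smul_mem _ _ (Submodule.mem_span_singleton_self _)
  rcases habs W hstab with h | h
  · have : B 0 ∈ W := Submodule.mem_span_singleton_self _
    rw [h, Submodule.mem_bot] at this
    exact B.ne_zero 0 this
  · have : B 1 ∈ W := by rw [h]; trivial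
    obtain ⟨c, hc⟩ := Submodule.mem_span_singleton.mp this
    have h1 := congrArg (fun v => B.repr v 1) hc
    simp at h1

theorem exists_basis_s1 (ρbar : ResidualGaloisRep k) (habs : ρbar.IsAbsolutelyIrreducible) :
    ∃ (b : Module.Basis (Fin 2) k ρbar.V) (s1 : Γℚ), ρbar.ρ s1 (b 0) = b 1 := by
  let b0 : Module.Basis (Fin 2) k ρbar.V := Module.finBasisOfFinrankEq k ρbar.V ρbar.finrank_eq
  obtain ⟨s1, hs1⟩ := exists_not_mem_span ρbar habs b0
  have hli : LinearIndependent k ![b0 0, ρbar.ρ s1 (b0 0)] := by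
    rw [LinearIndependent.pair_iff' (b0.ne_zero 0)]
    intro a ha
    exact hs1 (Submodule.mem_span_singleton.mpr ⟨a, ha⟩)
  have hcard : Fintype.card (Fin 2) = Module.finrank k ρbar.V := by
    rw [ρbar.finrank_eq]; rfl
  let b := basisOfLinearIndependentOfCardEqFinrank hli hcard
  refine ⟨b, s1, ?_⟩
  simp [b]

theorem exists_not_commute (ρbar : ResidualGaloisRep k) (habs : ρbar.IsAbsolutelyIrreducible)
    (b : Module.Basis (Fin 2) k ρbar.V) (s1 : Γℚ) (h1 : ρbar.ρ s1 (b 0) = b 1) :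
    ∃ s2 : Γℚ, ρbar.ρ s2 * ρbar.ρ s1 ≠ ρbar.ρ s1 * ρbar.ρ s2 := by
  by_contra hcon
  push Not at hcon
  let K := AlgebraicClosure k
  let B : Module.Basis (Fin 2) K (K ⊗[k] ρbar.V) := Algebra.TensorProduct.basis K b
  let T : Module.End K (K ⊗[k] ρbar.V) := (ρbar.ρ s1).baseChange K
  have : Nontrivial (K ⊗[k] ρbar.V) := ⟨⟨B 0, 0, B.ne_zero 0⟩⟩
  have : FiniteDimensional K (K ⊗[k] ρbar.V) := Module.Finite.of_basis B
  obtain ⟨lam, hlam⟩ := Module.End.exists_eigenvalue T
  let W : Submodule K (K ⊗[k] ρbar.V) := Module.End.eigenspace T lam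
  have hstab : ∀ σ : Γℚ, ∀ x ∈ W, (ρbar.baseChange K).ρ σ x ∈ W := by
    intro σ x hx
    show (ρbar.ρ σ).baseChange K x ∈ W
    rw [Module.End.mem_eigenspace_iff] at hx ⊢
    have hc : T ∘ₗ (ρbar.ρ σ).baseChange K = (ρbar.ρ σ).baseChange K ∘ₗ T := by
      show (ρbar.ρ s1).baseChange K ∘ₗ (ρbar.ρ σ).baseChange K
        = (ρbar.ρ σ).baseChange K ∘ₗ (ρbar.ρ s1).baseChange K
      rw [← LinearMap.baseChange_comp, ← LinearMap.baseChange_comp]
      congr 1
      exact (hcon σ).symm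
    have := congrArg (fun f => f x) hc
    simp only [LinearMap.comp_apply] at this
    rw [this, hx, map_smul]
  rcases habs W hstab with h | h
  · exact hlam h
  · have : B 0 ∈ W := by rw [h]; trivial
    rw [Module.End.mem_eigenspace_iff] at this
    have e0 : B 0 = (1 : K) ⊗ₜ[k] b 0 := Algebra.TensorProduct.basis_apply b 0
    have e1 : B 1 = (1 : K) ⊗ₜ[k] b 1 := Algebra.TensorProduct.basis_apply b 1
    have hT : T (B 0) = B 1 := by
      show (ρbar.ρ s1).baseChange K (B 0) = B 1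
      rw [e0, LinearMap.baseChange_tmul, h1, e1]
    rw [hT] at this
    have h1 := congrArg (fun v => B.repr v 1) this
    simp at h1

theorem exists_basis_s1_s2 (ρbar : ResidualGaloisRep k) (habs : ρbar.IsAbsolutelyIrreducible) :
    ∃ (b : Module.Basis (Fin 2) k ρbar.V) (s1 s2 : Γℚ) (i0 j0 : Fin 2),
      LinearMap.toMatrix b b (ρbar.ρ s1) 0 0 = 0 ∧ LinearMap.toMatrix b b (ρbar.ρ s1) 1 0 = 1 ∧
      (LinearMap.toMatrix b b (ρbar.ρ s2) * LinearMap.toMatrix b b (ρbar.ρ s1)
        - LinearMap.toMatrix b b (ρbar.ρ s1) * LinearMap.toMatrix b b (ρbar.ρ s2)) i0 j0 ≠ 0 := by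
  obtain ⟨b, s1, h1⟩ := exists_basis_s1 ρbar habs
  obtain ⟨s2, h2⟩ := exists_not_commute ρbar habs b s1 h1
  have hne : LinearMap.toMatrix b b (ρbar.ρ s2) * LinearMap.toMatrix b b (ρbar.ρ s1)
        - LinearMap.toMatrix b b (ρbar.ρ s1) * LinearMap.toMatrix b b (ρbar.ρ s2) ≠ 0 := by
    rw [sub_ne_zero, ← LinearMap.toMatrix_mul, ← LinearMap.toMatrix_mul]
    exact fun h => h2 ((LinearMap.toMatrix b b).injective h)
  have : ∃ i0 j0, (LinearMap.toMatrix b b (ρbar.ρ s2) * LinearMap.toMatrix b b (ρbar.ρ s1)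
        - LinearMap.toMatrix b b (ρbar.ρ s1) * LinearMap.toMatrix b b (ρbar.ρ s2)) i0 j0 ≠ 0 := by
    by_contra hcon
    push Not at hcon
    exact hne (Matrix.ext hcon)
  obtain ⟨i0, j0, h⟩ := this
  refine ⟨b, s1, s2, i0, j0, ?_, ?_, h⟩
  · rw [LinearMap.toMatrix_apply, h1]; simp
  · rw [LinearMap.toMatrix_apply, h1]; simp

end Choice

end Fermat.Agent.S53
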