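import Fermat.Agent.S53.Defs
import Fermat.Agent.S53.NormalForm

set_option autoImplicit false

open IsLocalRing Matrix

namespace Fermat.Agent.S53

section

variable {𝒪 : Type} [CommRing 𝒪] [IsLocalRing 𝒪]
variable {rbar : GQ →* M2 (ResidueField 𝒪)}
variable {A : Type} [CommRing A] [IsLocalRing A] [Algebra 𝒪 A]

/-- A matrix over `𝒪` lifting `rbar σ`. -/
theorem exists_lift_matrix (rbar : GQ →* M2 (ResidueField 𝒪)) (σ : GQ) :
    ∃ C : M2 𝒪, ∀ i j, residue 𝒪 (C i j) = rbar σ i j := by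
  choose f hf using fun (p : Fin 2 × Fin 2) => residue_surjective (rbar σ p.1 p.2)
  exact ⟨Matrix.of fun i j => f (i, j), fun i j => hf (i, j)⟩

theorem Lifts.mapMatrix_eq {r : GQ →* M2 A} (h : Lifts rbar r) (σ : GQ) (C : M2 𝒪)
    (hC : ∀ i j, residue 𝒪 (C i j) = rbar σ i j) :
    (residue A).mapMatrix (r σ) = (residue A).mapMatrix ((algebraMap 𝒪 A).mapMatrix C) := by
  ext i j
  have := h σ i j (C i j) (hC i j)
  rw [← residue_eq_zero_iff, map_sub, sub_eq_zero] at this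
  simpa using this

/-- the commutator entry of two lifts is a unit -/
theorem isUnit_comm_entry (N : NFData 𝒪 rbar) {r r' : GQ →* M2 A} (h : Lifts rbar r)
    (h' : Lifts rbar r') :
    IsUnit ((r' N.s2 * r' N.s1 - r' N.s1 * r N.s2) N.i0 N.j0) := by
  obtain ⟨C1, hC1⟩ := exists_lift_matrix rbar N.s1
  obtain ⟨C2, hC2⟩ := exists_lift_matrix rbar N.s2
  have e1 : (residue 𝒪).mapMatrix C1 = rbar N.s1 := by ext i j; exact hC1 i j
  have e2 : (residue 𝒪).mapMatrix C2 = rbar N.s2 := by ext i j; exact hC2 i j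
  set D : M2 𝒪 := C2 * C1 - C1 * C2 with hD
  have hDres : residue 𝒪 (D N.i0 N.j0) ≠ 0 := by
    have : (residue 𝒪).mapMatrix D = rbar N.s2 * rbar N.s1 - rbar N.s1 * rbar N.s2 := by
      rw [hD, map_sub, map_mul, map_mul, e1, e2]
    have h2 := congrFun (congrFun this N.i0) N.j0
    have h3 : residue 𝒪 (D N.i0 N.j0) = (rbar N.s2 * rbar N.s1 - rbar N.s1 * rbar N.s2) N.i0 N.j0 := h2
    rw [h3]
    intro h0
    apply N.hcomm
    have : (rbar N.s1 * rbar N.s2 - rbar N.s2 * rbar N.s1)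
        = -(rbar N.s2 * rbar N.s1 - rbar N.s1 * rbar N.s2) := by abel
    rw [this, Matrix.neg_apply, h0, neg_zero]
  have hDu : IsUnit (D N.i0 N.j0) := by
    by_contra hnu
    exact hDres ((residue_eq_zero_iff _).mpr ((mem_maximalIdeal _).mpr hnu))
  have hDuA : IsUnit (algebraMap 𝒪 A (D N.i0 N.j0)) := hDu.map _
  apply isUnit_of_sub_mem hDuA
  rw [← residue_eq_zero_iff, map_sub, sub_eq_zero]
  have key : (residue A).mapMatrix (r' N.s2 * r' N.s1 - r' N.s1 * r N.s2)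
      = (residue A).mapMatrix ((algebraMap 𝒪 A).mapMatrix D) := by
    rw [map_sub, map_mul, map_mul, h'.mapMatrix_eq N.s2 C2 hC2, h'.mapMatrix_eq N.s1 C1 hC1,
      h.mapMatrix_eq N.s2 C2 hC2, hD, map_sub, map_sub, map_mul, map_mul, map_mul, map_mul]
  exact congrFun (congrFun key N.i0) N.j0

/-- (C1) rigidity of normal lifts. -/
theorem normal_unique (N : NFData 𝒪 rbar) {r r' : GQ →* M2 A} (h : Lifts rbar r)
    (h' : Lifts rbar r') (hn : IsNormal N r) (hn' : IsNormal N r') (M : (M2 A)ˣ)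
    (hM : ∀ σ, (M : M2 A) * r σ = r' σ * (M : M2 A)) : r = r' := by
  have := normalForm_unique (fun σ => r σ) (fun σ => r' σ) N.s1 N.s2 N.i0 N.j0 hn.1 hn.2.1
    hn'.1 hn'.2.1 (hn.2.2.trans hn'.2.2.symm) (isUnit_comm_entry N h h') (M : M2 A) M.isUnit hM
  exact MonoidHom.ext fun σ => congrFun this σ

/-- conjugate of a matrix representation by a unit -/
noncomputable def conjRepInv (M : (M2 A)ˣ) (r : GQ →* M2 A) : GQ →* M2 A where
  toFun σ := (↑M⁻¹ : M2 A) * r σ * (M : M2 A)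
  map_one' := by rw [map_one, mul_one]; exact M.inv_mul
  map_mul' σ τ := by
    have hMM : (M : M2 A) * (↑M⁻¹ : M2 A) = 1 := M.mul_inv
    rw [map_mul]
    calc (↑M⁻¹ : M2 A) * (r σ * r τ) * (M : M2 A)
        = (↑M⁻¹ : M2 A) * r σ * 1 * r τ * (M : M2 A) := by simp only [mul_one, mul_assoc]
      _ = _ := by rw [← hMM]; simp only [mul_assoc]

omit [IsLocalRing A] in
@[simp] theorem conjRepInv_apply (M : (M2 A)ˣ) (r : GQ →* M2 A) (σ : GQ) :
    conjRepInv M r σ = (↑M⁻¹ : M2 A) * r σ * (M : M2 A) := rfl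

theorem Lifts.conjRepInv {r : GQ →* M2 A} (h : Lifts rbar r) {M : (M2 A)ˣ}
    (hM : CongOne (M : M2 A)) : Lifts rbar (conjRepInv M r) := by
  intro σ i j c hc
  have := h σ i j c hc
  rw [← residue_eq_zero_iff, map_sub] at this ⊢
  rw [conjRepInv_apply, hM.residue_conj]
  exact this

/-- (C2) existence of the normal form. -/
theorem exists_normal_congOne [HenselianRing A (maximalIdeal A)] (N : NFData 𝒪 rbar)
    {r : GQ →* M2 A} (h : Lifts rbar r) :
    ∃ M : (M2 A)ˣ, CongOne (M : M2 A) ∧ Lifts rbar (conjRepInv M r) ∧ IsNormal N (conjRepInv M r) := by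
  have h00 : r N.s1 0 0 ∈ maximalIdeal A := by
    have := h N.s1 0 0 0 (by rw [map_zero, N.h00])
    simpa using this
  have h10 : r N.s1 1 0 - 1 ∈ maximalIdeal A := by
    have := h N.s1 1 0 1 (by rw [map_one, N.h10])
    simpa using this
  have hc : r N.s2 N.i0 N.j0 - algebraMap 𝒪 A N.c ∈ maximalIdeal A := h N.s2 N.i0 N.j0 N.c N.hc
  obtain ⟨M, hM, a, b, c⟩ := exists_normalForm (fun σ => r σ) N.s1 N.s2 N.i0 N.j0
    (algebraMap 𝒪 A N.c) h00 h10 hc (isUnit_comm_entry N h h)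
  exact ⟨M, hM, h.conjRepInv hM, a, b, c⟩

theorem exists_normal [IsAdicComplete (maximalIdeal A) A] (N : NFData 𝒪 rbar)
    {r : GQ →* M2 A} (h : Lifts rbar r) :
    ∃ (M : (M2 A)ˣ) (r' : GQ →* M2 A), (∀ σ, (M : M2 A) * r σ = r' σ * (M : M2 A)) ∧
      Lifts rbar r' ∧ IsNormal N r' := by
  obtain ⟨M, -, h1, h2⟩ := exists_normal_congOne N h
  refine ⟨M⁻¹, conjRepInv M r, fun σ => ?_, h1, h2⟩
  have hMM : (M : M2 A) * (↑M⁻¹ : M2 A) = 1 := M.mul_inv
  rw [conjRepInv_apply, mul_assoc, hMM, mul_one]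

end

section

variable (𝒪 : Type) [CommRing 𝒪] [IsLocalRing 𝒪]

/-- (B) choice of basis and normal form data. -/
theorem exists_nfData (ρbar : ResidualGaloisRep (ResidueField 𝒪))
    (habs : ρbar.IsAbsolutelyIrreducible) :
    ∃ (b : Module.Basis (Fin 2) (ResidueField 𝒪) ρbar.V) (rbar : GQ →* M2 (ResidueField 𝒪)),
      (∀ σ, LinearMap.toMatrix b b (ρbar.ρ σ) = rbar σ) ∧ Nonempty (NFData 𝒪 rbar) := by
  obtain ⟨b, s1, s2, i0, j0, h00, h10, hcomm⟩ := exists_basis_s1_s2 ρbar habs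
  let rbar : GQ →* M2 (ResidueField 𝒪) :=
    { toFun := fun σ => LinearMap.toMatrix b b (ρbar.ρ σ)
      map_one' := by rw [map_one]; exact LinearMap.toMatrix_one b
      map_mul' := fun σ τ => by rw [map_mul]; exact LinearMap.toMatrix_mul b _ _ }
  obtain ⟨c, hc⟩ := residue_surjective (rbar s2 i0 j0)
  refine ⟨b, rbar, fun σ => rfl, ⟨⟨s1, s2, i0, j0, c, h00, h10, hc, ?_⟩⟩⟩
  intro h0
  apply hcomm
  have : (rbar s2 * rbar s1 - rbar s1 * rbar s2) = -(rbar s1 * rbar s2 - rbar s2 * rbar s1) := by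
    abel
  show (rbar s2 * rbar s1 - rbar s1 * rbar s2) i0 j0 = 0
  rw [this, Matrix.neg_apply, h0, neg_zero]

end

end Fermat.Agent.S53
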