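import Fermat.Agent.S53.Defs
import Fermat.Agent.S53.MatrixRep
import Fermat.Agent.S53.ResidualDict
import Fermat.Agent.S53.NormalIface

set_option autoImplicit false

open IsLocalRing

namespace Fermat.Agent.S53

section HasMatrix

variable {A : Type} [CommRing A] [IsLocalRing A]

theorem exists_hasMatrix_of_matCont (r : GQ →* M2 A) (hr : MatCont A r) :
    ∃ ρ : GaloisRepAdic A, HasMatrix ρ r :=
  ⟨ofMat r hr, hasMatrix_ofMat r hr⟩

theorem exists_hasMatrix (ρ : GaloisRepAdic A) : ∃ r : GQ →* M2 A, HasMatrix ρ r :=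
  ⟨toMat ρ (someBasis ρ), hasMatrix_toMat _ _⟩

theorem HasMatrix.baseChangeAlong {B : Type} [CommRing B] [IsLocalRing B]
    {ρ : GaloisRepAdic A} {r : GQ →* M2 A} (h : HasMatrix ρ r) (φ : A →+* B)
    (hφ : IsLocalHom φ) : HasMatrix (ρ.baseChangeAlong φ hφ) (mapRep φ r) := by
  obtain ⟨b, hb⟩ := h
  have : toMat ρ b = r := by
    ext σ : 1
    exact hb σ
  subst this
  rw [← toMat_baseChangeAlong φ hφ ρ b]
  exact hasMatrix_toMat _ _

theorem HasMatrix.isEquiv {ρ ρ' : GaloisRepAdic A} {r : GQ →* M2 A} (h : HasMatrix ρ r)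
    (h' : HasMatrix ρ' r) : ρ.IsEquiv ρ' := by
  obtain ⟨e⟩ := h.isEquiv_ofMat h.matCont
  obtain ⟨e'⟩ := h'.isEquiv_ofMat h.matCont
  exact ⟨e.trans e'.symm⟩

theorem HasMatrix.of_isEquiv {ρ ρ' : GaloisRepAdic A} {r : GQ →* M2 A} (he : ρ.IsEquiv ρ')
    (h : HasMatrix ρ r) : HasMatrix ρ' r := by
  obtain ⟨e⟩ := h.isEquiv_ofMat h.matCont
  obtain ⟨e'⟩ := he
  exact hasMatrix_of_isEquiv_ofMat ⟨e'.symm.trans e⟩

theorem HasMatrix.conj {ρ : GaloisRepAdic A} {r r' : GQ →* M2 A} (h : HasMatrix ρ r)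
    (M : (M2 A)ˣ) (hM : ∀ σ, (M : M2 A) * r σ = r' σ * M) : HasMatrix ρ r' := by
  obtain ⟨e⟩ := h.isEquiv_ofMat h.matCont
  obtain ⟨e'⟩ := ofMat_isEquiv_of_conj h.matCont (h.matCont.of_conj hM) M hM
  exact hasMatrix_of_isEquiv_ofMat ⟨e.trans e'⟩

theorem HasMatrix.exists_conj {ρ : GaloisRepAdic A} {r r' : GQ →* M2 A} (h : HasMatrix ρ r)
    (h' : HasMatrix ρ r') : ∃ M : (M2 A)ˣ, ∀ σ, (M : M2 A) * r σ = r' σ * M := by
  obtain ⟨e⟩ := h.isEquiv_ofMat h.matCont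
  obtain ⟨e'⟩ := h'.isEquiv_ofMat h'.matCont
  exact exists_conj_of_ofMat_isEquiv ⟨e.symm.trans e'⟩

end HasMatrix

section Residual

variable {𝒪 : Type} [CommRing 𝒪] [IsLocalRing 𝒪]
  {ρbar : ResidualGaloisRep (ResidueField 𝒪)} {rbar : GQ →* M2 (ResidueField 𝒪)}
  (b : Module.Basis (Fin 2) (ResidueField 𝒪) ρbar.V)
  (hb : ∀ σ, LinearMap.toMatrix b b (ρbar.ρ σ) = rbar σ)
  {A : Type} [CommRing A] [IsLocalRing A] [Algebra 𝒪 A]

include hb in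
theorem HasMatrix.residual_isEquiv {ρ : GaloisRepAdic A} {r : GQ →* M2 A} (h : HasMatrix ρ r)
    (hl : Lifts rbar r) (ψ : ResidueField 𝒪 →+* ResidueField A)
    (hψ : ∀ c : 𝒪, ψ (residue 𝒪 c) = residue A (algebraMap 𝒪 A c)) :
    ρ.residual.IsEquiv (ρbar.baseChangeAlong ψ) := by
  obtain ⟨e⟩ := h.isEquiv_ofMat h.matCont
  obtain ⟨e'⟩ := residual_isEquiv_of_lifts ρbar b rbar hb ψ hψ r h.matCont hl
  exact ⟨e.residual.trans e'⟩

include hb in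
theorem exists_lifts_of_residual_isEquiv {ρ : GaloisRepAdic A}
    (ψ : ResidueField 𝒪 →+* ResidueField A)
    (hψ : ∀ c : 𝒪, ψ (residue 𝒪 c) = residue A (algebraMap 𝒪 A c))
    (h : ρ.residual.IsEquiv (ρbar.baseChangeAlong ψ)) :
    ∃ r : GQ →* M2 A, HasMatrix ρ r ∧ Lifts rbar r := by
  obtain ⟨r, hc, he, hl⟩ := exists_ofMat_lifts ρbar b rbar hb ψ hψ ρ h
  exact ⟨r, hasMatrix_of_isEquiv_ofMat he, hl⟩

end Residual

end Fermat.Agent.S53
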