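import Fermat.Agent.S53.RepN

set_option autoImplicit false

open IsLocalRing GaloisRep

namespace Fermat.Agent.S53

section Hausdorff

variable {R : Type} [CommRing R] [IsLocalRing R] [IsHausdorff (maximalIdeal R) R]

theorem eq_of_forall_mk_eq {x y : R}
    (h : ∀ n : ℕ, n ≠ 0 → Ideal.Quotient.mk (maximalIdeal R ^ n) x =
      Ideal.Quotient.mk (maximalIdeal R ^ n) y) : x = y := by
  rw [← sub_eq_zero]
  refine IsHausdorff.haus (I := maximalIdeal R) inferInstance _ fun n => ?_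
  rw [SModEq.zero, smul_eq_mul, Ideal.mul_top]
  by_cases hn : n = 0
  · subst hn; simp
  · exact Ideal.Quotient.eq.mp (h n hn)

end Hausdorff

section Univ

variable {𝒪 : Type} [CommRing 𝒪] [IsLocalRing 𝒪]
  {𝒟 : ∀ ⦃A : Type⦄ [CommRing A] [IsLocalRing A] [Algebra 𝒪 A], GaloisRepAdic A → Prop}
  {rbar : GQ →* M2 (ResidueField 𝒪)} (NF : NFData 𝒪 rbar)
  {R : Type} [CommRing R] [IsLocalRing R] [IsNoetherianRing R]
  [IsAdicComplete (maximalIdeal R) R] [Algebra 𝒪 R]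

/-- The universal point is a continuous normalised lift. -/
theorem exists_rep_of_universal_point (hloc : IsLocalHom (algebraMap 𝒪 R))
    (hsurj : Function.Surjective (IsLocalRing.residue R ∘ algebraMap 𝒪 R)) (u : Coord → R)
    (hU : ∀ (B : Type) [CommRing B] [IsLocalRing B] [Algebra 𝒪 B], IsArtinianTestAlgebra 𝒪 B →
        ∀ q : R →ₐ[𝒪] B, repN 𝒟 NF (q ∘ u)) :
    ∃ r : GQ →* M2 R, (∀ σ i j, u (σ, i, j) = r σ i j) ∧ MatCont R r ∧ Lifts rbar r ∧
      IsNormal NF r := by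
  -- the truncations
  have key : ∀ n : ℕ, n ≠ 0 → ∃ (_ : IsLocalRing (R ⧸ maximalIdeal R ^ n)),
      IsArtinianTestAlgebra 𝒪 (R ⧸ maximalIdeal R ^ n) ∧
      repN 𝒟 NF ((Ideal.Quotient.mkₐ 𝒪 (maximalIdeal R ^ n)) ∘ u) := by
    intro n hn
    obtain ⟨h1, h2⟩ := exists_isArtinianTestAlgebra_quotient_pow hloc hsurj n hn
    exact ⟨h1, h2, hU _ h2 _⟩
  obtain ⟨r, hr⟩ : ∃ r : GQ →* M2 R, ∀ σ i j, u (σ, i, j) = r σ i j := by
    refine exists_rep_of_coord u (fun i j => eq_of_forall_mk_eq fun n hn => ?_)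
      (fun σ τ i j => eq_of_forall_mk_eq fun n hn => ?_)
    · obtain ⟨_, _, rn, hrn, -⟩ := key n hn
      have h1 : Ideal.Quotient.mk (maximalIdeal R ^ n) (u (1, i, j)) = rn 1 i j := hrn 1 i j
      rw [h1, map_one]
      by_cases hij : i = j
      · subst hij; simp
      · simp [Matrix.one_apply_ne hij]
    · obtain ⟨_, _, rn, hrn, -⟩ := key n hn
      have h1 : ∀ σ i j, Ideal.Quotient.mk (maximalIdeal R ^ n) (u (σ, i, j)) = rn σ i j := hrn
      rw [h1, map_mul, Matrix.mul_apply, map_sum]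
      refine Finset.sum_congr rfl fun k _ => ?_
      rw [map_mul, h1, h1]
  refine ⟨r, hr, ?_, ?_, ?_⟩
  · intro n
    by_cases hn : n = 0
    · subst hn
      exact ⟨⊥, inferInstance, fun σ _ i j => by simp⟩
    · obtain ⟨_, hart, rn, hrn, -, -, ρ, hρ, -⟩ := key n hn
      have := hart.isArtinian
      obtain ⟨L, hL, h⟩ := hρ.matCont.factorsFinite
      refine ⟨L, hL, fun σ hσ i j => ?_⟩
      have h1 : Ideal.Quotient.mk (maximalIdeal R ^ n) (u (σ, i, j)) = rn σ i j := hrn σ i j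
      rw [h σ hσ, hr] at h1
      rw [← Ideal.Quotient.eq_zero_iff_mem, Matrix.sub_apply, map_sub, h1]
      by_cases hij : i = j
      · subst hij; simp
      · simp [Matrix.one_apply_ne hij]
  · obtain ⟨_, hart, rn, hrn, hl, -⟩ := key 1 one_ne_zero
    refine Lifts.of_mapRep (Ideal.Quotient.mkₐ 𝒪 (maximalIdeal R ^ 1)) ?_
    have : mapRep ((Ideal.Quotient.mkₐ 𝒪 (maximalIdeal R ^ 1) : R →ₐ[𝒪] _) : R →+* _) r = rn := by
      ext σ i j
      rw [mapRep_apply, ← hr]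
      exact hrn σ i j
    rw [this]
    exact hl
  · refine ⟨eq_of_forall_mk_eq fun n hn => ?_, eq_of_forall_mk_eq fun n hn => ?_,
      eq_of_forall_mk_eq fun n hn => ?_⟩
    · obtain ⟨_, _, rn, hrn, -, hnorm, -⟩ := key n hn
      have h1 : ∀ σ i j, Ideal.Quotient.mk (maximalIdeal R ^ n) (u (σ, i, j)) = rn σ i j := hrn
      rw [← hr, h1, hnorm.1, map_zero]
    · obtain ⟨_, _, rn, hrn, -, hnorm, -⟩ := key n hn
      have h1 : ∀ σ i j, Ideal.Quotient.mk (maximalIdeal R ^ n) (u (σ, i, j)) = rn σ i j := hrn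
      rw [← hr, h1, hnorm.2.1, map_one]
    · obtain ⟨_, _, rn, hrn, -, hnorm, -⟩ := key n hn
      have h1 : ∀ σ i j, Ideal.Quotient.mk (maximalIdeal R ^ n) (u (σ, i, j)) = rn σ i j := hrn
      rw [← hr, h1, hnorm.2.2]
      rfl

end Univ

section Main

theorem nonempty_deformationRingData
    (𝒪 : Type) [CommRing 𝒪] [IsDomain 𝒪] [IsDiscreteValuationRing 𝒪]
    [IsAdicComplete (IsLocalRing.maximalIdeal 𝒪) 𝒪] [Finite (IsLocalRing.ResidueField 𝒪)]
    (ρbar : ResidualGaloisRep (IsLocalRing.ResidueField 𝒪))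
    (𝒟 : ∀ ⦃A : Type⦄ [CommRing A] [IsLocalRing A] [Algebra 𝒪 A], GaloisRepAdic A → Prop)
    (habs : ρbar.IsAbsolutelyIrreducible)
    (h𝒟 : GaloisRep.IsDeformationCondition 𝒪 𝒟)
    (hbar : 𝒟 (GaloisRepAdic.ofResidualGaloisRep ρbar))
    (hfin : GaloisRep.TangentFinite 𝒪 ρbar 𝒟) :
    Nonempty (GaloisRep.DeformationRingData 𝒪 ρbar 𝒟) := by
  obtain ⟨b, rbar, hb, ⟨NF⟩⟩ := exists_nfData 𝒪 ρbar habs
  have hN := isRepFunctor_repN NF b hb h𝒟 hbar hfin
  obtain ⟨R, _, _, _, _, _, hloc, hsurj, u, hU1, hU2⟩ :=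
    exists_universal 𝒪 (baseCoord rbar) (repN 𝒟 NF) hN
  obtain ⟨r, hr, hcont, hlift, hnorm⟩ := exists_rep_of_universal_point NF hloc hsurj u hU1
  obtain ⟨ρ, hρ⟩ := exists_hasMatrix_of_matCont r hcont
  have hu : ∀ {B : Type} [CommRing B] (q : R →+* B) (r' : GQ →* M2 B),
      (∀ σ i j, q (u (σ, i, j)) = r' σ i j) → mapRep q r = r' := by
    intro B _ q r' h
    ext σ i j
    rw [mapRep_apply, ← hr, h]
  have hD : 𝒟 ρ := by
    refine (h𝒟.iff_forall_surjective hloc hsurj ρ).mpr ?_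
    intro B _ _ _ hB q hq _
    obtain ⟨rB, hrB, -, -, ρB, hρB, hDB⟩ := hU1 B hB q
    have h1 : mapRep (q : R →+* B) r = rB := hu _ _ hrB
    exact h𝒟.of_isEquiv hB (hρB.isEquiv (h1 ▸ hρ.baseChangeAlong _ hq)) hDB
  refine ⟨{ R := R, residue_surjective := hsurj, absIrr := habs, ρ := ρ, isOfType := hD,
            residual_isEquiv := ?_, universal := ?_ }⟩
  · exact hρ.residual_isEquiv b hb hlift _ (fun c => IsLocalRing.ResidueField.map_residue _ c)
  · intro A _ _ _ _ _ _ hsurjA ρA hDA hresA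
    have hlocA : IsLocalHom (algebraMap 𝒪 A) := inferInstance
    obtain ⟨r0, hr0, hl0⟩ := exists_lifts_of_residual_isEquiv b hb _
      (fun c => IsLocalRing.ResidueField.map_residue _ c) hresA
    obtain ⟨M, rA, hM, hlA, hnA⟩ := exists_normal NF hl0
    have hρA : HasMatrix ρA rA := hr0.conj M hM
    have hv : ∀ (B : Type) [CommRing B] [IsLocalRing B] [Algebra 𝒪 B],
        IsArtinianTestAlgebra 𝒪 B → ∀ q : A →ₐ[𝒪] B, Function.Surjective q →
          repN 𝒟 NF (q ∘ fun x : Coord => rA x.1 x.2.1 x.2.2) := by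
      intro B _ _ _ hB q hq
      have hql : IsLocalHom (q : A →+* B) :=
        isLocalHom_of_residue_surjective hB.isLocalHom hB.residue_surjective q
      exact ⟨mapRep (q : A →+* B) rA, fun σ i j => rfl, hlA.mapRep q hql, hnA.mapRep NF q,
        ρA.baseChangeAlong (q : A →+* B) hql, hρA.baseChangeAlong _ hql,
        (h𝒟.iff_forall_surjective hlocA hsurjA ρA).mp hDA hB q hql hq⟩
    obtain ⟨φ, hφ, huniq⟩ := hU2 A hsurjA _ hv
    have hφl : ∀ φ' : R →ₐ[𝒪] A, IsLocalHom (φ' : R →+* A) := fun φ' =>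
      isLocalHom_of_residue_surjective hlocA hsurjA φ'
    refine ⟨φ, ⟨hφl φ, ?_⟩, ?_⟩
    · have h1 : mapRep (φ : R →+* A) r = rA := hu _ _ fun σ i j => congrFun hφ (σ, i, j)
      exact (h1 ▸ hρ.baseChangeAlong _ (hφl φ)).isEquiv hρA
    · rintro φ' ⟨hφ', he⟩
      refine huniq φ' ?_
      have h2 : HasMatrix ρA (mapRep (φ' : R →+* A) r) :=
        HasMatrix.of_isEquiv he (hρ.baseChangeAlong _ hφ')
      obtain ⟨M', hM'⟩ := h2.exists_conj hρA
      have h3 : mapRep (φ' : R →+* A) r = rA :=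
        normal_unique NF (hlift.mapRep φ' hφ') hlA (hnorm.mapRep NF φ') hnA M' hM'
      funext ⟨σ, i, j⟩
      have := congrFun (congrFun (DFunLike.congr_fun h3 σ) i) j
      rw [mapRep_apply, ← hr] at this
      exact this

end Main

end Fermat.Agent.S53
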