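import Fermat.Statements.S53

set_option autoImplicit false

open IsLocalRing

namespace Fermat.Agent.S53

/-- The absolute Galois group of `ℚ`. -/
abbrev GQ : Type := AlgebraicClosure ℚ ≃ₐ[ℚ] AlgebraicClosure ℚ

/-- Two by two matrices. -/
abbrev M2 (A : Type) : Type := Matrix (Fin 2) (Fin 2) A

/-- Adic continuity of a matrix representation. -/
def MatCont (A : Type) [CommRing A] [IsLocalRing A] (r : GQ →* M2 A) : Prop :=
  ∀ n : ℕ, ∃ L : IntermediateField ℚ (AlgebraicClosure ℚ), FiniteDimensional ℚ L ∧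
    ∀ σ : GQ, (∀ x ∈ L, σ x = x) → ∀ i j, (r σ - 1) i j ∈ maximalIdeal A ^ n

/-- `ρ` has matrix `r` in some basis. -/
def HasMatrix {A : Type} [CommRing A] [IsLocalRing A] (ρ : GaloisRepAdic A) (r : GQ →* M2 A) :
    Prop :=
  ∃ b : Module.Basis (Fin 2) A ρ.V, ∀ σ, LinearMap.toMatrix b b (ρ.ρ σ) = r σ

/-- Push a matrix representation forward along a ring homomorphism. -/
noncomputable def mapRep {A B : Type} [CommRing A] [CommRing B] (φ : A →+* B) (r : GQ →* M2 A) : GQ →* M2 B :=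
  (φ.mapMatrix : M2 A →+* M2 B).toMonoidHom.comp r

@[simp] lemma mapRep_apply {A B : Type} [CommRing A] [CommRing B] (φ : A →+* B) (r : GQ →* M2 A)
    (σ : GQ) (i j : Fin 2) : mapRep φ r σ i j = φ (r σ i j) := rfl

section

variable {𝒪 : Type} [CommRing 𝒪] [IsLocalRing 𝒪]

/-- Normal form data for a residual matrix representation. -/
structure NFData (𝒪 : Type) [CommRing 𝒪] [IsLocalRing 𝒪] (rbar : GQ →* M2 (ResidueField 𝒪)) where
  s1 : GQ
  s2 : GQ
  i0 : Fin 2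
  j0 : Fin 2
  c : 𝒪
  h00 : rbar s1 0 0 = 0
  h10 : rbar s1 1 0 = 1
  hc : residue 𝒪 c = rbar s2 i0 j0
  hcomm : (rbar s1 * rbar s2 - rbar s2 * rbar s1) i0 j0 ≠ 0

/-- `r` reduces to `rbar` entrywise. -/
def Lifts (rbar : GQ →* M2 (ResidueField 𝒪)) {A : Type} [CommRing A] [IsLocalRing A] [Algebra 𝒪 A]
    (r : GQ →* M2 A) : Prop :=
  ∀ σ i j (c : 𝒪), residue 𝒪 c = rbar σ i j → r σ i j - algebraMap 𝒪 A c ∈ maximalIdeal A

/-- `r` is in normal form. -/
def IsNormal {rbar : GQ →* M2 (ResidueField 𝒪)} (N : NFData 𝒪 rbar) {A : Type} [CommRing A]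
    [Algebra 𝒪 A] (r : GQ →* M2 A) : Prop :=
  r N.s1 0 0 = 0 ∧ r N.s1 1 0 = 1 ∧ r N.s2 N.i0 N.j0 = algebraMap 𝒪 A N.c

end

end Fermat.Agent.S53
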