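import Fermat.Agent.S53.PowerSeries

set_option autoImplicit false

namespace Fermat.Agent.S53.LI

open IsLocalRing MvPowerSeries

variable {τ 𝒪 : Type} [Finite τ] [CommRing 𝒪] [IsLocalRing 𝒪] [IsNoetherianRing 𝒪]

/-- The quotient by `W ⊔ (X)^n` is Artinian. -/
theorem isArtinianRing_quotient (W : Ideal (MvPowerSeries τ 𝒪)) (n : ℕ)
    (hW : GoodQuot (W ⊔ (Ideal.span (Set.range X) : Ideal (MvPowerSeries τ 𝒪)) ^ n)) :
    IsArtinianRing (MvPowerSeries τ 𝒪 ⧸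
      (W ⊔ (Ideal.span (Set.range X) : Ideal (MvPowerSeries τ 𝒪)) ^ n)) := by
  have := hW.isLocalRing
  rw [isArtinianRing_iff_isNilpotent_maximalIdeal]
  refine ⟨n, ?_⟩
  rw [hW.maximalIdeal_eq, ← Ideal.map_pow, Ideal.zero_eq_bot, eq_bot_iff]
  rw [Ideal.map_le_iff_le_comap]
  intro f hf
  rw [Ideal.mem_comap, Ideal.mem_bot]
  exact Ideal.Quotient.eq_zero_iff_mem.mpr (Ideal.mem_sup_right hf)

/-- A nonempty inf-closed family of ideals containing an ideal with Artinian quotient has a least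
element. -/
theorem exists_least {P : Type} [CommRing P] (W : Ideal P) [IsArtinianRing (P ⧸ W)]
    (𝒦 : Set (Ideal P)) (hne : 𝒦.Nonempty) (hinf : ∀ K ∈ 𝒦, ∀ K' ∈ 𝒦, K ⊓ K' ∈ 𝒦)
    (hW : ∀ K ∈ 𝒦, W ≤ K) : ∃ J ∈ 𝒦, ∀ K ∈ 𝒦, J ≤ K := by
  have hcm : ∀ K ∈ 𝒦, (K.map (Ideal.Quotient.mk W)).comap (Ideal.Quotient.mk W) = K := by
    intro K hK
    rw [Ideal.comap_map_of_surjective _ Ideal.Quotient.mk_surjective, ← RingHom.ker_eq_comap_bot,
      Ideal.mk_ker, sup_eq_left]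
    exact hW K hK
  obtain ⟨M, ⟨J, hJ, rfl⟩, hmin⟩ := IsArtinian.set_has_minimal
    ((fun K : Ideal P => K.map (Ideal.Quotient.mk W)) '' 𝒦) (hne.image _)
  refine ⟨J, hJ, fun K hK => ?_⟩
  have h1 : J ⊓ K ∈ 𝒦 := hinf J hJ K hK
  have h2 : (J ⊓ K).map (Ideal.Quotient.mk W) = J.map (Ideal.Quotient.mk W) := by
    have hle : (J ⊓ K).map (Ideal.Quotient.mk W) ≤ J.map (Ideal.Quotient.mk W) :=
      Ideal.map_mono inf_le_left
    by_contra hne'
    exact hmin _ ⟨_, h1, rfl⟩ (lt_of_le_of_ne hle hne')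
  have h3 : J ⊓ K = J := by
    rw [← hcm _ h1, h2, hcm _ hJ]
  exact inf_eq_left.mp h3

theorem exists_chain (𝒦 : Set (Ideal (MvPowerSeries τ 𝒪))) (hne : 𝒦.Nonempty)
    (hinf : ∀ K ∈ 𝒦, ∀ K' ∈ 𝒦, K ⊓ K' ∈ 𝒦)
    (hup : ∀ K ∈ 𝒦, ∀ K' : Ideal (MvPowerSeries τ 𝒪), K ≤ K' → K' ≠ ⊤ → K' ∈ 𝒦)
    (htop : ∀ K ∈ 𝒦, K ≠ ⊤)
    (W : Ideal (MvPowerSeries τ 𝒪)) (hW : ∀ K ∈ 𝒦, W ≤ K)
    (hunif : ∀ c ∈ maximalIdeal 𝒪, (C c : MvPowerSeries τ 𝒪) ∈ W ⊔ Ideal.span (Set.range X))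
    (hpow : ∀ K ∈ 𝒦, ∃ n : ℕ, (Ideal.span (Set.range X) : Ideal (MvPowerSeries τ 𝒪)) ^ n ≤ K) :
    ∃ Jn : ℕ → Ideal (MvPowerSeries τ 𝒪), Jn 0 = ⊤ ∧ (∀ n, n ≠ 0 → Jn n ∈ 𝒦) ∧
      (∀ n, (Ideal.span (Set.range X) : Ideal (MvPowerSeries τ 𝒪)) ^ n ≤ Jn n) ∧ Antitone Jn ∧
      (∀ n, Jn n ≤ Jn (n + 1) ⊔ (Ideal.span (Set.range X) : Ideal (MvPowerSeries τ 𝒪)) ^ n) ∧
      (∀ K ∈ 𝒦, ∃ n, Jn n ≤ K) ∧
      (∀ n, Jn n ≤ (⨅ m, Jn m) ⊔ (Ideal.span (Set.range X) : Ideal (MvPowerSeries τ 𝒪)) ^ n) ∧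
      GoodQuot (⨅ m, Jn m) := by
  set XX : Ideal (MvPowerSeries τ 𝒪) := Ideal.span (Set.range X) with hXX
  have hmax : maximalIdeal (MvPowerSeries τ 𝒪) ∈ 𝒦 := by
    obtain ⟨K, hK⟩ := hne
    exact hup K hK _ (le_maximalIdeal (htop K hK)) (Ideal.IsMaximal.ne_top inferInstance)
  have hXm : ∀ n, XX ^ (n + 1) ≤ maximalIdeal (MvPowerSeries τ 𝒪) := fun n =>
    (Ideal.pow_le_self (Nat.succ_ne_zero n)).trans span_range_X_le_maximalIdeal
  have hleast : ∀ n : ℕ, ∃ J ∈ 𝒦, XX ^ (n + 1) ≤ J ∧ ∀ K ∈ 𝒦, XX ^ (n + 1) ≤ K → J ≤ K := by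
    intro n
    have hG : GoodQuot (W ⊔ XX ^ (n + 1)) := by
      refine ⟨?_, fun c hc => ?_⟩
      · intro h
        have : W ⊔ XX ^ (n + 1) ≤ maximalIdeal (MvPowerSeries τ 𝒪) := sup_le (hW _ hmax) (hXm n)
        rw [h, top_le_iff] at this
        exact (Ideal.IsMaximal.ne_top inferInstance) this
      · exact (sup_le_sup_right (le_sup_left : W ≤ W ⊔ XX ^ (n + 1)) XX) (hunif c hc)
    have := isArtinianRing_quotient W (n + 1) hG
    obtain ⟨J, ⟨hJ, hJ'⟩, hmin⟩ := exists_least (W ⊔ XX ^ (n + 1)) {K | K ∈ 𝒦 ∧ XX ^ (n + 1) ≤ K}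
      ⟨_, hmax, hXm n⟩ (fun K hK K' hK' => ⟨hinf K hK.1 K' hK'.1, le_inf hK.2 hK'.2⟩)
      (fun K hK => sup_le (hW K hK.1) hK.2)
    exact ⟨J, hJ, hJ', fun K hK hK' => hmin K ⟨hK, hK'⟩⟩
  choose J hJ𝒦 hJpow hJmin using hleast
  let Jn : ℕ → Ideal (MvPowerSeries τ 𝒪) := fun n => Nat.casesOn n ⊤ J
  have hJn0 : Jn 0 = ⊤ := rfl
  have hJns : ∀ n, Jn (n + 1) = J n := fun n => rfl
  have h1 : ∀ n, XX ^ n ≤ Jn n := by
    intro n
    cases n with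
    | zero => rw [hJn0]; exact le_top
    | succ n => rw [hJns]; exact hJpow n
  have hanti : Antitone Jn := by
    refine antitone_nat_of_succ_le fun n => ?_
    cases n with
    | zero => rw [hJn0]; exact le_top
    | succ n =>
      rw [hJns, hJns]
      exact hJmin _ _ (hJ𝒦 n) ((Ideal.pow_le_pow_right (Nat.le_succ _)).trans (hJpow n))
  have h2 : ∀ n, Jn n ≤ Jn (n + 1) ⊔ XX ^ n := by
    intro n
    cases n with
    | zero => simp
    | succ n =>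
      rw [hJns, hJns]
      refine hJmin _ _ (hup _ (hJ𝒦 (n + 1)) _ le_sup_left ?_) le_sup_right
      intro h
      have : J (n + 1) ⊔ XX ^ (n + 1) ≤ maximalIdeal (MvPowerSeries τ 𝒪) :=
        sup_le (le_maximalIdeal (htop _ (hJ𝒦 _))) (hXm n)
      rw [h, top_le_iff] at this
      exact (Ideal.IsMaximal.ne_top inferInstance) this
  refine ⟨Jn, hJn0, ?_, h1, hanti, h2, ?_, ?_, ?_, ?_⟩
  · intro n hn
    obtain ⟨m, rfl⟩ := Nat.exists_eq_succ_of_ne_zero hn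
    exact hJ𝒦 m
  · intro K hK
    obtain ⟨n, hn⟩ := hpow K hK
    cases n with
    | zero =>
      rw [pow_zero, Ideal.one_eq_top, top_le_iff] at hn
      exact absurd hn (htop K hK)
    | succ n => exact ⟨n + 1, hJmin _ _ hK hn⟩
  · intro N z hz
    obtain ⟨y, hy1, hy2⟩ := mittagLeffler XX Jn h1 h2 hanti (fun n => if n ≤ N then z else 0)
      (by
        intro n
        by_cases h : n + 1 ≤ N
        · have h' : n ≤ N := by omega
          simp [h, h']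
        · by_cases h' : n ≤ N
          · have : n = N := by omega
            subst this
            simpa [h] using hz
          · simp [h, h']) N
    have hy : y ∈ ⨅ m, Jn m := by
      rw [Ideal.mem_iInf]
      intro m
      have := hy1 (max m (N + 1))
      have hlt : ¬ (max m (N + 1) ≤ N) := by omega
      simp only [hlt, if_false, sub_zero] at this
      exact hanti (le_max_left _ _) this
    simp only [le_refl, if_true] at hy2
    have : z = y + (-(y - z)) := by ring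
    rw [this]
    exact Ideal.add_mem _ (Ideal.mem_sup_left hy) (Ideal.mem_sup_right (neg_mem hy2))
  · intro h
    have : (⨅ m, Jn m) ≤ Jn 1 := iInf_le _ 1
    rw [h, top_le_iff] at this
    exact htop _ (hJ𝒦 0) this
  · intro c hc
    have hWle : W ≤ ⨅ m, Jn m := by
      refine le_iInf fun m => ?_
      cases m with
      | zero => exact le_top
      | succ m => exact hW _ (hJ𝒦 m)
    exact (sup_le_sup_right hWle XX) (hunif c hc)

end Fermat.Agent.S53.LI
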