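import Mathlib
import Fermat.Prelude.Thm_IsAdicComplete_of_module_finite

set_option autoImplicit false

/-!
Power series rings in finitely many variables: membership in powers of the ideal of variables,
evaluation at nilpotent families, quotients, a Mittag-Leffler type lemma.
-/

namespace Fermat.Agent.S53

open IsLocalRing MvPowerSeries

section general

variable {σ R : Type*} [CommRing R] [Finite σ]

theorem map_span_range_X :
    Ideal.map (toAdicCompletionAlgEquiv σ R).toRingEquiv (Ideal.span (Set.range X)) =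
    (MvPolynomial.idealOfVars σ R).map (algebraMap (MvPolynomial σ R)
      (AdicCompletion (MvPolynomial.idealOfVars σ R) (MvPolynomial σ R))) := by
  simp_rw [Ideal.map_span, ← Set.range_comp]
  congr 2; ext1
  simp [AdicCompletion.algebraMap_apply, ← MvPolynomial.coe_X, toAdicCompletion_coe]

theorem mem_span_range_X_pow_iff (n : ℕ) (q : MvPowerSeries σ R) :
    q ∈ (Ideal.span (Set.range X) : Ideal (MvPowerSeries σ R)) ^ n ↔
      ∀ x : σ →₀ ℕ, x.degree < n → coeff x q = 0 := by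
  set e := (toAdicCompletionAlgEquiv σ R).toRingEquiv with he
  have h1 : q ∈ (Ideal.span (Set.range X) : Ideal (MvPowerSeries σ R)) ^ n ↔
      e q ∈ Ideal.map e ((Ideal.span (Set.range X) : Ideal (MvPowerSeries σ R)) ^ n) := by
    rw [Ideal.mem_map_of_equiv]
    constructor
    · intro h; exact ⟨q, h, rfl⟩
    · rintro ⟨y, hy, hyq⟩
      rwa [← e.injective hyq]
  rw [h1, Ideal.map_pow, map_span_range_X, ← Ideal.map_pow,
    ← Submodule.restrictScalars_mem (MvPolynomial σ R), ← Ideal.smul_top_eq_map,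
    AdicCompletion.pow_smul_top_eq_ker_eval (MvPolynomial.idealOfVars_fg σ R)]
  rw [LinearMap.mem_ker, AdicCompletion.eval_apply]
  have h2 : (e q).val n = Ideal.Quotient.mk _ (truncTotal n q) := rfl
  rw [h2, Ideal.Quotient.eq_zero_iff_mem, smul_eq_mul, Ideal.mul_top,
    MvPolynomial.mem_pow_idealOfVars_iff']
  constructor
  · intro h x hx
    rw [← coeff_truncTotal _ hx]; exact h x hx
  · intro h x hx
    rw [coeff_truncTotal _ hx]; exact h x hx

theorem sub_truncTotal_mem (n : ℕ) (q : MvPowerSeries σ R) :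
    q - ((truncTotal n q : MvPolynomial σ R) : MvPowerSeries σ R) ∈
      (Ideal.span (Set.range X) : Ideal (MvPowerSeries σ R)) ^ n := by
  rw [mem_span_range_X_pow_iff]
  intro x hx
  rw [map_sub, MvPolynomial.coeff_coe, coeff_truncTotal _ hx, sub_self]

theorem sub_C_constantCoeff_mem (f : MvPowerSeries σ R) :
    f - C (constantCoeff f) ∈ (Ideal.span (Set.range X) : Ideal (MvPowerSeries σ R)) := by
  rw [← pow_one (Ideal.span (Set.range X) : Ideal (MvPowerSeries σ R)), mem_span_range_X_pow_iff]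
  intro x hx
  have hx0 : x = 0 := by
    rw [Nat.lt_one_iff] at hx
    exact (Finsupp.degree_eq_zero_iff x).mp hx
  subst hx0
  simp

variable {A : Type*} [CommRing A] [Algebra R A]

omit [Finite σ] in
theorem aeval_mem_of_mem_idealOfVars_pow (a : σ → A) (n : ℕ) (p : MvPolynomial σ R)
    (hp : p ∈ MvPolynomial.idealOfVars σ R ^ n) :
    MvPolynomial.aeval a p ∈ (Ideal.span (Set.range a)) ^ n := by
  have h1 : Ideal.map (MvPolynomial.aeval a : MvPolynomial σ R →ₐ[R] A).toRingHom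
      (MvPolynomial.idealOfVars σ R) ≤ Ideal.span (Set.range a) := by
    rw [MvPolynomial.idealOfVars, Ideal.map_span, Ideal.span_le]
    rintro _ ⟨_, ⟨t, rfl⟩, rfl⟩
    have : a t ∈ Ideal.span (Set.range a) := Ideal.subset_span ⟨t, rfl⟩
    simpa using this
  have h2 := Ideal.mem_map_of_mem (MvPolynomial.aeval a : MvPolynomial σ R →ₐ[R] A).toRingHom hp
  rw [Ideal.map_pow] at h2
  exact Ideal.pow_right_mono h1 n h2

/-- Evaluation of power series at a family generating a nilpotent ideal. -/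
noncomputable def evalNilp (a : σ → A) (n : ℕ) (h : (Ideal.span (Set.range a)) ^ n = ⊥) :
    MvPowerSeries σ R →ₐ[R] A :=
  (Ideal.Quotient.liftₐ (MvPolynomial.idealOfVars σ R ^ n) (MvPolynomial.aeval a)
    (fun p hp => by
      have := aeval_mem_of_mem_idealOfVars_pow a n p hp
      rwa [h, Ideal.mem_bot] at this)).comp
  ((truncTotalAlgHom σ R n).restrictScalars R)

theorem evalNilp_coe (a : σ → A) (n : ℕ) (h : (Ideal.span (Set.range a)) ^ n = ⊥)
    (p : MvPolynomial σ R) : evalNilp a n h (p : MvPowerSeries σ R) = MvPolynomial.aeval a p := by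
  have h1 := (truncTotalAlgHom σ R n).commutes p
  have h2 : (algebraMap (MvPolynomial σ R) (MvPowerSeries σ R)) p = (p : MvPowerSeries σ R) := rfl
  rw [h2] at h1
  simp only [evalNilp, AlgHom.comp_apply, AlgHom.restrictScalars_apply, h1]
  exact Ideal.Quotient.liftₐ_apply _ _ _ _

theorem evalNilp_X (a : σ → A) (n : ℕ) (h : (Ideal.span (Set.range a)) ^ n = ⊥) (t : σ) :
    evalNilp (R := R) a n h (X t) = a t := by
  rw [← MvPolynomial.coe_X, evalNilp_coe, MvPolynomial.aeval_X]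

theorem algHom_apply_eq_aeval_truncTotal (f : MvPowerSeries σ R →ₐ[R] A) (n : ℕ)
    (h : (Ideal.span (Set.range fun t => f (X t))) ^ n = ⊥) (q : MvPowerSeries σ R) :
    f q = MvPolynomial.aeval (fun t => f (X t)) (truncTotal n q) := by
  have h1 : f (q - ((truncTotal n q : MvPolynomial σ R) : MvPowerSeries σ R)) = 0 := by
    have h2 := Ideal.mem_map_of_mem f.toRingHom (sub_truncTotal_mem n q)
    rw [Ideal.map_pow, Ideal.map_span, ← Set.range_comp] at h2
    have h3 : (⇑f.toRingHom ∘ X) = fun t => f (X t) := rfl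
    rw [h3, h, Ideal.mem_bot] at h2
    exact h2
  rw [map_sub, sub_eq_zero] at h1
  rw [h1]
  have h4 : (f.comp (MvPolynomial.coeToMvPowerSeries.algHom R)) =
      MvPolynomial.aeval (fun t => f (X t)) := by
    apply MvPolynomial.algHom_ext
    intro t
    simp
  exact congrArg (fun φ => φ (truncTotal n q)) h4

theorem algHom_ext_of_nilp (f g : MvPowerSeries σ R →ₐ[R] A) (n : ℕ)
    (h : (Ideal.span (Set.range fun t => f (X t))) ^ n = ⊥) (hfg : ∀ t, f (X t) = g (X t)) :
    f = g := by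
  ext q
  have hg : (Ideal.span (Set.range fun t => g (X t))) ^ n = ⊥ := by
    rw [← h]; congr 3; ext t; rw [hfg]
  rw [algHom_apply_eq_aeval_truncTotal f n h, algHom_apply_eq_aeval_truncTotal g n hg]
  congr 2
  ext t; rw [hfg]

end general

section complete

variable {σ R : Type*} [CommRing R] [Finite σ]
variable {A : Type*} [CommRing A] [Algebra R A]

omit [Finite σ] in
theorem span_range_mk_pow_eq_bot (𝔞 : Ideal A) (a : σ → A) (ha : ∀ t, a t ∈ 𝔞) (n : ℕ) :
    (Ideal.span (Set.range fun t => Ideal.Quotient.mk (𝔞 ^ n) (a t))) ^ n = ⊥ := by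
  have h1 : Ideal.span (Set.range fun t => Ideal.Quotient.mk (𝔞 ^ n) (a t)) ≤
      Ideal.map (Ideal.Quotient.mk (𝔞 ^ n)) 𝔞 := by
    rw [Ideal.span_le]
    rintro _ ⟨t, rfl⟩
    exact Ideal.mem_map_of_mem _ (ha t)
  rw [eq_bot_iff]
  refine (Ideal.pow_right_mono h1 n).trans ?_
  rw [← Ideal.map_pow, Ideal.map_quotient_self]

theorem evalNilp_compat (𝔞 : Ideal A) (a : σ → A) (ha : ∀ t, a t ∈ 𝔞) {m n : ℕ} (hle : m ≤ n) :
    (Ideal.Quotient.factorₐ R (Ideal.pow_le_pow_right hle)).comp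
      (evalNilp (R := R) (fun t => Ideal.Quotient.mk (𝔞 ^ n) (a t)) n
        (span_range_mk_pow_eq_bot 𝔞 a ha n)) =
      evalNilp (fun t => Ideal.Quotient.mk (𝔞 ^ m) (a t)) m
        (span_range_mk_pow_eq_bot 𝔞 a ha m) := by
  apply algHom_ext_of_nilp _ _ m
  · simp only [AlgHom.comp_apply, evalNilp_X]
    exact span_range_mk_pow_eq_bot 𝔞 a ha m
  · intro t
    simp only [AlgHom.comp_apply, evalNilp_X]
    rfl

/-- Evaluation of power series at a family of elements of `𝔞` in an `𝔞`-adically complete ring. -/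
noncomputable def evalComplete (𝔞 : Ideal A) [IsAdicComplete 𝔞 A] (a : σ → A)
    (ha : ∀ t, a t ∈ 𝔞) : MvPowerSeries σ R →ₐ[R] A :=
  IsAdicComplete.liftAlgHom 𝔞
    (fun n => evalNilp (fun t => Ideal.Quotient.mk (𝔞 ^ n) (a t)) n
      (span_range_mk_pow_eq_bot 𝔞 a ha n))
    (fun hle => evalNilp_compat 𝔞 a ha hle)

theorem mk_evalComplete (𝔞 : Ideal A) [IsAdicComplete 𝔞 A] (a : σ → A)
    (ha : ∀ t, a t ∈ 𝔞) (n : ℕ) (p : MvPowerSeries σ R) :
    Ideal.Quotient.mk (𝔞 ^ n) (evalComplete 𝔞 a ha p) =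
      evalNilp (fun t => Ideal.Quotient.mk (𝔞 ^ n) (a t)) n
      (span_range_mk_pow_eq_bot 𝔞 a ha n) p := by
  unfold evalComplete
  exact IsAdicComplete.mk_liftAlgHom 𝔞 _ (fun hle => evalNilp_compat 𝔞 a ha hle) n p

theorem evalComplete_X (𝔞 : Ideal A) [IsAdicComplete 𝔞 A] (a : σ → A)
    (ha : ∀ t, a t ∈ 𝔞) (t : σ) : evalComplete (R := R) 𝔞 a ha (X t) = a t := by
  rw [IsHausdorff.eq_iff_smodEq (I := 𝔞)]
  intro n
  have := mk_evalComplete (R := R) 𝔞 a ha n (X t)
  rw [evalNilp_X] at this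
  rw [SModEq, smul_eq_mul, Ideal.mul_top]
  exact this

theorem algHom_ext_of_complete (𝔞 : Ideal A) [IsAdicComplete 𝔞 A]
    (f g : MvPowerSeries σ R →ₐ[R] A) (hf : ∀ t, f (X t) ∈ 𝔞) (hfg : ∀ t, f (X t) = g (X t)) :
    f = g := by
  apply IsAdicComplete.algHom_ext 𝔞
  intro n
  apply algHom_ext_of_nilp _ _ n
  · exact span_range_mk_pow_eq_bot 𝔞 (fun t => f (X t)) hf n
  · intro t
    simp only [AlgHom.comp_apply, hfg]

end complete

section ML

variable {P : Type*} [CommRing P] (I : Ideal P) [IsAdicComplete I P]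

theorem mittagLeffler (Jn : ℕ → Ideal P) (h1 : ∀ n, I ^ n ≤ Jn n)
    (h2 : ∀ n, Jn n ≤ Jn (n + 1) ⊔ I ^ n) (hanti : Antitone Jn)
    (x : ℕ → P) (hx : ∀ n, x (n + 1) - x n ∈ Jn n) (N : ℕ) :
    ∃ y, (∀ n, y - x n ∈ Jn n) ∧ y - x N ∈ I ^ N := by
  have step : ∀ (k : ℕ) (z : P), z - x (N + k) ∈ Jn (N + k) →
      ∃ z', z' - x (N + (k + 1)) ∈ Jn (N + (k + 1)) ∧ z' - z ∈ I ^ (N + k) := by
    intro k z hz
    have h3 : x (N + k + 1) - z ∈ Jn (N + k) := by
      have := (Jn (N + k)).sub_mem (hx (N + k)) hz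
      simpa using this
    obtain ⟨j, hj, μ, hμ, hjμ⟩ := Submodule.mem_sup.mp (h2 _ h3)
    refine ⟨z + μ, ?_, by simpa using hμ⟩
    have : z + μ - x (N + (k + 1)) = - j := by
      have h4 : x (N + (k + 1)) = x (N + k + 1) := rfl
      rw [h4]; linear_combination hjμ
    rw [this]
    exact (Jn _).neg_mem hj
  choose f hf1 hf2 using step
  let seq : (k : ℕ) → {z : P // z - x (N + k) ∈ Jn (N + k)} := fun k =>
    Nat.rec (motive := fun k => {z : P // z - x (N + k) ∈ Jn (N + k)})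
      ⟨x N, by simp⟩ (fun k z => ⟨f k z.1 z.2, hf1 k z.1 z.2⟩) k
  have hseq : ∀ k, (seq (k + 1)).1 - (seq k).1 ∈ I ^ (N + k) := fun k => hf2 k _ _
  have hcauchy : ∀ m n, m ≤ n → (seq n).1 - (seq m).1 ∈ I ^ (N + m) := by
    intro m n hmn
    induction n, hmn using Nat.le_induction with
    | base => simp
    | succ n hmn ih =>
      have h5 : (seq (n + 1)).1 - (seq n).1 ∈ I ^ (N + m) :=
        Ideal.pow_le_pow_right (by omega) (hseq n)
      have := (I ^ (N + m)).add_mem h5 ih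
      simpa using this
  obtain ⟨L, hL⟩ := IsPrecomplete.prec (I := I) (M := P) inferInstance (f := fun k => (seq k).1)
    (by
      intro m n hmn
      rw [SModEq.sub_mem, smul_eq_mul, Ideal.mul_top]
      have := (I ^ m).neg_mem (Ideal.pow_le_pow_right (Nat.le_add_left m N) (hcauchy m n hmn))
      simpa using this)
  have hL' : ∀ k, L - (seq k).1 ∈ I ^ (N + k) := by
    intro k
    have h6 := hL (N + k)
    rw [SModEq.sub_mem, smul_eq_mul, Ideal.mul_top] at h6
    have h7 := hcauchy k (N + k) (Nat.le_add_left k N)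
    have := (I ^ (N + k)).sub_mem h7 h6
    simpa using this
  have hge : ∀ k, L - x (N + k) ∈ Jn (N + k) := by
    intro k
    have := (Jn (N + k)).add_mem (h1 _ (hL' k)) (seq k).2
    simpa using this
  have htel : ∀ m n, m ≤ n → x n - x m ∈ Jn m := by
    intro m n hmn
    induction n, hmn using Nat.le_induction with
    | base => simp
    | succ n hmn ih =>
      have := (Jn m).add_mem (hanti hmn (hx n)) ih
      simpa using this
  refine ⟨L, fun n => ?_, hL' 0⟩
  rcases le_total N n with h | h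
  · obtain ⟨k, rfl⟩ := Nat.exists_eq_add_of_le h
    exact hge k
  · have := (Jn n).add_mem (hanti h (hge 0)) (htel n N h)
    simpa using this

end ML

section quot
variable {τ 𝒪 : Type*} [CommRing 𝒪] [IsLocalRing 𝒪]

theorem mem_maximalIdeal_mvPowerSeries_iff (f : MvPowerSeries τ 𝒪) :
    f ∈ maximalIdeal (MvPowerSeries τ 𝒪) ↔ constantCoeff f ∈ maximalIdeal 𝒪 := by
  rw [mem_maximalIdeal, mem_maximalIdeal, mem_nonunits_iff, mem_nonunits_iff,
    MvPowerSeries.isUnit_iff_constantCoeff]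

theorem span_range_X_le_maximalIdeal :
    (Ideal.span (Set.range X) : Ideal (MvPowerSeries τ 𝒪)) ≤ maximalIdeal _ := by
  rw [Ideal.span_le]
  rintro _ ⟨t, rfl⟩
  rw [SetLike.mem_coe, mem_maximalIdeal_mvPowerSeries_iff, constantCoeff_X]
  exact zero_mem _

/-- Ideals `J` of the power series ring such that the quotient is a complete local ring whose
maximal ideal is generated by the variables. -/
structure GoodQuot (J : Ideal (MvPowerSeries τ 𝒪)) : Prop where
  ne_top : J ≠ ⊤
  unif : ∀ c ∈ maximalIdeal 𝒪, (C c : MvPowerSeries τ 𝒪) ∈ J ⊔ Ideal.span (Set.range X)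

variable {J : Ideal (MvPowerSeries τ 𝒪)}

theorem GoodQuot.isLocalRing (hJ : GoodQuot J) : IsLocalRing (MvPowerSeries τ 𝒪 ⧸ J) :=
  have : Nontrivial (MvPowerSeries τ 𝒪 ⧸ J) := Ideal.Quotient.nontrivial_iff.mpr hJ.ne_top
  IsLocalRing.of_surjective' (Ideal.Quotient.mk J) Ideal.Quotient.mk_surjective

theorem GoodQuot.mk_mem_maximalIdeal_iff (hJ : GoodQuot J) (f : MvPowerSeries τ 𝒪) :
    haveI := hJ.isLocalRing
    Ideal.Quotient.mk J f ∈ maximalIdeal (MvPowerSeries τ 𝒪 ⧸ J) ↔
      f ∈ maximalIdeal (MvPowerSeries τ 𝒪) := by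
  have := hJ.isLocalRing
  have := IsLocalHom.of_surjective (Ideal.Quotient.mk J) Ideal.Quotient.mk_surjective
  rw [mem_maximalIdeal, mem_nonunits_iff, mem_maximalIdeal, mem_nonunits_iff, not_iff_not]
  exact ⟨fun h => isUnit_of_map_unit (Ideal.Quotient.mk J) f h, fun h => h.map _⟩

theorem GoodQuot.isLocalHom (hJ : GoodQuot J) :
    IsLocalHom (algebraMap 𝒪 (MvPowerSeries τ 𝒪 ⧸ J)) := by
  have := hJ.isLocalRing
  constructor
  intro c hc
  by_contra hc'
  have h1 : (C c : MvPowerSeries τ 𝒪) ∈ maximalIdeal (MvPowerSeries τ 𝒪) := by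
    rw [mem_maximalIdeal_mvPowerSeries_iff, constantCoeff_C]
    exact hc'
  rw [← hJ.mk_mem_maximalIdeal_iff] at h1
  exact h1 hc

variable [Finite τ]

theorem GoodQuot.residue_surjective (hJ : GoodQuot J) :
    haveI := hJ.isLocalRing
    Function.Surjective (IsLocalRing.residue (MvPowerSeries τ 𝒪 ⧸ J) ∘
      algebraMap 𝒪 (MvPowerSeries τ 𝒪 ⧸ J)) := by
  have := hJ.isLocalRing
  intro x
  obtain ⟨x, rfl⟩ := IsLocalRing.residue_surjective x
  obtain ⟨f, rfl⟩ := Ideal.Quotient.mk_surjective x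
  refine ⟨constantCoeff f, ?_⟩
  rw [Function.comp_apply, ← sub_eq_zero, ← map_sub, IsLocalRing.residue_eq_zero_iff]
  have h1 : algebraMap 𝒪 (MvPowerSeries τ 𝒪 ⧸ J) (constantCoeff f) - Ideal.Quotient.mk J f =
      Ideal.Quotient.mk J (C (constantCoeff f) - f) := by
    rw [map_sub]; rfl
  rw [h1, hJ.mk_mem_maximalIdeal_iff]
  have := span_range_X_le_maximalIdeal (sub_C_constantCoeff_mem f)
  rw [← neg_sub]
  exact neg_mem this

theorem GoodQuot.maximalIdeal_eq (hJ : GoodQuot J) :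
    haveI := hJ.isLocalRing
    maximalIdeal (MvPowerSeries τ 𝒪 ⧸ J) =
      (Ideal.span (Set.range X) : Ideal (MvPowerSeries τ 𝒪)).map
        (algebraMap _ (MvPowerSeries τ 𝒪 ⧸ J)) := by
  have := hJ.isLocalRing
  apply le_antisymm
  · intro x hx
    obtain ⟨f, rfl⟩ := Ideal.Quotient.mk_surjective x
    rw [hJ.mk_mem_maximalIdeal_iff, mem_maximalIdeal_mvPowerSeries_iff] at hx
    have h1 := hJ.unif _ hx
    have h2 : f ∈ J ⊔ Ideal.span (Set.range X) := by
      have := (J ⊔ Ideal.span (Set.range X)).add_mem h1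
        (Ideal.mem_sup_right (sub_C_constantCoeff_mem f))
      simpa using this
    obtain ⟨j, hj, g, hg, rfl⟩ := Submodule.mem_sup.mp h2
    rw [map_add, Ideal.Quotient.eq_zero_iff_mem.mpr hj, zero_add]
    exact Ideal.mem_map_of_mem _ hg
  · rw [Ideal.map_le_iff_le_comap]
    intro f hf
    rw [Ideal.mem_comap]
    exact (hJ.mk_mem_maximalIdeal_iff f).mpr (span_range_X_le_maximalIdeal hf)

theorem GoodQuot.isAdicComplete [IsNoetherianRing 𝒪] (hJ : GoodQuot J) :
    haveI := hJ.isLocalRing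
    IsAdicComplete (maximalIdeal (MvPowerSeries τ 𝒪 ⧸ J)) (MvPowerSeries τ 𝒪 ⧸ J) := by
  have := hJ.isLocalRing
  rw [hJ.maximalIdeal_eq, IsAdicComplete.map_algebraMap_iff]
  exact IsAdicComplete.of_module_finite _ _

end quot

end Fermat.Agent.S53
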