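import Fermat.Agent.S53.TwoHoms

set_option autoImplicit false
set_option linter.unusedSectionVars false

/-!
Toolbox on Artinian test algebras used in the proof of `exists_universal`.
-/

namespace Fermat.Agent.S53.RF

open IsLocalRing GaloisRep

variable {𝒪 : Type} [CommRing 𝒪] [IsLocalRing 𝒪]

section criterion

variable {S : Type} [CommRing S] [Algebra 𝒪 S]

theorem algHom_residue_surjective (π : S →ₐ[𝒪] ResidueField 𝒪) : Function.Surjective π := by
  intro y
  obtain ⟨c, rfl⟩ := IsLocalRing.residue_surjective y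
  exact ⟨algebraMap 𝒪 S c, π.commutes c⟩

theorem isLocalHom_of_nil (π : S →ₐ[𝒪] ResidueField 𝒪) (hπ : ∀ x, π x = 0 → IsNilpotent x) :
    IsLocalHom (π : S →+* ResidueField 𝒪) := by
  constructor
  intro x hx
  have hx' : π x ≠ 0 := hx.ne_zero
  obtain ⟨y, hy⟩ := algHom_residue_surjective π (π x)⁻¹
  have h1 : π (x * y - 1) = 0 := by
    rw [map_sub, map_mul, hy, mul_inv_cancel₀ hx', map_one, sub_self]
  have h2 : IsUnit (x * y) := by
    have := (hπ _ h1).isUnit_add_one
    simpa using this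
  exact isUnit_of_mul_isUnit_left h2

theorem isLocalRing_of_nil (π : S →ₐ[𝒪] ResidueField 𝒪) (hπ : ∀ x, π x = 0 → IsNilpotent x) :
    IsLocalRing S :=
  have := isLocalHom_of_nil π hπ
  RingHom.domain_isLocalRing (π : S →+* ResidueField 𝒪)

theorem mem_maximalIdeal_iff_of_nil [IsLocalRing S] (π : S →ₐ[𝒪] ResidueField 𝒪)
    (hπ : ∀ x, π x = 0 → IsNilpotent x) (x : S) : x ∈ maximalIdeal S ↔ π x = 0 := by
  have := isLocalHom_of_nil π hπ
  rw [mem_maximalIdeal, mem_nonunits_iff]
  constructor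
  · intro h
    by_contra h0
    exact h (isUnit_of_map_unit (π : S →+* ResidueField 𝒪) x (Ne.isUnit h0))
  · intro h hu
    have := hu.map π
    rw [h] at this
    exact not_isUnit_zero this

theorem testAlg_of_nil [IsLocalRing S] [Finite S] (π : S →ₐ[𝒪] ResidueField 𝒪)
    (hπ : ∀ x, π x = 0 → IsNilpotent x) : IsArtinianTestAlgebra 𝒪 S where
  isLocalHom := by
    constructor
    intro c hc
    have h1 := hc.map π
    rw [π.commutes] at h1
    exact isUnit_of_map_unit (IsLocalRing.residue 𝒪) c h1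
  residue_surjective := by
    intro y
    obtain ⟨x, rfl⟩ := IsLocalRing.residue_surjective y
    obtain ⟨c, hc⟩ := IsLocalRing.residue_surjective (π x)
    refine ⟨c, ?_⟩
    rw [Function.comp_apply, ← sub_eq_zero, ← map_sub, IsLocalRing.residue_eq_zero_iff,
      mem_maximalIdeal_iff_of_nil π hπ, map_sub, π.commutes, sub_eq_zero]
    exact hc
  isArtinian := inferInstance

end criterion

section basic

variable {A : Type} [CommRing A] [IsLocalRing A] [Algebra 𝒪 A]

theorem isNilpotent_of_mem (hA : IsArtinianTestAlgebra 𝒪 A) {x : A} (hx : x ∈ maximalIdeal A) :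
    IsNilpotent x := by
  obtain ⟨n, hn⟩ := exists_pow_maximalIdeal_eq_bot hA
  exact ⟨n, by simpa [hn] using Ideal.pow_mem_pow hx n⟩

theorem finite_of_testAlg [Finite (ResidueField 𝒪)] (hA : IsArtinianTestAlgebra 𝒪 A) :
    Finite A := by
  have := hA.isArtinian
  have := hA.isLocalHom
  have hfin : Finite (ResidueField A) := by
    refine Finite.of_surjective (ResidueField.map (algebraMap 𝒪 A)) (fun y => ?_)
    obtain ⟨c, hc⟩ := hA.residue_surjective y
    exact ⟨residue 𝒪 c, by rw [ResidueField.map_residue]; exact hc⟩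
  obtain ⟨n, hn⟩ := exists_pow_maximalIdeal_eq_bot hA
  have : Finite (A ⧸ (⊥ : Ideal A)) := IsLocalRing.finite_quotient_iff.mpr ⟨n, hn.le⟩
  exact Finite.of_equiv _ (RingEquiv.quotientBot A).toEquiv

end basic

section constructions

variable [Finite (ResidueField 𝒪)]
variable {Q A : Type} [CommRing Q] [Algebra 𝒪 Q] [CommRing A] [IsLocalRing A] [Algebra 𝒪 A]

omit [Finite (ResidueField 𝒪)] in
theorem isLocalRing_of_injective (hA : IsArtinianTestAlgebra 𝒪 A) (j : Q →ₐ[𝒪] A)
    (hj : Function.Injective j) : IsLocalRing Q := by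
  obtain ⟨f, hf⟩ := exists_resTo hA
  refine isLocalRing_of_nil (f.comp j) (fun x hx => ?_)
  have := isNilpotent_of_mem hA ((hf _).mp hx)
  exact (IsNilpotent.map_iff hj).mp this

theorem testAlg_of_injective [IsLocalRing Q] (hA : IsArtinianTestAlgebra 𝒪 A) (j : Q →ₐ[𝒪] A)
    (hj : Function.Injective j) : IsArtinianTestAlgebra 𝒪 Q := by
  obtain ⟨f, hf⟩ := exists_resTo hA
  have := finite_of_testAlg hA
  have : Finite Q := Finite.of_injective j hj
  refine testAlg_of_nil (f.comp j) (fun x hx => ?_)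
  have := isNilpotent_of_mem hA ((hf _).mp hx)
  exact (IsNilpotent.map_iff hj).mp this

omit [Finite (ResidueField 𝒪)] in
theorem testAlg_of_surjective [IsLocalRing Q] (hA : IsArtinianTestAlgebra 𝒪 A) (q : A →ₐ[𝒪] Q)
    (hq : Function.Surjective q) : IsArtinianTestAlgebra 𝒪 Q where
  isLocalHom := by
    constructor
    intro c hc
    by_contra hc'
    have := hA.isLocalHom
    have h1 : algebraMap 𝒪 A c ∈ maximalIdeal A := by
      rw [mem_maximalIdeal, mem_nonunits_iff]
      exact fun h => hc' (isUnit_of_map_unit _ c h)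
    have h2 := (isNilpotent_of_mem hA h1).map q
    rw [q.commutes] at h2
    exact (h2.not_isUnit) hc
  residue_surjective := by
    intro y
    obtain ⟨x, rfl⟩ := IsLocalRing.residue_surjective y
    obtain ⟨a, rfl⟩ := hq x
    obtain ⟨c, hc⟩ := exists_sub_algebraMap_mem hA a
    refine ⟨c, ?_⟩
    rw [Function.comp_apply, ← sub_eq_zero, ← map_sub, IsLocalRing.residue_eq_zero_iff,
      ← q.commutes, ← map_sub, mem_maximalIdeal, mem_nonunits_iff]
    have h2 := (isNilpotent_of_mem hA hc).map q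
    rw [← neg_sub, map_neg, IsUnit.neg_iff]
    exact h2.not_isUnit
  isArtinian :=
    have := hA.isArtinian
    Function.Surjective.isArtinianRing (f := (q : A →+* Q)) hq

end constructions

section fib

variable {A B : Type} [CommRing A] [IsLocalRing A] [Algebra 𝒪 A] [CommRing B] [IsLocalRing B]
  [Algebra 𝒪 B]

/-- The fibre product over the residue field. -/
noncomputable def fib (f : A →ₐ[𝒪] ResidueField 𝒪) (g : B →ₐ[𝒪] ResidueField 𝒪) :
    Subalgebra 𝒪 (A × B) :=
  AlgHom.equalizer (f.comp (AlgHom.fst 𝒪 A B)) (g.comp (AlgHom.snd 𝒪 A B))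

noncomputable def fibFst (f : A →ₐ[𝒪] ResidueField 𝒪) (g : B →ₐ[𝒪] ResidueField 𝒪) :
    fib f g →ₐ[𝒪] A := (AlgHom.fst 𝒪 A B).comp (fib f g).val

noncomputable def fibSnd (f : A →ₐ[𝒪] ResidueField 𝒪) (g : B →ₐ[𝒪] ResidueField 𝒪) :
    fib f g →ₐ[𝒪] B := (AlgHom.snd 𝒪 A B).comp (fib f g).val

variable {f : A →ₐ[𝒪] ResidueField 𝒪} {g : B →ₐ[𝒪] ResidueField 𝒪}

theorem fib_comm : f.comp (fibFst f g) = g.comp (fibSnd f g) := by
  ext x
  exact x.2

theorem fib_injective : Function.Injective (fun x : fib f g => (fibFst f g x, fibSnd f g x)) := by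
  intro x y h
  exact Subtype.ext h

theorem fib_exists (a : A) (b : B) (h : f a = g b) :
    ∃ x : fib f g, fibFst f g x = a ∧ fibSnd f g x = b :=
  ⟨⟨(a, b), h⟩, rfl, rfl⟩

theorem fib_nil (hA : IsArtinianTestAlgebra 𝒪 A) (hB : IsArtinianTestAlgebra 𝒪 B)
    (hf : ∀ x, f x = 0 ↔ x ∈ maximalIdeal A) (hg : ∀ x, g x = 0 ↔ x ∈ maximalIdeal B)
    (x : fib f g) (hx : (f.comp (fibFst f g)) x = 0) : IsNilpotent x := by
  have hx2 : (g.comp (fibSnd f g)) x = 0 := by rw [← fib_comm]; exact hx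
  obtain ⟨n, hn⟩ := isNilpotent_of_mem hA ((hf _).mp hx)
  obtain ⟨m, hm⟩ := isNilpotent_of_mem hB ((hg _).mp hx2)
  have hn' : fibFst f g x ^ n = 0 := hn
  have hm' : fibSnd f g x ^ m = 0 := hm
  refine ⟨n + m, fib_injective ?_⟩
  show (fibFst f g (x ^ (n + m)), fibSnd f g (x ^ (n + m))) = (fibFst f g 0, fibSnd f g 0)
  rw [map_pow, map_pow, map_zero, map_zero, pow_add, pow_add, hn', hm', zero_mul, mul_zero]

theorem isLocalRing_fib (hA : IsArtinianTestAlgebra 𝒪 A) (hB : IsArtinianTestAlgebra 𝒪 B)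
    (hf : ∀ x, f x = 0 ↔ x ∈ maximalIdeal A) (hg : ∀ x, g x = 0 ↔ x ∈ maximalIdeal B) :
    IsLocalRing (fib f g) :=
  isLocalRing_of_nil _ (fib_nil hA hB hf hg)

theorem testAlg_fib [Finite (ResidueField 𝒪)] [IsLocalRing (fib f g)]
    (hA : IsArtinianTestAlgebra 𝒪 A) (hB : IsArtinianTestAlgebra 𝒪 B)
    (hf : ∀ x, f x = 0 ↔ x ∈ maximalIdeal A) (hg : ∀ x, g x = 0 ↔ x ∈ maximalIdeal B) :
    IsArtinianTestAlgebra 𝒪 (fib f g) := by
  have := finite_of_testAlg hA
  have := finite_of_testAlg hB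
  have : Finite (fib f g) := Subtype.finite
  exact testAlg_of_nil _ (fib_nil hA hB hf hg)

end fib

section examples

theorem testAlg_residueField : IsArtinianTestAlgebra 𝒪 (ResidueField 𝒪) where
  isLocalHom := inferInstanceAs (IsLocalHom (IsLocalRing.residue 𝒪))
  residue_surjective :=
    (IsLocalRing.residue_surjective (R := ResidueField 𝒪)).comp IsLocalRing.residue_surjective
  isArtinian := inferInstance

attribute [local instance] tangentAlg

theorem testAlg_dualNumber [Finite (ResidueField 𝒪)] :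
    IsArtinianTestAlgebra 𝒪 (DualNumber (ResidueField 𝒪)) := by
  have : Finite (DualNumber (ResidueField 𝒪)) :=
    inferInstanceAs (Finite (ResidueField 𝒪 × ResidueField 𝒪))
  let π : DualNumber (ResidueField 𝒪) →ₐ[𝒪] ResidueField 𝒪 :=
    { toRingHom := (TrivSqZeroExt.fstHom (ResidueField 𝒪) (ResidueField 𝒪)
        (ResidueField 𝒪)).toRingHom
      commutes' := fun c => rfl }
  refine testAlg_of_nil π (fun x hx => ⟨2, ?_⟩)
  have hx' : x.fst = 0 := hx
  ext
  · simp [pow_two, hx']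
  · simp [pow_two, hx']

end examples

end Fermat.Agent.S53.RF
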