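import Fermat.Agent.S53.RFDefs
import Fermat.Agent.S53.RFTest
import Fermat.Agent.S53.PowerSeries

set_option autoImplicit false
set_option linter.unusedSectionVars false

namespace Fermat.Agent.S53.RF

open IsLocalRing GaloisRep MvPowerSeries

variable {𝒪 : Type} [CommRing 𝒪] [IsLocalRing 𝒪] [IsNoetherianRing 𝒪] [Finite (ResidueField 𝒪)]
  {Xc : Type} {c : Xc → 𝒪}
  {N : ∀ ⦃A : Type⦄ [CommRing A] [IsLocalRing A] [Algebra 𝒪 A], (Xc → A) → Prop}

/-- The point of `A^(Option S)` attached to a family of coordinates. -/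
def pt (c : Xc → 𝒪) (ϖ : 𝒪) {S : Type} (s : S → Xc) {A : Type} [CommRing A] [Algebra 𝒪 A]
    (u : Xc → A) : Option S → A
  | none => algebraMap 𝒪 A ϖ
  | some t => u (s t) - algebraMap 𝒪 A (c (s t))

theorem pt_comp (c : Xc → 𝒪) (ϖ : 𝒪) {S : Type} (s : S → Xc) {A B : Type} [CommRing A]
    [Algebra 𝒪 A] [CommRing B] [Algebra 𝒪 B] (φ : A →ₐ[𝒪] B) (u : Xc → A) (t : Option S) :
    pt c ϖ s (φ ∘ u) t = φ (pt c ϖ s u t) := by
  cases t with
  | none => simp [pt]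
  | some t => simp [pt]

/-- separating family of coordinates -/
def Separates (N : ∀ ⦃A : Type⦄ [CommRing A] [IsLocalRing A] [Algebra 𝒪 A], (Xc → A) → Prop)
    {S : Type} (s : S → Xc) : Prop :=
  letI := tangentAlg 𝒪
  ∀ u v : Xc → DualNumber (ResidueField 𝒪), N u → N v → (∀ t, u (s t) = v (s t)) → u = v

theorem exists_separates (hN : IsRepFunctor 𝒪 c N) :
    ∃ (S : Type) (_ : Finite S) (s : S → Xc), Separates N s := by
  letI := tangentAlg 𝒪
  have hfin : Finite {u : Xc → DualNumber (ResidueField 𝒪) // N u} := hN.finite_tangent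
  let T := {u : Xc → DualNumber (ResidueField 𝒪) // N u}
  let S := {p : T × T // p.1 ≠ p.2}
  have hS : ∀ p : S, ∃ x, p.1.1.1 x ≠ p.1.2.1 x := by
    intro p
    by_contra h
    push Not at h
    exact p.2 (Subtype.ext (funext h))
  choose s hs using hS
  refine ⟨S, inferInstance, s, ?_⟩
  intro u v hu hv huv
  by_contra hne
  exact hs ⟨(⟨u, hu⟩, ⟨v, hv⟩), fun h => hne (congrArg Subtype.val h)⟩ (huv _)

section main

variable (hN : IsRepFunctor 𝒪 c N) {ϖ : 𝒪} (hϖ : ϖ ∈ maximalIdeal 𝒪)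
  {S : Type} [Finite S] {s : S → Xc} (hs : Separates N s)

include hN hϖ

theorem pt_mem {A : Type} [CommRing A] [IsLocalRing A] [Algebra 𝒪 A]
    (hA : IsArtinianTestAlgebra 𝒪 A) {u : Xc → A} (hu : N u) (t : Option S) :
    pt c ϖ s u t ∈ maximalIdeal A := by
  cases t with
  | none =>
    have := hA.isLocalHom
    exact map_nonunit (algebraMap 𝒪 A) ϖ hϖ
  | some t => exact hN.lifts hA u hu (s t)

theorem span_pt_pow {A : Type} [CommRing A] [IsLocalRing A] [Algebra 𝒪 A]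
    (hA : IsArtinianTestAlgebra 𝒪 A) {u : Xc → A} (hu : N u) :
    ∃ n, (Ideal.span (Set.range (pt c ϖ s u))) ^ n = ⊥ := by
  obtain ⟨n, hn⟩ := exists_pow_maximalIdeal_eq_bot hA
  refine ⟨n, ?_⟩
  rw [eq_bot_iff, ← hn]
  apply Ideal.pow_right_mono
  rw [Ideal.span_le]
  rintro _ ⟨t, rfl⟩
  exact pt_mem hN hϖ hA hu t

theorem exists_ev {A : Type} [CommRing A] [IsLocalRing A] [Algebra 𝒪 A]
    (hA : IsArtinianTestAlgebra 𝒪 A) {u : Xc → A} (hu : N u) :
    ∃ f : MvPowerSeries (Option S) 𝒪 →ₐ[𝒪] A, ∀ t, f (X t) = pt c ϖ s u t := by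
  obtain ⟨n, hn⟩ := span_pt_pow hN hϖ (s := s) hA hu
  exact ⟨evalNilp _ n hn, evalNilp_X _ n hn⟩

theorem ev_unique {A : Type} [CommRing A] [IsLocalRing A] [Algebra 𝒪 A]
    (hA : IsArtinianTestAlgebra 𝒪 A) {u : Xc → A} (hu : N u)
    (f g : MvPowerSeries (Option S) 𝒪 →ₐ[𝒪] A) (hf : ∀ t, f (X t) = pt c ϖ s u t)
    (hg : ∀ t, g (X t) = pt c ϖ s u t) : f = g := by
  obtain ⟨n, hn⟩ := span_pt_pow hN hϖ (s := s) hA hu
  apply algHom_ext_of_nilp f g n
  · rw [← hn]; congr 3; ext t; exact hf t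
  · intro t; rw [hf, hg]

include hs

theorem key_surjective {A : Type} [CommRing A] [IsLocalRing A] [Algebra 𝒪 A]
    (hA : IsArtinianTestAlgebra 𝒪 A) {u : Xc → A} (hu : N u)
    (hgen : Algebra.adjoin 𝒪 (Set.range u) = ⊤)
    (f : MvPowerSeries (Option S) 𝒪 →ₐ[𝒪] A) (hf : ∀ t, f (X t) = pt c ϖ s u t) :
    Function.Surjective f := by
  letI := tangentAlg 𝒪
  rw [← AlgHom.range_eq_top]
  by_contra hne
  obtain ⟨f1, f2, h12, hagree, -, -⟩ := exists_two_algHoms_of_ne_top hA f.range hne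
  have h1 : N (f1 ∘ u) := hN.map hA testAlg_dualNumber f1 u hu
  have h2 : N (f2 ∘ u) := hN.map hA testAlg_dualNumber f2 u hu
  have h3 : f1 ∘ u = f2 ∘ u := by
    apply hs _ _ h1 h2
    intro t
    apply hagree
    have h4 : u (s t) = f (X (some t)) + algebraMap 𝒪 A (c (s t)) := by
      rw [hf]; simp [pt]
    rw [h4]
    exact f.range.add_mem ⟨_, rfl⟩ (f.range.algebraMap_mem _)
  apply h12
  apply AlgHom.ext_of_adjoin_eq_top hgen
  rintro _ ⟨x, rfl⟩
  exact congrFun h3 x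

end main

end Fermat.Agent.S53.RF
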