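import Mathlib
import Fermat.Prelude.Def_GaloisRep_DeformationCondition

set_option autoImplicit false

/-!
Abstract pro-representability (pure commutative algebra, no Galois representations): definitions.
`X` is a set of coordinates (for S53: `GQ × Fin 2 × Fin 2`), `c x : 𝒪` a fixed lift of the residual
value of the coordinate `x`, and `N u` says that the family of coordinates `u : X → A` is an
admissible point (for S53: the entries of a normalised continuous lift of type `𝒟`).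
-/

namespace Fermat.Agent.S53

open IsLocalRing GaloisRep

/-- the `𝒪`-algebra structure on the dual numbers used in `GaloisRep.TangentFinite` -/
@[reducible] noncomputable def dualAlg (𝒪 : Type) [CommRing 𝒪] [IsLocalRing 𝒪] :
    Algebra 𝒪 (DualNumber (ResidueField 𝒪)) :=
  ((algebraMap (ResidueField 𝒪) (DualNumber (ResidueField 𝒪))).comp
      (algebraMap 𝒪 (ResidueField 𝒪))).toAlgebra

structure IsRepFunctor (𝒪 : Type) [CommRing 𝒪] [IsLocalRing 𝒪] {X : Type} (c : X → 𝒪)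
    (N : ∀ ⦃A : Type⦄ [CommRing A] [IsLocalRing A] [Algebra 𝒪 A], (X → A) → Prop) : Prop where
  lifts : ∀ ⦃A : Type⦄ [CommRing A] [IsLocalRing A] [Algebra 𝒪 A], IsArtinianTestAlgebra 𝒪 A →
    ∀ u : X → A, N u → ∀ x, u x - algebraMap 𝒪 A (c x) ∈ maximalIdeal A
  map : ∀ ⦃A B : Type⦄ [CommRing A] [IsLocalRing A] [Algebra 𝒪 A]
    [CommRing B] [IsLocalRing B] [Algebra 𝒪 B],
    IsArtinianTestAlgebra 𝒪 A → IsArtinianTestAlgebra 𝒪 B →
    ∀ (φ : A →ₐ[𝒪] B) (u : X → A), N u → N (φ ∘ u)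
  of_injective : ∀ ⦃A B : Type⦄ [CommRing A] [IsLocalRing A] [Algebra 𝒪 A]
    [CommRing B] [IsLocalRing B] [Algebra 𝒪 B],
    IsArtinianTestAlgebra 𝒪 A → IsArtinianTestAlgebra 𝒪 B →
    ∀ (φ : A →ₐ[𝒪] B), Function.Injective φ → ∀ (u : X → A), N (φ ∘ u) → N u
  of_fibreProduct : ∀ ⦃A B C P : Type⦄ [CommRing A] [IsLocalRing A] [Algebra 𝒪 A]
    [CommRing B] [IsLocalRing B] [Algebra 𝒪 B] [CommRing C] [IsLocalRing C] [Algebra 𝒪 C]
    [CommRing P] [IsLocalRing P] [Algebra 𝒪 P],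
    IsArtinianTestAlgebra 𝒪 A → IsArtinianTestAlgebra 𝒪 B → IsArtinianTestAlgebra 𝒪 C →
    IsArtinianTestAlgebra 𝒪 P →
    ∀ (f : A →ₐ[𝒪] C) (g : B →ₐ[𝒪] C) (pA : P →ₐ[𝒪] A) (pB : P →ₐ[𝒪] B),
      f.comp pA = g.comp pB →
      Function.Injective (fun x => (pA x, pB x)) →
      (∀ a b, f a = g b → ∃ x, pA x = a ∧ pB x = b) →
      ∀ (u : X → P), N (pA ∘ u) → N (pB ∘ u) → N u
  finite_tangent : letI := dualAlg 𝒪
    Finite {u : X → DualNumber (ResidueField 𝒪) // N u}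
  nonempty_residue : ∃ u : X → ResidueField 𝒪, N u

end Fermat.Agent.S53
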