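import Fermat.Agent.S53.RFCore

set_option autoImplicit false
set_option linter.unusedSectionVars false
set_option linter.style.haveILetI false

namespace Fermat.Agent.S53.RF

open IsLocalRing GaloisRep MvPowerSeries

variable {𝒪 : Type} [CommRing 𝒪] [IsLocalRing 𝒪] [IsNoetherianRing 𝒪] [Finite (ResidueField 𝒪)]
  {Xc : Type} {c : Xc → 𝒪}
  {N : ∀ ⦃A : Type⦄ [CommRing A] [IsLocalRing A] [Algebra 𝒪 A], (Xc → A) → Prop}

section main

variable (hN : IsRepFunctor 𝒪 c N) {ϖ : 𝒪} (hϖ : ϖ ∈ maximalIdeal 𝒪)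
  {S : Type} [Finite S] {s : S → Xc} (hs : Separates N s)

include hN hϖ hs

theorem key_mem_range {A : Type} [CommRing A] [IsLocalRing A] [Algebra 𝒪 A]
    (hA : IsArtinianTestAlgebra 𝒪 A) {u : Xc → A} (hu : N u)
    (f : MvPowerSeries (Option S) 𝒪 →ₐ[𝒪] A) (hf : ∀ t, f (X t) = pt c ϖ s u t) (x : Xc) :
    ∃ p, f p = u x := by
  let A' := Algebra.adjoin 𝒪 (Set.range u)
  have hinj : Function.Injective A'.val := Subtype.val_injective
  haveI : IsLocalRing A' := isLocalRing_of_injective hA A'.val hinj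
  have hA' : IsArtinianTestAlgebra 𝒪 A' := testAlg_of_injective hA A'.val hinj
  let u' : Xc → A' := fun x => ⟨u x, Algebra.subset_adjoin ⟨x, rfl⟩⟩
  have hu' : N u' := hN.of_injective hA' hA A'.val hinj u' hu
  have hgen : Algebra.adjoin 𝒪 (Set.range u') = ⊤ := by
    have h1 := Algebra.adjoin_adjoin_coe_preimage (R := 𝒪) (s := Set.range u)
    have h2 : ((↑) : A' → A) ⁻¹' (Set.range u) = Set.range u' := by
      ext y
      constructor
      · rintro ⟨x, hx⟩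
        exact ⟨x, Subtype.ext hx⟩
      · rintro ⟨x, rfl⟩
        exact ⟨x, rfl⟩
    rw [← h2]; exact h1
  obtain ⟨f', hf'⟩ := exists_ev hN hϖ (s := s) hA' hu'
  have hsurj := key_surjective hN hϖ hs hA' hu' hgen f' hf'
  have hcomp : A'.val.comp f' = f := by
    apply ev_unique hN hϖ hA hu _ _ _ hf
    intro t
    rw [AlgHom.comp_apply, hf', ← pt_comp]
    rfl
  obtain ⟨p, hp⟩ := hsurj (u' x)
  refine ⟨p, ?_⟩
  rw [← hcomp, AlgHom.comp_apply, hp]
  rfl

omit hs in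
theorem res_eq {A : Type} [CommRing A] [IsLocalRing A] [Algebra 𝒪 A]
    (hA : IsArtinianTestAlgebra 𝒪 A) {u : Xc → A} (hu : N u)
    (fA : A →ₐ[𝒪] ResidueField 𝒪) (hfA : ∀ x, fA x = 0 ↔ x ∈ maximalIdeal A) (x : Xc) :
    fA (u x) = residue 𝒪 (c x) := by
  have h1 := (hfA _).mpr (hN.lifts hA u hu x)
  rw [map_sub, sub_eq_zero, fA.commutes] at h1
  exact h1

/-- Good ideals: those carrying a tautological admissible point. -/
def Good (N : ∀ ⦃A : Type⦄ [CommRing A] [IsLocalRing A] [Algebra 𝒪 A], (Xc → A) → Prop)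
    (c : Xc → 𝒪) (ϖ : 𝒪) {S : Type} (s : S → Xc) (K : Ideal (MvPowerSeries (Option S) 𝒪)) : Prop :=
  ∃ (_ : IsLocalRing (MvPowerSeries (Option S) 𝒪 ⧸ K)) (w : Xc → MvPowerSeries (Option S) 𝒪 ⧸ K),
    IsArtinianTestAlgebra 𝒪 (MvPowerSeries (Option S) 𝒪 ⧸ K) ∧ N w ∧
      ∀ t, Ideal.Quotient.mk K (X t) = pt c ϖ s w t

theorem good_ker {A : Type} [CommRing A] [IsLocalRing A] [Algebra 𝒪 A]
    (hA : IsArtinianTestAlgebra 𝒪 A) {u : Xc → A} (hu : N u)
    (f : MvPowerSeries (Option S) 𝒪 →ₐ[𝒪] A) (hf : ∀ t, f (X t) = pt c ϖ s u t) :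
    Good N c ϖ s (RingHom.ker f) := by
  let ι := Ideal.kerLiftAlg f
  have hι : Function.Injective ι := Ideal.kerLiftAlg_injective f
  haveI : IsLocalRing (MvPowerSeries (Option S) 𝒪 ⧸ RingHom.ker f) :=
    isLocalRing_of_injective hA ι hι
  have hQ : IsArtinianTestAlgebra 𝒪 (MvPowerSeries (Option S) 𝒪 ⧸ RingHom.ker f) :=
    testAlg_of_injective hA ι hι
  choose p hp using key_mem_range hN hϖ hs hA hu f hf
  let w : Xc → MvPowerSeries (Option S) 𝒪 ⧸ RingHom.ker f :=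
    fun x => Ideal.Quotient.mk _ (p x)
  have hw : ι ∘ w = u := by
    ext x
    exact hp x
  refine ⟨inferInstance, w, hQ, hN.of_injective hQ hA ι hι w (by rw [hw]; exact hu), fun t => ?_⟩
  apply hι
  rw [← pt_comp, hw, ← hf]
  rfl

theorem pair_key {A : Type} [CommRing A] [IsLocalRing A] [Algebra 𝒪 A]
    (hA : IsArtinianTestAlgebra 𝒪 A) {u : Xc → A} (hu : N u)
    (f : MvPowerSeries (Option S) 𝒪 →ₐ[𝒪] A) (hf : ∀ t, f (X t) = pt c ϖ s u t)
    {B : Type} [CommRing B] [IsLocalRing B] [Algebra 𝒪 B]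
    (hB : IsArtinianTestAlgebra 𝒪 B) {v : Xc → B} (hv : N v)
    (g : MvPowerSeries (Option S) 𝒪 →ₐ[𝒪] B) (hg : ∀ t, g (X t) = pt c ϖ s v t) :
    (∀ x, ∃ p, f p = u x ∧ g p = v x) ∧
      Good N c ϖ s (RingHom.ker f ⊓
        RingHom.ker g) := by
  obtain ⟨fA, hfA⟩ := exists_resTo hA
  obtain ⟨fB, hfB⟩ := exists_resTo hB
  haveI : IsLocalRing (fib fA fB) := isLocalRing_fib hA hB hfA hfB
  have hF : IsArtinianTestAlgebra 𝒪 (fib fA fB) := testAlg_fib hA hB hfA hfB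
  let w : Xc → fib fA fB := fun x => ⟨(u x, v x), by
    show fA (u x) = fB (v x)
    rw [res_eq hN hϖ hA hu fA hfA, res_eq hN hϖ hB hv fB hfB]⟩
  have hw : N w := hN.of_fibreProduct hA hB testAlg_residueField hF fA fB (fibFst fA fB)
    (fibSnd fA fB) fib_comm fib_injective fib_exists w hu hv
  obtain ⟨δ, hδ⟩ := exists_ev hN hϖ (s := s) hF hw
  have h1 : (fibFst fA fB).comp δ = f := by
    apply ev_unique hN hϖ hA hu _ _ _ hf
    intro t
    rw [AlgHom.comp_apply, hδ, ← pt_comp]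
    rfl
  have h2 : (fibSnd fA fB).comp δ = g := by
    apply ev_unique hN hϖ hB hv _ _ _ hg
    intro t
    rw [AlgHom.comp_apply, hδ, ← pt_comp]
    rfl
  constructor
  · intro x
    obtain ⟨p, hp⟩ := key_mem_range hN hϖ hs hF hw δ hδ x
    refine ⟨p, ?_, ?_⟩
    · rw [← h1, AlgHom.comp_apply, hp]; rfl
    · rw [← h2, AlgHom.comp_apply, hp]; rfl
  · have h3 : RingHom.ker f ⊓
        RingHom.ker g =
        RingHom.ker δ := by
      ext p
      simp only [Ideal.mem_inf, RingHom.mem_ker]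
      rw [← h1, ← h2]
      constructor
      · rintro ⟨ha, hb⟩
        apply fib_injective (f := fA) (g := fB)
        show (fibFst fA fB (δ p), fibSnd fA fB (δ p)) = (fibFst fA fB 0, fibSnd fA fB 0)
        rw [map_zero, map_zero]
        exact Prod.ext ha hb
      · intro h
        simp [h]
    rw [h3]
    exact good_ker hN hϖ hs hF hw δ hδ

theorem point_unique {A : Type} [CommRing A] [IsLocalRing A] [Algebra 𝒪 A]
    (hA : IsArtinianTestAlgebra 𝒪 A) {u v : Xc → A} (hu : N u) (hv : N v)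
    (f : MvPowerSeries (Option S) 𝒪 →ₐ[𝒪] A) (hf : ∀ t, f (X t) = pt c ϖ s u t)
    (hg : ∀ t, f (X t) = pt c ϖ s v t) : u = v := by
  ext x
  obtain ⟨p, h1, h2⟩ := (pair_key hN hϖ hs hA hu f hf hA hv f hg).1 x
  rw [← h1, h2]


end main

end Fermat.Agent.S53.RF
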