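import Fermat.Agent.S53.RFGood

set_option autoImplicit false
set_option linter.unusedSectionVars false
set_option linter.style.haveILetI false

namespace Fermat.Agent.S53.RF

open IsLocalRing GaloisRep MvPowerSeries

variable {𝒪 : Type} [CommRing 𝒪] [IsLocalRing 𝒪] [IsNoetherianRing 𝒪] [Finite (ResidueField 𝒪)]
  {Xc : Type} {c : Xc → 𝒪}
  {N : ∀ ⦃A : Type⦄ [CommRing A] [IsLocalRing A] [Algebra 𝒪 A], (Xc → A) → Prop}

section main

variable (hN : IsRepFunctor 𝒪 c N) {ϖ : 𝒪} (hϖ : ϖ ∈ maximalIdeal 𝒪)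
  {S : Type} [Finite S] {s : S → Xc} (hs : Separates N s)

theorem Good.ne_top {K : Ideal (MvPowerSeries (Option S) 𝒪)} (hK : Good N c ϖ s K) : K ≠ ⊤ := by
  obtain ⟨h, -⟩ := hK
  exact Ideal.Quotient.nontrivial_iff.mp inferInstance

theorem Good.unif {K : Ideal (MvPowerSeries (Option S) 𝒪)} (hK : Good N c ϖ s K) :
    X none - C ϖ ∈ K := by
  obtain ⟨h, w, -, -, ht⟩ := hK
  rw [← Ideal.Quotient.eq_zero_iff_mem, map_sub, ht none, sub_eq_zero]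
  rfl

include hN hϖ

theorem Good.exists_pow_le {K : Ideal (MvPowerSeries (Option S) 𝒪)} (hK : Good N c ϖ s K) :
    ∃ n, (Ideal.span (Set.range X) : Ideal (MvPowerSeries (Option S) 𝒪)) ^ n ≤ K := by
  obtain ⟨h, w, hQ, hw, ht⟩ := hK
  obtain ⟨n, hn⟩ := span_pt_pow hN hϖ (s := s) hQ hw
  refine ⟨n, ?_⟩
  rw [← Ideal.mk_ker (I := K), ← Ideal.map_eq_bot_iff_le_ker, Ideal.map_pow, Ideal.map_span,
    ← Set.range_comp, ← hn]
  congr 3
  ext t
  exact ht t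

include hs

theorem Good.inf {K K' : Ideal (MvPowerSeries (Option S) 𝒪)} (hK : Good N c ϖ s K)
    (hK' : Good N c ϖ s K') : Good N c ϖ s (K ⊓ K') := by
  obtain ⟨h, w, hQ, hw, ht⟩ := hK
  obtain ⟨h', w', hQ', hw', ht'⟩ := hK'
  have := (pair_key hN hϖ hs hQ hw (Ideal.Quotient.mkₐ 𝒪 K) ht hQ' hw'
    (Ideal.Quotient.mkₐ 𝒪 K') ht').2
  have e1 : RingHom.ker (Ideal.Quotient.mkₐ 𝒪 K) = K := Ideal.Quotient.mkₐ_ker 𝒪 K
  have e2 : RingHom.ker (Ideal.Quotient.mkₐ 𝒪 K') = K' := Ideal.Quotient.mkₐ_ker 𝒪 K'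
  rwa [e1, e2] at this

theorem Good.of_le {K K' : Ideal (MvPowerSeries (Option S) 𝒪)} (hK : Good N c ϖ s K)
    (hle : K ≤ K') (hK' : K' ≠ ⊤) : Good N c ϖ s K' := by
  obtain ⟨h, w, hQ, hw, ht⟩ := hK
  haveI : Nontrivial (MvPowerSeries (Option S) 𝒪 ⧸ K') := Ideal.Quotient.nontrivial_iff.mpr hK'
  haveI : IsLocalRing (MvPowerSeries (Option S) 𝒪 ⧸ K') :=
    IsLocalRing.of_surjective' (Ideal.Quotient.mk K') Ideal.Quotient.mk_surjective
  have hQ' : IsArtinianTestAlgebra 𝒪 (MvPowerSeries (Option S) 𝒪 ⧸ K') :=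
    testAlg_of_surjective hQ (Ideal.Quotient.factorₐ 𝒪 hle) (Ideal.Quotient.factor_surjective hle)
  refine ⟨inferInstance, Ideal.Quotient.factorₐ 𝒪 hle ∘ w, hQ', hN.map hQ hQ' _ w hw, fun t => ?_⟩
  rw [pt_comp, ← ht]
  rfl

theorem exists_good : ∃ K : Ideal (MvPowerSeries (Option S) 𝒪), Good N c ϖ s K ∧
    Ideal.span (Set.range X) ≤ K := by
  obtain ⟨u, hu⟩ := hN.nonempty_residue
  obtain ⟨f, hf⟩ := exists_ev hN hϖ (s := s) testAlg_residueField hu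
  refine ⟨RingHom.ker f, good_ker hN hϖ hs testAlg_residueField hu f hf, ?_⟩
  rw [Ideal.span_le]
  rintro _ ⟨t, rfl⟩
  have h1 := pt_mem hN hϖ (s := s) testAlg_residueField hu t
  rw [IsLocalRing.maximalIdeal_eq_bot, Ideal.mem_bot, ← hf] at h1
  exact h1

/-- comparison of the tautological point with an arbitrary point -/
theorem Good.lift_comp {K : Ideal (MvPowerSeries (Option S) 𝒪)}
    [IsLocalRing (MvPowerSeries (Option S) 𝒪 ⧸ K)]
    (hQ : IsArtinianTestAlgebra 𝒪 (MvPowerSeries (Option S) 𝒪 ⧸ K))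
    {w : Xc → MvPowerSeries (Option S) 𝒪 ⧸ K} (hw : N w)
    (ht : ∀ t, Ideal.Quotient.mk K (X t) = pt c ϖ s w t)
    {A : Type} [CommRing A] [IsLocalRing A] [Algebra 𝒪 A]
    (hA : IsArtinianTestAlgebra 𝒪 A) {u : Xc → A} (hu : N u)
    (f : MvPowerSeries (Option S) 𝒪 →ₐ[𝒪] A) (hf : ∀ t, f (X t) = pt c ϖ s u t)
    (hle : ∀ p ∈ K, f p = 0) :
    Ideal.Quotient.liftₐ K f hle ∘ w = u := by
  apply point_unique hN hϖ hs hA (hN.map hQ hA _ w hw) hu f _ hf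
  intro t
  rw [pt_comp, ← ht]
  rfl

end main

end Fermat.Agent.S53.RF
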