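import Fermat.Agent.S53.RFGood2

set_option autoImplicit false
set_option linter.unusedSectionVars false
set_option linter.style.haveILetI false

namespace Fermat.Agent.S53.RF

open IsLocalRing GaloisRep MvPowerSeries

theorem finite_ideals_ge {R : Type*} [CommRing R] (𝔞 : Ideal R) [Finite (R ⧸ 𝔞)] :
    {K : Ideal R | 𝔞 ≤ K}.Finite := by
  have h1 : Finite (Ideal (R ⧸ 𝔞)) :=
    Finite.of_injective (fun I : Ideal (R ⧸ 𝔞) => (I : Set (R ⧸ 𝔞))) SetLike.coe_injective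
  have h2 : Finite {K : Ideal R // 𝔞 ≤ K} := by
    refine Finite.of_injective (fun K => K.1.map (Ideal.Quotient.mk 𝔞)) ?_
    intro K K' h
    apply Subtype.ext
    have := congrArg (Ideal.comap (Ideal.Quotient.mk 𝔞)) h
    simpa only [Ideal.comap_map_mk K.2, Ideal.comap_map_mk K'.2] using this
  exact h2

variable {𝒪 : Type} [CommRing 𝒪] [IsLocalRing 𝒪] [IsNoetherianRing 𝒪] [Finite (ResidueField 𝒪)]

section ps

variable {τ : Type} [Finite τ]

theorem finite_residueField_ps : Finite (ResidueField (MvPowerSeries τ 𝒪)) := by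
  have hloc : IsLocalHom (algebraMap 𝒪 (MvPowerSeries τ 𝒪)) := by
    constructor
    intro a ha
    have h1 : IsUnit (C a : MvPowerSeries τ 𝒪) := ha
    rw [MvPowerSeries.isUnit_iff_constantCoeff, constantCoeff_C] at h1
    exact h1
  refine Finite.of_surjective (ResidueField.map (algebraMap 𝒪 (MvPowerSeries τ 𝒪))) (fun y => ?_)
  obtain ⟨f, rfl⟩ := IsLocalRing.residue_surjective y
  refine ⟨residue 𝒪 (constantCoeff f), ?_⟩
  rw [ResidueField.map_residue, ← sub_eq_zero, ← map_sub, IsLocalRing.residue_eq_zero_iff]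
  have := span_range_X_le_maximalIdeal (sub_C_constantCoeff_mem f)
  rw [← neg_sub]
  exact neg_mem this

theorem finite_quotient_maximalIdeal_pow (n : ℕ) :
    Finite (MvPowerSeries τ 𝒪 ⧸ maximalIdeal (MvPowerSeries τ 𝒪) ^ n) := by
  have := finite_residueField_ps (𝒪 := 𝒪) (τ := τ)
  exact IsLocalRing.finite_quotient_iff.mpr ⟨n, le_rfl⟩

end ps

section unif

variable {S : Type} [Finite S] {ϖ : 𝒪} (hϖ : maximalIdeal 𝒪 = Ideal.span {ϖ})

include hϖ

theorem C_mem_sup {K : Ideal (MvPowerSeries (Option S) 𝒪)} (hK : X none - C ϖ ∈ K) (a : 𝒪)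
    (ha : a ∈ maximalIdeal 𝒪) :
    (C a : MvPowerSeries (Option S) 𝒪) ∈ K ⊔ Ideal.span (Set.range X) := by
  rw [hϖ, Ideal.mem_span_singleton] at ha
  obtain ⟨d, rfl⟩ := ha
  rw [map_mul]
  apply Ideal.mul_mem_right
  have h1 : (C ϖ : MvPowerSeries (Option S) 𝒪) = X none - (X none - C ϖ) := by ring
  rw [h1]
  exact sub_mem (Ideal.mem_sup_right (Ideal.subset_span ⟨none, rfl⟩)) (Ideal.mem_sup_left hK)

theorem maximalIdeal_le_sup {K : Ideal (MvPowerSeries (Option S) 𝒪)} (hK : X none - C ϖ ∈ K) :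
    maximalIdeal (MvPowerSeries (Option S) 𝒪) ≤ K ⊔ Ideal.span (Set.range X) := by
  intro f hf
  rw [mem_maximalIdeal_mvPowerSeries_iff] at hf
  have := (K ⊔ Ideal.span (Set.range X)).add_mem (C_mem_sup hϖ hK _ hf)
    (Ideal.mem_sup_right (sub_C_constantCoeff_mem f))
  simpa using this

theorem maximalIdeal_pow_le {K : Ideal (MvPowerSeries (Option S) 𝒪)} (hK : X none - C ϖ ∈ K)
    (n : ℕ) (hn : (Ideal.span (Set.range X) : Ideal (MvPowerSeries (Option S) 𝒪)) ^ n ≤ K) :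
    maximalIdeal (MvPowerSeries (Option S) 𝒪) ^ n ≤ K := by
  have h1 : Ideal.map (Ideal.Quotient.mk K) (maximalIdeal (MvPowerSeries (Option S) 𝒪)) ≤
      Ideal.map (Ideal.Quotient.mk K) (Ideal.span (Set.range X)) := by
    refine (Ideal.map_mono (maximalIdeal_le_sup hϖ hK)).trans ?_
    rw [Ideal.map_sup, Ideal.map_quotient_self, bot_sup_eq]
  rw [← Ideal.mk_ker (I := K), ← Ideal.map_eq_bot_iff_le_ker, Ideal.map_pow, eq_bot_iff]
  refine (Ideal.pow_right_mono h1 n).trans ?_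
  rw [← Ideal.map_pow, le_bot_iff, Ideal.map_eq_bot_iff_le_ker, Ideal.mk_ker]
  exact hn

end unif

section Jn

variable {Xc : Type} {c : Xc → 𝒪}
  {N : ∀ ⦃A : Type⦄ [CommRing A] [IsLocalRing A] [Algebra 𝒪 A], (Xc → A) → Prop}

/-- The least good ideal containing the `n`-th power of the ideal of variables. -/
noncomputable def Jn (N : ∀ ⦃A : Type⦄ [CommRing A] [IsLocalRing A] [Algebra 𝒪 A], (Xc → A) → Prop)
    (c : Xc → 𝒪) (ϖ : 𝒪) {S : Type} (s : S → Xc) (n : ℕ) : Ideal (MvPowerSeries (Option S) 𝒪) :=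
  sInf {K | Good N c ϖ s K ∧ (Ideal.span (Set.range X)) ^ n ≤ K}

variable {ϖ : 𝒪} {S : Type} [Finite S] {s : S → Xc}

theorem pow_le_Jn (n : ℕ) : (Ideal.span (Set.range X)) ^ n ≤ Jn N c ϖ s n :=
  le_sInf fun _ hK => hK.2

theorem Jn_antitone : Antitone (Jn N c ϖ s) := by
  intro m n hmn
  apply sInf_le_sInf
  intro K hK
  exact ⟨hK.1, (Ideal.pow_le_pow_right hmn).trans hK.2⟩

theorem Jn_le {n : ℕ} {K : Ideal (MvPowerSeries (Option S) 𝒪)} (hK : Good N c ϖ s K)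
    (hn : (Ideal.span (Set.range X)) ^ n ≤ K) : Jn N c ϖ s n ≤ K :=
  sInf_le ⟨hK, hn⟩

theorem unif_mem_Jn (n : ℕ) : X none - C ϖ ∈ Jn N c ϖ s n := by
  rw [Jn, Submodule.mem_sInf]
  intro K hK
  exact hK.1.unif

variable (hN : IsRepFunctor 𝒪 c N) (hϖ : maximalIdeal 𝒪 = Ideal.span {ϖ})
  (hs : Separates N s)

include hϖ in
theorem mem_of_eq_span : ϖ ∈ maximalIdeal 𝒪 := by
  rw [hϖ]; exact Ideal.mem_span_singleton_self ϖ

include hN hϖ hs

theorem good_Jn (n : ℕ) (hn : n ≠ 0) : Good N c ϖ s (Jn N c ϖ s n) := by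
  have hϖ' := mem_of_eq_span hϖ
  set T := {K | Good N c ϖ s K ∧ (Ideal.span (Set.range X)) ^ n ≤ K} with hT
  have hfin : T.Finite := by
    have := finite_quotient_maximalIdeal_pow (𝒪 := 𝒪) (τ := Option S) n
    refine (finite_ideals_ge (maximalIdeal (MvPowerSeries (Option S) 𝒪) ^ n)).subset ?_
    intro K hK
    exact maximalIdeal_pow_le hϖ hK.1.unif n hK.2
  have hne : T.Nonempty := by
    obtain ⟨K, hK, hle⟩ := exists_good hN hϖ' hs
    exact ⟨K, hK, (Ideal.pow_le_self hn).trans hle⟩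
  obtain ⟨K₀, hK₀⟩ := hfin.exists_minimal hne
  have hleast : ∀ K ∈ T, K₀ ≤ K := by
    intro K hK
    have h1 : K₀ ⊓ K ∈ T := ⟨hK₀.prop.1.inf hN hϖ' hs hK.1, le_inf hK₀.prop.2 hK.2⟩
    exact (hK₀.le_of_le h1 inf_le_left).trans inf_le_right
  have : Jn N c ϖ s n = K₀ := le_antisymm (sInf_le hK₀.prop) (le_sInf hleast)
  rw [this]
  exact hK₀.prop.1

theorem Jn_le_sup (n : ℕ) :
    Jn N c ϖ s n ≤ Jn N c ϖ s (n + 1) ⊔ (Ideal.span (Set.range X)) ^ n := by
  have hϖ' := mem_of_eq_span hϖ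
  rcases Nat.eq_zero_or_pos n with rfl | hn
  · simp
  · apply Jn_le _ le_sup_right
    apply (good_Jn hN hϖ hs (n + 1) (Nat.succ_ne_zero n)).of_le hN hϖ' hs le_sup_left
    have h1 : Jn N c ϖ s (n + 1) ≤ maximalIdeal _ :=
      IsLocalRing.le_maximalIdeal (good_Jn hN hϖ hs (n + 1) (Nat.succ_ne_zero n)).ne_top
    have h2 : (Ideal.span (Set.range X) : Ideal (MvPowerSeries (Option S) 𝒪)) ^ n ≤
        maximalIdeal _ := (Ideal.pow_le_self hn.ne').trans span_range_X_le_maximalIdeal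
    exact ((sup_le h1 h2).trans_lt (lt_top_iff_ne_top.mpr (Ideal.IsMaximal.ne_top inferInstance))).ne

theorem exists_Jn_le {K : Ideal (MvPowerSeries (Option S) 𝒪)} (hK : Good N c ϖ s K) :
    ∃ n, n ≠ 0 ∧ Jn N c ϖ s n ≤ K := by
  obtain ⟨n, hn⟩ := hK.exists_pow_le hN (mem_of_eq_span hϖ)
  exact ⟨n + 1, Nat.succ_ne_zero n, Jn_le hK ((Ideal.pow_le_pow_right (Nat.le_succ n)).trans hn)⟩

theorem goodQuot_iInf : GoodQuot (⨅ n, Jn N c ϖ s n) where
  ne_top := by
    intro h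
    have h1 : (⨅ n, Jn N c ϖ s n) ≤ Jn N c ϖ s 1 := iInf_le _ 1
    rw [h, top_le_iff] at h1
    exact (good_Jn hN hϖ hs 1 one_ne_zero).ne_top h1
  unif := by
    intro a ha
    apply C_mem_sup hϖ _ a ha
    rw [Ideal.mem_iInf]
    exact unif_mem_Jn

theorem Jn_le_iInf_sup (n : ℕ) :
    Jn N c ϖ s n ≤ (⨅ n, Jn N c ϖ s n) ⊔ (Ideal.span (Set.range X)) ^ n := by
  intro x hx
  obtain ⟨y, hy1, hy2⟩ := mittagLeffler (Ideal.span (Set.range X)) (Jn N c ϖ s) pow_le_Jn
    (Jn_le_sup hN hϖ hs) Jn_antitone (fun i => if i ≤ n then x else 0) (by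
      intro i
      by_cases h1 : i + 1 ≤ n
      · have h2 : i ≤ n := by omega
        simp [h1, h2]
      · by_cases h2 : i ≤ n
        · have h3 : i = n := by omega
          subst h3
          simpa [h1] using hx
        · simp [h1, h2]) n
  simp only [le_refl, if_true] at hy2
  have hyJ : y ∈ ⨅ n, Jn N c ϖ s n := by
    rw [Ideal.mem_iInf]
    intro i
    have h1 : y ∈ Jn N c ϖ s (max i (n + 1)) := by
      have := hy1 (max i (n + 1))
      have h2 : ¬ (max i (n + 1) ≤ n) := by omega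
      simpa [h2] using this
    exact Jn_antitone (le_max_left _ _) h1
  have : x = y - (y - x) := by ring
  rw [this]
  exact sub_mem (Ideal.mem_sup_left hyJ) (Ideal.mem_sup_right hy2)

end Jn

end Fermat.Agent.S53.RF
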