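import Fermat.Agent.S53.RFLimit

set_option autoImplicit false
set_option linter.unusedSectionVars false
set_option linter.style.haveILetI false

namespace Fermat.Agent.S53.RF

open IsLocalRing GaloisRep MvPowerSeries

variable {𝒪 : Type} [CommRing 𝒪] [IsLocalRing 𝒪] [IsNoetherianRing 𝒪] [Finite (ResidueField 𝒪)]
  {Xc : Type} {c : Xc → 𝒪}
  {N : ∀ ⦃A : Type⦄ [CommRing A] [IsLocalRing A] [Algebra 𝒪 A], (Xc → A) → Prop}
  {ϖ : 𝒪} {S : Type} [Finite S] {s : S → Xc}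
  (hN : IsRepFunctor 𝒪 c N) (hϖ : maximalIdeal 𝒪 = Ideal.span {ϖ}) (hs : Separates N s)

include hN hϖ hs

theorem exists_limit_point : ∃ y : Xc → MvPowerSeries (Option S) 𝒪, ∀ n, n ≠ 0 →
    ∃ (_ : IsLocalRing (MvPowerSeries (Option S) 𝒪 ⧸ Jn N c ϖ s n)),
      IsArtinianTestAlgebra 𝒪 (MvPowerSeries (Option S) 𝒪 ⧸ Jn N c ϖ s n) ∧
      N (fun x => Ideal.Quotient.mk (Jn N c ϖ s n) (y x)) ∧
      ∀ t, Ideal.Quotient.mk (Jn N c ϖ s n) (X t) =
        pt c ϖ s (fun x => Ideal.Quotient.mk (Jn N c ϖ s n) (y x)) t := by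
  have hϖ' := mem_of_eq_span hϖ
  have H : ∀ n : ℕ, ∃ (_ : IsLocalRing (MvPowerSeries (Option S) 𝒪 ⧸ Jn N c ϖ s (n + 1)))
      (w : Xc → MvPowerSeries (Option S) 𝒪 ⧸ Jn N c ϖ s (n + 1)),
      IsArtinianTestAlgebra 𝒪 (MvPowerSeries (Option S) 𝒪 ⧸ Jn N c ϖ s (n + 1)) ∧ N w ∧
      ∀ t, Ideal.Quotient.mk (Jn N c ϖ s (n + 1)) (X t) = pt c ϖ s w t :=
    fun n => good_Jn hN hϖ hs (n + 1) (Nat.succ_ne_zero n)
  choose hloc w hQ hw ht using H
  choose a ha using fun n x => Ideal.Quotient.mk_surjective (w n x)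
  have hcompat : ∀ j x, a (j + 1) x - a j x ∈ Jn N c ϖ s (j + 1) := by
    intro j x
    have hle : ∀ p ∈ Jn N c ϖ s (j + 1 + 1), Ideal.Quotient.mkₐ 𝒪 (Jn N c ϖ s (j + 1)) p = 0 := by
      intro p hp
      exact Ideal.Quotient.eq_zero_iff_mem.mpr (Jn_antitone (Nat.le_succ _) hp)
    have h1 := Good.lift_comp hN hϖ' hs (hQ (j + 1)) (hw (j + 1)) (ht (j + 1)) (hQ j) (hw j)
      (Ideal.Quotient.mkₐ 𝒪 (Jn N c ϖ s (j + 1))) (ht j) hle
    have h2 := congrFun h1 x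
    rw [Function.comp_apply, ← ha (j + 1) x, ← ha j x] at h2
    rw [← Ideal.Quotient.eq]
    exact h2
  have hy : ∀ x, ∃ y, ∀ i, y - a (i - 1) x ∈ Jn N c ϖ s i := by
    intro x
    obtain ⟨y, hy, -⟩ := mittagLeffler (Ideal.span (Set.range X)) (Jn N c ϖ s) pow_le_Jn
      (Jn_le_sup hN hϖ hs) Jn_antitone (fun i => a (i - 1) x) (by
        intro i
        cases i with
        | zero => simp
        | succ j => exact hcompat j x) 0
    exact ⟨y, hy⟩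
  choose y hy using hy
  refine ⟨y, fun n hn => ?_⟩
  obtain ⟨j, rfl⟩ := Nat.exists_eq_succ_of_ne_zero hn
  have hyw : (fun x => Ideal.Quotient.mk (Jn N c ϖ s (j + 1)) (y x)) = w j := by
    ext x
    rw [← ha j x, Ideal.Quotient.eq]
    exact hy x (j + 1)
  refine ⟨hloc j, hQ j, ?_, ?_⟩
  · rw [hyw]; exact hw j
  · rw [hyw]; exact ht j

end Fermat.Agent.S53.RF
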