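import Mathlib
import Fermat.Prelude.Def_GaloisRep_DeformationCondition

set_option autoImplicit false
set_option linter.unusedSectionVars false

namespace Fermat.Agent.S53

open IsLocalRing

section

variable (𝒪 : Type) [CommRing 𝒪] [IsLocalRing 𝒪]

/-- The `𝒪`-algebra structure on `k[ε]` used in `GaloisRep.TangentFinite`. -/
@[reducible] noncomputable def tangentAlg : Algebra 𝒪 (DualNumber (ResidueField 𝒪)) :=
  ((algebraMap (ResidueField 𝒪) (DualNumber (ResidueField 𝒪))).comp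
      (algebraMap 𝒪 (ResidueField 𝒪))).toAlgebra

variable {𝒪}
variable {A : Type} [CommRing A] [IsLocalRing A] [Algebra 𝒪 A]

theorem exists_sub_algebraMap_mem (hA : GaloisRep.IsArtinianTestAlgebra 𝒪 A) (x : A) :
    ∃ c : 𝒪, x - algebraMap 𝒪 A c ∈ maximalIdeal A := by
  obtain ⟨c, hc⟩ := hA.residue_surjective (residue A x)
  refine ⟨c, ?_⟩
  rw [← residue_eq_zero_iff, map_sub, sub_eq_zero]
  exact hc.symm

theorem exists_pow_maximalIdeal_eq_bot (hA : GaloisRep.IsArtinianTestAlgebra 𝒪 A) :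
    ∃ n : ℕ, maximalIdeal A ^ n = ⊥ := by
  have := hA.isArtinian
  have h := IsArtinianRing.isNilpotent_jacobson_bot (R := A)
  rw [IsLocalRing.jacobson_eq_maximalIdeal ⊥ bot_ne_top] at h
  exact h

/-- the residue map to the residue field of `𝒪`. -/
theorem exists_resTo (hA : GaloisRep.IsArtinianTestAlgebra 𝒪 A) :
    ∃ f : A →ₐ[𝒪] ResidueField 𝒪, ∀ x, f x = 0 ↔ x ∈ maximalIdeal A := by
  have := hA.isLocalHom
  have hbij : Function.Bijective (ResidueField.map (algebraMap 𝒪 A)) := by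
    refine ⟨RingHom.injective _, fun y => ?_⟩
    obtain ⟨c, hc⟩ := hA.residue_surjective y
    exact ⟨residue 𝒪 c, by rw [ResidueField.map_residue]; exact hc⟩
  let e := RingEquiv.ofBijective _ hbij
  refine ⟨{ toRingHom := (e.symm : ResidueField A →+* ResidueField 𝒪).comp (residue A)
            commutes' := fun c => ?_ }, fun x => ?_⟩
  · change e.symm (residue A (algebraMap 𝒪 A c)) = residue 𝒪 c
    rw [RingEquiv.symm_apply_eq]
    exact (ResidueField.map_residue _ _).symm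
  · change e.symm (residue A x) = 0 ↔ _
    rw [map_eq_zero_iff _ e.symm.injective, residue_eq_zero_iff]

/-- `𝔪^j ⊆ B + 𝔪^(j+1)` as soon as `𝔪 ⊆ B + 𝔪^2`. -/
theorem pow_le_sup_pow_succ (B : Subalgebra 𝒪 A)
    (h1 : ∀ x ∈ maximalIdeal A, ∃ b ∈ B, x - b ∈ maximalIdeal A ^ 2) (j : ℕ) :
    ∀ x ∈ maximalIdeal A ^ (j + 1), ∃ b ∈ B, x - b ∈ maximalIdeal A ^ (j + 2) := by
  induction j with
  | zero => simpa using h1
  | succ j ih =>
    intro x hx
    rw [pow_succ'] at hx
    induction hx using Submodule.mul_induction_on' with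
    | mem_mul_mem m hm n hn =>
      obtain ⟨b, hb, hmb⟩ := h1 m hm
      obtain ⟨b', hb', hnb⟩ := ih n hn
      refine ⟨b * b', B.mul_mem hb hb', ?_⟩
      have hbm : b ∈ maximalIdeal A := by
        have : b = m - (m - b) := by ring
        rw [this]
        exact Ideal.sub_mem _ hm (Ideal.pow_le_self two_ne_zero hmb)
      have e : m * n - b * b' = b * (n - b') + (m - b) * n := by ring
      rw [e]
      refine Ideal.add_mem _ ?_ ?_
      · have : maximalIdeal A ^ (j + 1 + 2) = maximalIdeal A * maximalIdeal A ^ (j + 2) := by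
          rw [← pow_succ']
        rw [this]
        exact Ideal.mul_mem_mul hbm hnb
      · have : maximalIdeal A ^ (j + 1 + 2) = maximalIdeal A ^ 2 * maximalIdeal A ^ (j + 1) := by
          rw [← pow_add]; congr 1; omega
        rw [this]
        exact Ideal.mul_mem_mul hmb hn
    | add x _ y _ hx hy =>
      obtain ⟨b, hb, hxb⟩ := hx
      obtain ⟨b', hb', hyb⟩ := hy
      refine ⟨b + b', B.add_mem hb hb', ?_⟩
      have e : x + y - (b + b') = (x - b) + (y - b') := by ring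
      rw [e]
      exact Ideal.add_mem _ hxb hyb

theorem eq_top_of_maximalIdeal_le (hA : GaloisRep.IsArtinianTestAlgebra 𝒪 A) (B : Subalgebra 𝒪 A)
    (h1 : ∀ x ∈ maximalIdeal A, ∃ b ∈ B, x - b ∈ maximalIdeal A ^ 2) : B = ⊤ := by
  have key : ∀ j : ℕ, ∀ x : A, ∃ b ∈ B, x - b ∈ maximalIdeal A ^ (j + 1) := by
    intro j
    induction j with
    | zero =>
      intro x
      obtain ⟨c, hc⟩ := exists_sub_algebraMap_mem hA x
      exact ⟨algebraMap 𝒪 A c, B.algebraMap_mem c, by simpa using hc⟩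
    | succ j ih =>
      intro x
      obtain ⟨b, hb, hxb⟩ := ih x
      obtain ⟨b', hb', h'⟩ := pow_le_sup_pow_succ B h1 j _ hxb
      refine ⟨b + b', B.add_mem hb hb', ?_⟩
      have e : x - (b + b') = x - b - b' := by ring
      rw [e]
      exact h'
  obtain ⟨n, hn⟩ := exists_pow_maximalIdeal_eq_bot hA
  rw [eq_top_iff]
  intro x _
  obtain ⟨b, hb, hxb⟩ := key n x
  have : x - b ∈ maximalIdeal A ^ n := Ideal.pow_le_pow_right (Nat.le_succ n) hxb
  rw [hn, Ideal.mem_bot, sub_eq_zero] at this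
  rw [this]
  exact hb

/-- An `𝒪`-linear "derivation" vanishing on `B` and `𝔪²`, nonzero if `B ≠ ⊤`. -/
theorem exists_functional (hA : GaloisRep.IsArtinianTestAlgebra 𝒪 A) (B : Subalgebra 𝒪 A)
    (hB : B ≠ ⊤) :
    ∃ δ : A →ₗ[𝒪] ResidueField 𝒪, (∀ b ∈ B, δ b = 0) ∧ (∀ y ∈ maximalIdeal A ^ 2, δ y = 0) ∧
      ∃ x, δ x ≠ 0 := by
  have := hA.isLocalHom
  let W : Submodule 𝒪 A := Subalgebra.toSubmodule B ⊔ (maximalIdeal A ^ 2).restrictScalars 𝒪
  have hBW : ∀ b ∈ B, b ∈ W := fun b hb =>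
    Submodule.mem_sup_left ((Subalgebra.mem_toSubmodule B).2 hb)
  have hmW : ∀ y ∈ maximalIdeal A ^ 2, y ∈ W := fun y hy =>
    Submodule.mem_sup_right (by simpa using hy)
  obtain ⟨x0, hx0⟩ : ∃ x0 : A, x0 ∉ W := by
    by_contra hcon
    push Not at hcon
    apply hB
    apply eq_top_of_maximalIdeal_le hA
    intro x _
    obtain ⟨b, hb, y, hy, hby⟩ := Submodule.mem_sup.1 (hcon x)
    refine ⟨b, (Subalgebra.mem_toSubmodule B).1 hb, ?_⟩
    rw [← hby, add_sub_cancel_left]
    simpa using hy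
  have htors : Module.IsTorsionBySet 𝒪 (A ⧸ W) (maximalIdeal 𝒪 : Set 𝒪) := by
    rintro q ⟨c, hc⟩
    obtain ⟨x, rfl⟩ := W.mkQ_surjective q
    change c • W.mkQ x = 0
    rw [← map_smul, Submodule.mkQ_apply, Submodule.Quotient.mk_eq_zero]
    obtain ⟨a, ha⟩ := exists_sub_algebraMap_mem hA x
    have e : c • x = algebraMap 𝒪 A (c * a) + algebraMap 𝒪 A c * (x - algebraMap 𝒪 A a) := by
      rw [Algebra.smul_def, map_mul]; ring
    rw [e]
    refine W.add_mem (hBW _ (B.algebraMap_mem _)) (hmW _ ?_)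
    rw [pow_two]
    refine Ideal.mul_mem_mul ?_ ha
    exact map_nonunit (algebraMap 𝒪 A) c hc
  let _ : Module (ResidueField 𝒪) (A ⧸ W) := htors.module
  have _ : IsScalarTower 𝒪 (ResidueField 𝒪) (A ⧸ W) := htors.isScalarTower
  have hne : W.mkQ x0 ≠ 0 := by
    rw [Submodule.mkQ_apply, Ne, Submodule.Quotient.mk_eq_zero]
    exact hx0
  obtain ⟨φ, hφ⟩ : ∃ φ : Module.Dual (ResidueField 𝒪) (A ⧸ W), φ (W.mkQ x0) ≠ 0 := by
    by_contra hcon
    push Not at hcon
    exact hne ((Module.forall_dual_apply_eq_zero_iff (ResidueField 𝒪) _).1 hcon)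
  refine ⟨(φ.restrictScalars 𝒪).comp W.mkQ, fun b hb => ?_, fun y hy => ?_, x0, hφ⟩
  · have : W.mkQ b = 0 := by
      rw [Submodule.mkQ_apply, Submodule.Quotient.mk_eq_zero]; exact hBW b hb
    simp [this]
  · have : W.mkQ y = 0 := by
      rw [Submodule.mkQ_apply, Submodule.Quotient.mk_eq_zero]; exact hmW y hy
    simp [this]

attribute [local instance] tangentAlg

theorem algebraMap_tangentAlg (c : 𝒪) :
    algebraMap 𝒪 (DualNumber (ResidueField 𝒪)) c = TrivSqZeroExt.inl (residue 𝒪 c) := rfl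

/-- Build an algebra hom to the dual numbers from the residue map and a "derivation". -/
noncomputable def homOfFunctional (f : A →ₐ[𝒪] ResidueField 𝒪) (δ : A →ₗ[𝒪] ResidueField 𝒪)
    (h1 : δ 1 = 0) (hmul : ∀ x y, δ (x * y) = f x * δ y + δ x * f y) :
    A →ₐ[𝒪] DualNumber (ResidueField 𝒪) where
  toFun x := TrivSqZeroExt.inl (f x) + TrivSqZeroExt.inr (δ x)
  map_one' := by simp [h1]
  map_mul' x y := by
    ext
    · simp
    · simp [hmul, mul_comm]
  map_zero' := by simp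
  map_add' x y := by
    ext <;> simp
  commutes' c := by
    have : δ (algebraMap 𝒪 A c) = 0 := by
      rw [Algebra.algebraMap_eq_smul_one, map_smul, h1, smul_zero]
    rw [this, algebraMap_tangentAlg, f.commutes]
    simp

theorem homOfFunctional_apply (f : A →ₐ[𝒪] ResidueField 𝒪) (δ : A →ₗ[𝒪] ResidueField 𝒪)
    (h1 : δ 1 = 0) (hmul : ∀ x y, δ (x * y) = f x * δ y + δ x * f y) (x : A) :
    homOfFunctional f δ h1 hmul x = TrivSqZeroExt.inl (f x) + TrivSqZeroExt.inr (δ x) := rfl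

theorem isLocalHom_homOfFunctional (f : A →ₐ[𝒪] ResidueField 𝒪)
    (hf : ∀ x, f x = 0 ↔ x ∈ maximalIdeal A) (δ : A →ₗ[𝒪] ResidueField 𝒪)
    (h1 : δ 1 = 0) (hmul : ∀ x y, δ (x * y) = f x * δ y + δ x * f y) :
    IsLocalHom (homOfFunctional f δ h1 hmul : A →+* DualNumber (ResidueField 𝒪)) := by
  constructor
  intro x hx
  have hx' : IsUnit (homOfFunctional f δ h1 hmul x) := hx
  rw [TrivSqZeroExt.isUnit_iff_isUnit_fst, homOfFunctional_apply] at hx'
  simp only [TrivSqZeroExt.fst_add, TrivSqZeroExt.fst_inl, TrivSqZeroExt.fst_inr, add_zero,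
    isUnit_iff_ne_zero] at hx'
  by_contra hnu
  exact hx' ((hf x).2 ((mem_maximalIdeal x).2 hnu))

theorem exists_two_algHoms_of_ne_top (hA : GaloisRep.IsArtinianTestAlgebra 𝒪 A)
    (B : Subalgebra 𝒪 A) (hB : B ≠ ⊤) :
    ∃ f1 f2 : A →ₐ[𝒪] DualNumber (ResidueField 𝒪), f1 ≠ f2 ∧ (∀ b ∈ B, f1 b = f2 b) ∧
      IsLocalHom (f1 : A →+* DualNumber (ResidueField 𝒪)) ∧
      IsLocalHom (f2 : A →+* DualNumber (ResidueField 𝒪)) := by
  obtain ⟨f, hf⟩ := exists_resTo hA
  obtain ⟨δ, hδB, hδm, x0, hx0⟩ := exists_functional hA B hB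
  have h1 : δ 1 = 0 := hδB 1 B.one_mem
  have hδalg : ∀ c : 𝒪, δ (algebraMap 𝒪 A c) = 0 := fun c => hδB _ (B.algebraMap_mem c)
  have hmul : ∀ x y, δ (x * y) = f x * δ y + δ x * f y := by
    intro x y
    obtain ⟨a, ha⟩ := exists_sub_algebraMap_mem hA x
    obtain ⟨b, hb⟩ := exists_sub_algebraMap_mem hA y
    set x' := x - algebraMap 𝒪 A a with hx'
    set y' := y - algebraMap 𝒪 A b with hy'
    have ex : x = algebraMap 𝒪 A a + x' := by rw [hx']; ring
    have ey : y = algebraMap 𝒪 A b + y' := by rw [hy']; ring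
    have e : x * y = algebraMap 𝒪 A (a * b) + a • y' + b • x' + x' * y' := by
      rw [ex, ey, Algebra.smul_def, Algebra.smul_def, map_mul]; ring
    have hxy : δ (x' * y') = 0 := hδm _ (by rw [pow_two]; exact Ideal.mul_mem_mul ha hb)
    have hfx : f x = residue 𝒪 a := by
      rw [ex, map_add, (hf x').2 ha, add_zero, f.commutes]; rfl
    have hfy : f y = residue 𝒪 b := by
      rw [ey, map_add, (hf y').2 hb, add_zero, f.commutes]; rfl
    have hδx : δ x = δ x' := by rw [ex, map_add, hδalg, zero_add]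
    have hδy : δ y = δ y' := by rw [ey, map_add, hδalg, zero_add]
    rw [e, map_add, map_add, map_add, hδalg, hxy, map_smul, map_smul, hfx, hfy, hδx, hδy,
      Algebra.smul_def, Algebra.smul_def]
    change 0 + residue 𝒪 a * δ y' + residue 𝒪 b * δ x' + 0 = _
    ring
  refine ⟨homOfFunctional f δ h1 hmul, homOfFunctional f 0 (by simp) (by simp), ?_, ?_,
    isLocalHom_homOfFunctional f hf δ h1 hmul, isLocalHom_homOfFunctional f hf 0 _ _⟩
  · intro heq
    have := congrArg TrivSqZeroExt.snd (DFunLike.congr_fun heq x0)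
    simp [homOfFunctional_apply] at this
    exact hx0 this
  · intro b hb
    simp [homOfFunctional_apply, hδB b hb]

end

end Fermat.Agent.S53
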