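import Mathlib
import Fermat.Prelude.Def_GaloisRep_DeformationCondition
import Fermat.Agent.S53.TwoHoms

set_option autoImplicit false
set_option linter.unusedSectionVars false

namespace Fermat.Agent.S53

open IsLocalRing GaloisRep

section

variable {𝒪 : Type} [CommRing 𝒪] [IsLocalRing 𝒪]

/-- Any `𝒪`-algebra map into a local `𝒪`-algebra with residue field `k` is local. -/
theorem isLocalHom_of_residue_surjective'
    {R A : Type} [CommRing R] [IsLocalRing R] [Algebra 𝒪 R] [CommRing A] [IsLocalRing A]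
    [Algebra 𝒪 A]
    (hres : Function.Surjective (IsLocalRing.residue A ∘ algebraMap 𝒪 A)) (φ : R →ₐ[𝒪] A) :
    IsLocalHom (φ : R →+* A) := by
  have hsurj : Function.Surjective ((residue A).comp (φ : R →+* A)) := by
    intro y
    obtain ⟨c, hc⟩ := hres y
    refine ⟨algebraMap 𝒪 R c, ?_⟩
    rw [← hc]
    simp
  have hmax := RingHom.ker_isMaximal_of_surjective _ hsurj
  have hker := IsLocalRing.eq_maximalIdeal hmax
  constructor
  intro x hx
  by_contra hnu
  have hxm : x ∈ maximalIdeal R := (mem_maximalIdeal x).2 hnu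
  rw [← hker, RingHom.mem_ker] at hxm
  have : (φ : R →+* A) x ∈ maximalIdeal A := (residue_eq_zero_iff _).1 hxm
  exact ((mem_maximalIdeal _).1 this) hx

theorem isLocalRing_quotient_pow {A : Type} [CommRing A] [IsLocalRing A] (n : ℕ) (hn : n ≠ 0) :
    IsLocalRing (A ⧸ maximalIdeal A ^ n) := by
  have hne : maximalIdeal A ^ n ≠ ⊤ := by
    intro h
    have := Ideal.pow_le_self (I := maximalIdeal A) hn
    rw [h, top_le_iff] at this
    exact (Ideal.IsPrime.ne_top inferInstance) this
  have : Nontrivial (A ⧸ maximalIdeal A ^ n) := Ideal.Quotient.nontrivial_iff.2 hne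
  exact IsLocalRing.of_surjective' (Ideal.Quotient.mk _) Ideal.Quotient.mk_surjective

/-- A surjective image, killing a power of the maximal ideal, of a Noetherian local `𝒪`-algebra
with residue field `k` is a test algebra. -/
theorem isArtinianTestAlgebra_of_surjective
    {A B : Type} [CommRing A] [IsLocalRing A] [IsNoetherianRing A] [Algebra 𝒪 A]
    [CommRing B] [IsLocalRing B] [Algebra 𝒪 B]
    (hloc : IsLocalHom (algebraMap 𝒪 A))
    (hres : Function.Surjective (IsLocalRing.residue A ∘ algebraMap 𝒪 A))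
    (q : A →ₐ[𝒪] B) (hq : Function.Surjective q) (n : ℕ)
    (hn : ∀ x ∈ maximalIdeal A ^ n, q x = 0) : IsArtinianTestAlgebra 𝒪 B := by
  have hqloc : IsLocalHom (q : A →+* B) := IsLocalHom.of_surjective _ hq
  refine ⟨?_, ?_, ?_⟩
  · constructor
    intro c hc
    have h1 : IsUnit ((q : A →+* B) (algebraMap 𝒪 A c)) := by
      simpa using hc
    exact hloc.map_nonunit c (hqloc.map_nonunit _ h1)
  · intro y
    obtain ⟨b, rfl⟩ := residue_surjective y
    obtain ⟨a, rfl⟩ := hq b
    obtain ⟨c, hc⟩ := hres (residue A a)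
    refine ⟨c, ?_⟩
    have h1 : a - algebraMap 𝒪 A c ∈ maximalIdeal A := by
      rw [← residue_eq_zero_iff, map_sub, sub_eq_zero]; exact hc.symm
    have h2 : (q : A →+* B) (a - algebraMap 𝒪 A c) ∈ maximalIdeal B :=
      map_nonunit (q : A →+* B) _ h1
    rw [← residue_eq_zero_iff, map_sub, map_sub, sub_eq_zero] at h2
    rw [Function.comp_apply]
    have h3 : (q : A →+* B) (algebraMap 𝒪 A c) = algebraMap 𝒪 B c := q.commutes c
    rw [h3] at h2
    exact h2.symm
  · have hNoeth : IsNoetherianRing B := isNoetherianRing_of_surjective A B (q : A →+* B) hq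
    rw [isArtinianRing_iff_isNilpotent_maximalIdeal]
    refine ⟨n, ?_⟩
    rw [← map_maximalIdeal_of_surjective (q : A →+* B) hq, ← Ideal.map_pow, Ideal.zero_eq_bot,
      Ideal.map_eq_bot_iff_le_ker]
    intro x hx
    exact hn x hx

theorem isArtinianTestAlgebra_quotient_pow
    {A : Type} [CommRing A] [IsLocalRing A] [IsNoetherianRing A] [Algebra 𝒪 A]
    (hloc : IsLocalHom (algebraMap 𝒪 A))
    (hres : Function.Surjective (IsLocalRing.residue A ∘ algebraMap 𝒪 A)) (n : ℕ) (hn : n ≠ 0) :
    ∃ _ : IsLocalRing (A ⧸ maximalIdeal A ^ n),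
      IsArtinianTestAlgebra 𝒪 (A ⧸ maximalIdeal A ^ n) := by
  have := isLocalRing_quotient_pow (A := A) n hn
  refine ⟨this, isArtinianTestAlgebra_of_surjective hloc hres
    (Ideal.Quotient.mkₐ 𝒪 (maximalIdeal A ^ n)) Ideal.Quotient.mk_surjective n ?_⟩
  intro x hx
  exact Ideal.Quotient.eq_zero_iff_mem.2 hx

/-- the residue field is a test algebra -/
theorem isArtinianTestAlgebra_residueField : IsArtinianTestAlgebra 𝒪 (ResidueField 𝒪) := by
  refine ⟨?_, ?_, inferInstance⟩
  · exact inferInstanceAs (IsLocalHom (residue 𝒪))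
  · intro y
    obtain ⟨b, rfl⟩ := residue_surjective y
    obtain ⟨c, rfl⟩ := residue_surjective b
    exact ⟨c, rfl⟩

attribute [local instance] tangentAlg

/-- the dual numbers are a test algebra -/
theorem isArtinianTestAlgebra_dualNumber :
    IsArtinianTestAlgebra 𝒪 (DualNumber (ResidueField 𝒪)) := by
  refine ⟨?_, ?_, ?_⟩
  · constructor
    intro c hc
    rw [algebraMap_tangentAlg, TrivSqZeroExt.isUnit_iff_isUnit_fst, TrivSqZeroExt.fst_inl] at hc
    have hl : IsLocalHom (residue 𝒪) := inferInstance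
    exact hl.map_nonunit c hc
  · intro y
    obtain ⟨b, rfl⟩ := residue_surjective y
    obtain ⟨c, hc⟩ := residue_surjective (TrivSqZeroExt.fst b)
    refine ⟨c, ?_⟩
    rw [Function.comp_apply, algebraMap_tangentAlg, ← sub_eq_zero, ← map_sub,
      residue_eq_zero_iff, mem_maximalIdeal, mem_nonunits_iff,
      TrivSqZeroExt.isUnit_iff_isUnit_fst]
    simp [hc]
  · have : Module.Finite (ResidueField 𝒪) (DualNumber (ResidueField 𝒪)) :=
      inferInstanceAs (Module.Finite (ResidueField 𝒪) (ResidueField 𝒪 × ResidueField 𝒪))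
    exact IsArtinianRing.of_finite (ResidueField 𝒪) _

end

end Fermat.Agent.S53
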