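import Fermat.Agent.S53.RFPoint
import Fermat.Agent.S53.TestAlgBasic

set_option autoImplicit false
set_option linter.unusedSectionVars false
set_option linter.style.haveILetI false

/-!
Abstract pro-representability (pure commutative algebra, no Galois representations).
The definitions `dualAlg`, `IsRepFunctor` are in `RFDefs.lean`.
-/

namespace Fermat.Agent.S53

open IsLocalRing GaloisRep MvPowerSeries

/-- Any `𝒪`-algebra map into a local `𝒪`-algebra with residue field `k` is local. -/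
theorem isLocalHom_of_residue_surjective {𝒪 : Type} [CommRing 𝒪] [IsLocalRing 𝒪]
    {R A : Type} [CommRing R] [IsLocalRing R] [Algebra 𝒪 R] [CommRing A] [IsLocalRing A]
    [Algebra 𝒪 A] (_hloc : IsLocalHom (algebraMap 𝒪 A))
    (hres : Function.Surjective (IsLocalRing.residue A ∘ algebraMap 𝒪 A)) (φ : R →ₐ[𝒪] A) :
    IsLocalHom (φ : R →+* A) :=
  isLocalHom_of_residue_surjective' hres φ

/-- Quotients of a complete local `𝒪`-algebra by powers of the maximal ideal are test algebras. -/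
theorem exists_isArtinianTestAlgebra_quotient_pow {𝒪 : Type} [CommRing 𝒪] [IsLocalRing 𝒪]
    {A : Type} [CommRing A] [IsLocalRing A] [IsNoetherianRing A] [Algebra 𝒪 A]
    (hloc : IsLocalHom (algebraMap 𝒪 A))
    (hres : Function.Surjective (IsLocalRing.residue A ∘ algebraMap 𝒪 A)) (n : ℕ) (hn : n ≠ 0) :
    ∃ _ : IsLocalRing (A ⧸ maximalIdeal A ^ n), IsArtinianTestAlgebra 𝒪 (A ⧸ maximalIdeal A ^ n) :=
  isArtinianTestAlgebra_quotient_pow hloc hres n hn

theorem RF.eq_of_forall_mk_eq {A : Type*} [CommRing A] (I : Ideal A) [IsHausdorff I A] (a b : A)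
    (h : ∀ n, n ≠ 0 → Ideal.Quotient.mk (I ^ n) a = Ideal.Quotient.mk (I ^ n) b) : a = b := by
  rw [IsHausdorff.eq_iff_smodEq (I := I)]
  intro n
  rw [SModEq.sub_mem, smul_eq_mul, Ideal.mul_top]
  rcases Nat.eq_zero_or_pos n with rfl | hn
  · simp
  · exact Ideal.Quotient.eq.mp (h n hn.ne')

theorem exists_universal (𝒪 : Type) [CommRing 𝒪] [IsDomain 𝒪] [IsDiscreteValuationRing 𝒪]
    [Finite (ResidueField 𝒪)] {X : Type} (c : X → 𝒪)
    (N : ∀ ⦃A : Type⦄ [CommRing A] [IsLocalRing A] [Algebra 𝒪 A], (X → A) → Prop)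
    (hN : IsRepFunctor 𝒪 c N) :
    ∃ (R : Type) (_ : CommRing R) (_ : IsLocalRing R) (_ : IsNoetherianRing R)
      (_ : IsAdicComplete (maximalIdeal R) R) (_ : Algebra 𝒪 R)
      (_ : IsLocalHom (algebraMap 𝒪 R))
      (_ : Function.Surjective (IsLocalRing.residue R ∘ algebraMap 𝒪 R)) (u : X → R),
      (∀ (B : Type) [CommRing B] [IsLocalRing B] [Algebra 𝒪 B], IsArtinianTestAlgebra 𝒪 B →
        ∀ q : R →ₐ[𝒪] B, N (q ∘ u)) ∧
      (∀ (A : Type) [CommRing A] [IsLocalRing A] [IsNoetherianRing A]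
        [IsAdicComplete (maximalIdeal A) A] [Algebra 𝒪 A] [IsLocalHom (algebraMap 𝒪 A)],
        Function.Surjective (IsLocalRing.residue A ∘ algebraMap 𝒪 A) →
        ∀ v : X → A,
          (∀ (B : Type) [CommRing B] [IsLocalRing B] [Algebra 𝒪 B], IsArtinianTestAlgebra 𝒪 B →
            ∀ q : A →ₐ[𝒪] B, Function.Surjective q → N (q ∘ v)) →
          ∃! φ : R →ₐ[𝒪] A, φ ∘ u = v) := by
  obtain ⟨ϖ, hirr⟩ := IsDiscreteValuationRing.exists_irreducible 𝒪
  have hϖ : maximalIdeal 𝒪 = Ideal.span {ϖ} := hirr.maximalIdeal_eq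
  have hϖ' : ϖ ∈ maximalIdeal 𝒪 := RF.mem_of_eq_span hϖ
  obtain ⟨S, hS, s, hs⟩ := RF.exists_separates hN
  obtain ⟨y, hy⟩ := RF.exists_limit_point hN hϖ hs
  set J := ⨅ n, RF.Jn N c ϖ s n with hJdef
  have hJ : GoodQuot J := RF.goodQuot_iInf hN hϖ hs
  haveI := hJ.isLocalRing
  have htaut : ∀ t, MvPowerSeries.X t - RF.pt c ϖ s y t ∈ J := by
    intro t
    rw [hJdef, Ideal.mem_iInf]
    intro n
    rcases Nat.eq_zero_or_pos n with rfl | hn
    · exact RF.pow_le_Jn 0 (by simp)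
    · obtain ⟨_, _, _, ht⟩ := hy n hn.ne'
      rw [← Ideal.Quotient.eq, ht t]
      exact RF.pt_comp c ϖ s (Ideal.Quotient.mkₐ 𝒪 (RF.Jn N c ϖ s n)) y t
  refine ⟨MvPowerSeries (Option S) 𝒪 ⧸ J, inferInstance, hJ.isLocalRing, inferInstance,
    hJ.isAdicComplete, inferInstance, hJ.isLocalHom, hJ.residue_surjective,
    fun x => Ideal.Quotient.mk J (y x), ?_, ?_⟩
  · intro B _ _ _ hB q
    let q' : MvPowerSeries (Option S) 𝒪 →ₐ[𝒪] B := q.comp (Ideal.Quotient.mkₐ 𝒪 J)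
    have hqloc : IsLocalHom (q : (MvPowerSeries (Option S) 𝒪 ⧸ J) →+* B) :=
      isLocalHom_of_residue_surjective' hB.residue_surjective q
    have hX : ∀ t, q' (MvPowerSeries.X t) ∈ maximalIdeal B := by
      intro t
      have h1 : Ideal.Quotient.mk J (MvPowerSeries.X t) ∈
          maximalIdeal (MvPowerSeries (Option S) 𝒪 ⧸ J) :=
        (hJ.mk_mem_maximalIdeal_iff _).mpr
          (span_range_X_le_maximalIdeal (Ideal.subset_span ⟨t, rfl⟩))
      exact map_nonunit (q : (MvPowerSeries (Option S) 𝒪 ⧸ J) →+* B) _ h1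
    obtain ⟨n, hn⟩ := exists_pow_maximalIdeal_eq_bot hB
    have hI : (Ideal.span (Set.range MvPowerSeries.X)) ^ (n + 1) ≤ RingHom.ker q' := by
      rw [← Ideal.map_eq_bot_iff_le_ker, Ideal.map_pow, Ideal.map_span, ← Set.range_comp,
        eq_bot_iff, ← hn]
      refine le_trans ?_ (Ideal.pow_le_pow_right (Nat.le_succ n))
      apply Ideal.pow_right_mono
      rw [Ideal.span_le]
      rintro _ ⟨t, rfl⟩
      exact hX t
    have hJq : J ≤ RingHom.ker q' := by
      intro p hp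
      rw [RingHom.mem_ker]
      show q (Ideal.Quotient.mk J p) = 0
      rw [Ideal.Quotient.eq_zero_iff_mem.mpr hp, map_zero]
    have hle : ∀ p ∈ RF.Jn N c ϖ s (n + 1), q' p = 0 := fun p hp =>
      ((RF.Jn_le_iInf_sup hN hϖ hs (n + 1)).trans (sup_le hJq hI)) hp
    obtain ⟨hloc, hQ, hw, -⟩ := hy (n + 1) (Nat.succ_ne_zero n)
    exact hN.map hQ hB (Ideal.Quotient.liftₐ (RF.Jn N c ϖ s (n + 1)) q' hle) _ hw
  · intro A _ _ _ _ _ hloc hres v hv
    have hAn : ∀ n, n ≠ 0 → ∃ _ : IsLocalRing (A ⧸ maximalIdeal A ^ n),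
        IsArtinianTestAlgebra 𝒪 (A ⧸ maximalIdeal A ^ n) ∧
        N (Ideal.Quotient.mkₐ 𝒪 (maximalIdeal A ^ n) ∘ v) := by
      intro n hn
      obtain ⟨h1, h2⟩ := isArtinianTestAlgebra_quotient_pow hloc hres n hn
      exact ⟨h1, h2, hv _ h2 _ Ideal.Quotient.mk_surjective⟩
    have hvm : ∀ x, v x - algebraMap 𝒪 A (c x) ∈ maximalIdeal A := by
      intro x
      obtain ⟨h1, h2, h3⟩ := hAn 1 one_ne_zero
      have h4 := hN.lifts h2 _ h3 x
      rw [mem_maximalIdeal, mem_nonunits_iff] at h4 ⊢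
      intro hu
      apply h4
      have := hu.map (Ideal.Quotient.mkₐ 𝒪 (maximalIdeal A ^ 1))
      rwa [map_sub, AlgHom.commutes] at this
    have ha : ∀ t, RF.pt c ϖ s v t ∈ maximalIdeal A := by
      intro t
      cases t with
      | none => exact map_nonunit (algebraMap 𝒪 A) ϖ hϖ'
      | some t => exact hvm (s t)
    let ψ : MvPowerSeries (Option S) 𝒪 →ₐ[𝒪] A := evalComplete (maximalIdeal A) (RF.pt c ϖ s v) ha
    have hψX : ∀ t, ψ (MvPowerSeries.X t) = RF.pt c ϖ s v t := evalComplete_X _ _ ha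
    have hmain : ∀ n, n ≠ 0 → (∀ p ∈ J, Ideal.Quotient.mk (maximalIdeal A ^ n) (ψ p) = 0) ∧
        ∀ x, Ideal.Quotient.mk (maximalIdeal A ^ n) (ψ (y x)) =
          Ideal.Quotient.mk (maximalIdeal A ^ n) (v x) := by
      intro n hn
      obtain ⟨h1, h2, h3⟩ := hAn n hn
      let f : MvPowerSeries (Option S) 𝒪 →ₐ[𝒪] (A ⧸ maximalIdeal A ^ n) :=
        (Ideal.Quotient.mkₐ 𝒪 (maximalIdeal A ^ n)).comp ψ
      have hf : ∀ t, f (MvPowerSeries.X t) =
          RF.pt c ϖ s (Ideal.Quotient.mkₐ 𝒪 (maximalIdeal A ^ n) ∘ v) t := by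
        intro t
        rw [RF.pt_comp, ← hψX]
        rfl
      obtain ⟨m, hm0, hm⟩ := RF.exists_Jn_le hN hϖ hs (RF.good_ker hN hϖ' hs h2 h3 f hf)
      have hle : ∀ p ∈ RF.Jn N c ϖ s m, f p = 0 := fun p hp => hm hp
      have hJm : J ≤ RF.Jn N c ϖ s m := iInf_le _ m
      refine ⟨fun p hp => hle p (hJm hp), fun x => ?_⟩
      obtain ⟨hlocm, hQ, hw, ht⟩ := hy m hm0
      exact congrFun (RF.Good.lift_comp hN hϖ' hs hQ hw ht h2 h3 f hf hle) x
    have hJψ : ∀ p ∈ J, ψ p = 0 := by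
      intro p hp
      apply RF.eq_of_forall_mk_eq (maximalIdeal A)
      intro n hn
      rw [(hmain n hn).1 p hp, map_zero]
    refine ⟨Ideal.Quotient.liftₐ J ψ hJψ, ?_, ?_⟩
    · funext x
      apply RF.eq_of_forall_mk_eq (maximalIdeal A)
      intro n hn
      exact (hmain n hn).2 x
    · intro φ' hφ'
      apply Ideal.Quotient.algHom_ext
      have h5 : ∀ t, (φ'.comp (Ideal.Quotient.mkₐ 𝒪 J)) (MvPowerSeries.X t) =
          ψ (MvPowerSeries.X t) := by
        intro t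
        rw [hψX, ← hφ']
        have h6 : Ideal.Quotient.mkₐ 𝒪 J (MvPowerSeries.X t) =
            Ideal.Quotient.mkₐ 𝒪 J (RF.pt c ϖ s y t) := Ideal.Quotient.eq.mpr (htaut t)
        rw [AlgHom.comp_apply, h6, ← RF.pt_comp, ← RF.pt_comp]
        rfl
      have h7 : φ'.comp (Ideal.Quotient.mkₐ 𝒪 J) = ψ := by
        apply algHom_ext_of_complete (maximalIdeal A) _ _ _ h5
        intro t
        rw [h5, hψX]
        exact ha t
      rw [h7]
      ext p
      rfl

end Fermat.Agent.S53
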