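import Fermat.Agent.S53.Iface
import Fermat.Agent.S53.RepFunctor

set_option autoImplicit false

open IsLocalRing GaloisRep

namespace Fermat.Agent.S53

/-- coordinates of a matrix representation -/
abbrev Coord : Type := GQ × Fin 2 × Fin 2

section Mk

variable {P : Type} [CommRing P]

/-- build a representation from its coordinates -/
theorem exists_rep_of_coord (u : Coord → P) (h1 : ∀ i j, u (1, i, j) = (1 : M2 P) i j)
    (hmul : ∀ σ τ i j, u (σ * τ, i, j) = ∑ k, u (σ, i, k) * u (τ, k, j)) :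
    ∃ r : GQ →* M2 P, ∀ σ i j, u (σ, i, j) = r σ i j := by
  refine ⟨{ toFun := fun σ => Matrix.of fun i j => u (σ, i, j), map_one' := ?_, map_mul' := ?_ },
    fun σ i j => rfl⟩
  · ext i j; exact h1 i j
  · intro σ τ; ext i j
    rw [Matrix.mul_apply]
    exact hmul σ τ i j

/-- trivial on an open subgroup -/
def FactorsFinite (r : GQ →* M2 P) : Prop :=
  ∃ L : IntermediateField ℚ (AlgebraicClosure ℚ), FiniteDimensional ℚ L ∧
    ∀ σ : GQ, (∀ x ∈ L, σ x = x) → r σ = 1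

theorem FactorsFinite.matCont [IsLocalRing P] {r : GQ →* M2 P} (h : FactorsFinite r) :
    MatCont P r := by
  intro n
  obtain ⟨L, hL, h⟩ := h
  refine ⟨L, hL, fun σ hσ i j => ?_⟩
  rw [h σ hσ, sub_self]
  exact Ideal.zero_mem _

theorem MatCont.factorsFinite [IsLocalRing P] [IsArtinianRing P] {r : GQ →* M2 P}
    (h : MatCont P r) : FactorsFinite r := by
  obtain ⟨n, hn⟩ := IsArtinianRing.isNilpotent_jacobson_bot (R := P)
  rw [IsLocalRing.jacobson_eq_maximalIdeal ⊥ bot_ne_top] at hn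
  obtain ⟨L, hL, h⟩ := h n
  refine ⟨L, hL, fun σ hσ => ?_⟩
  ext i j
  have := h σ hσ i j
  rw [hn] at this
  have h0 : (r σ - 1) i j = 0 := this
  rw [Matrix.sub_apply, sub_eq_zero] at h0
  exact h0

end Mk

section RepN

variable {𝒪 : Type} [CommRing 𝒪] [IsLocalRing 𝒪]
  (𝒟 : ∀ ⦃A : Type⦄ [CommRing A] [IsLocalRing A] [Algebra 𝒪 A], GaloisRepAdic A → Prop)
  {rbar : GQ →* M2 (ResidueField 𝒪)} (NF : NFData 𝒪 rbar)

/-- the functor of coordinates of normalised lifts of type `𝒟` -/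
def repN : ∀ ⦃A : Type⦄ [CommRing A] [IsLocalRing A] [Algebra 𝒪 A], (Coord → A) → Prop :=
  fun A _ _ _ u => ∃ r : GQ →* M2 A, (∀ σ i j, u (σ, i, j) = r σ i j) ∧ Lifts rbar r ∧
    IsNormal NF r ∧ ∃ ρ : GaloisRepAdic A, HasMatrix ρ r ∧ 𝒟 ρ

/-- chosen lifts of the residual coordinates -/
noncomputable def baseCoord (rbar : GQ →* M2 (ResidueField 𝒪)) : Coord → 𝒪 :=
  fun x => (residue_surjective (rbar x.1 x.2.1 x.2.2)).choose

theorem residue_baseCoord (rbar : GQ →* M2 (ResidueField 𝒪)) (σ : GQ) (i j : Fin 2) :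
    residue 𝒪 (baseCoord rbar (σ, i, j)) = rbar σ i j :=
  (residue_surjective (rbar σ i j)).choose_spec

variable {A B : Type} [CommRing A] [IsLocalRing A] [Algebra 𝒪 A]
  [CommRing B] [IsLocalRing B] [Algebra 𝒪 B]

theorem Lifts.mapRep {r : GQ →* M2 A} (h : Lifts rbar r) (φ : A →ₐ[𝒪] B)
    (hφ : IsLocalHom (φ : A →+* B)) : Lifts rbar (mapRep (φ : A →+* B) r) := by
  intro σ i j c hc
  have := h σ i j c hc
  rw [mapRep_apply]
  have h2 : (φ : A →+* B) (r σ i j) - algebraMap 𝒪 B c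
      = (φ : A →+* B) (r σ i j - algebraMap 𝒪 A c) := by
    rw [map_sub]; simp
  rw [h2]
  exact map_nonunit (φ : A →+* B) _ this

theorem Lifts.of_mapRep {r : GQ →* M2 A} (φ : A →ₐ[𝒪] B)
    (h : Lifts rbar (Fermat.Agent.S53.mapRep (φ : A →+* B) r)) : Lifts rbar r := by
  intro σ i j c hc
  have := h σ i j c hc
  rw [mapRep_apply] at this
  have h2 : (φ : A →+* B) (r σ i j) - algebraMap 𝒪 B c
      = (φ : A →+* B) (r σ i j - algebraMap 𝒪 A c) := by
    rw [map_sub]; simp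
  rw [h2] at this
  by_contra hcon
  have hu : IsUnit (r σ i j - algebraMap 𝒪 A c) := by
    by_contra hnu
    exact hcon ((IsLocalRing.mem_maximalIdeal _).mpr hnu)
  exact ((IsLocalRing.mem_maximalIdeal _).mp this) (hu.map (φ : A →+* B))

theorem IsNormal.mapRep {r : GQ →* M2 A} (h : IsNormal NF r) (φ : A →ₐ[𝒪] B) :
    IsNormal NF (mapRep (φ : A →+* B) r) := by
  obtain ⟨h1, h2, h3⟩ := h
  refine ⟨?_, ?_, ?_⟩
  · rw [mapRep_apply, h1, map_zero]
  · rw [mapRep_apply, h2, map_one]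
  · rw [mapRep_apply, h3]; simp

theorem repN_lifts (u : Coord → A) (hu : repN 𝒟 NF u) (x : Coord) :
    u x - algebraMap 𝒪 A (baseCoord rbar x) ∈ maximalIdeal A := by
  obtain ⟨r, hr, hl, -, -⟩ := hu
  obtain ⟨σ, i, j⟩ := x
  rw [hr]
  exact hl σ i j _ (residue_baseCoord rbar σ i j)

variable {𝒟}

theorem repN_map (h𝒟 : IsDeformationCondition 𝒪 𝒟) (hA : IsArtinianTestAlgebra 𝒪 A)
    (hB : IsArtinianTestAlgebra 𝒪 B) (φ : A →ₐ[𝒪] B) (u : Coord → A) (hu : repN 𝒟 NF u) :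
    repN 𝒟 NF (φ ∘ u) := by
  obtain ⟨r, hr, hl, hn, ρ, hρ, hD⟩ := hu
  have hφ : IsLocalHom (φ : A →+* B) :=
    isLocalHom_of_residue_surjective hB.isLocalHom hB.residue_surjective φ
  refine ⟨mapRep (φ : A →+* B) r, fun σ i j => ?_, hl.mapRep φ hφ, hn.mapRep NF φ,
    ρ.baseChangeAlong (φ : A →+* B) hφ, hρ.baseChangeAlong _ hφ,
    h𝒟.baseChangeAlong hA hB φ hφ hD⟩
  rw [mapRep_apply, ← hr]; rfl

theorem repN_of_injective (h𝒟 : IsDeformationCondition 𝒪 𝒟) (hA : IsArtinianTestAlgebra 𝒪 A)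
    (hB : IsArtinianTestAlgebra 𝒪 B) (φ : A →ₐ[𝒪] B) (hinj : Function.Injective φ)
    (u : Coord → A) (hu : repN 𝒟 NF (φ ∘ u)) : repN 𝒟 NF u := by
  obtain ⟨rB, hr, hl, hn, ρ, hρ, hD⟩ := hu
  have hφ : IsLocalHom (φ : A →+* B) :=
    isLocalHom_of_residue_surjective hB.isLocalHom hB.residue_surjective φ
  have hr' : ∀ σ i j, φ (u (σ, i, j)) = rB σ i j := hr
  obtain ⟨r, hru⟩ : ∃ r : GQ →* M2 A, ∀ σ i j, u (σ, i, j) = r σ i j := by
    refine exists_rep_of_coord u (fun i j => hinj ?_) (fun σ τ i j => hinj ?_)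
    · rw [hr', map_one]
      by_cases hij : i = j
      · subst hij; simp
      · simp [Matrix.one_apply_ne hij]
    · rw [hr', map_mul, Matrix.mul_apply, map_sum]
      refine Finset.sum_congr rfl fun k _ => ?_
      rw [map_mul, hr', hr']
  have hmap : mapRep (φ : A →+* B) r = rB := by
    ext σ i j
    rw [mapRep_apply, ← hru]; exact hr' σ i j
  haveI := hB.isArtinian
  have hff : FactorsFinite r := by
    obtain ⟨L, hL, h⟩ := hρ.matCont.factorsFinite
    refine ⟨L, hL, fun σ hσ => ?_⟩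
    have h1 := h σ hσ
    ext i j
    apply hinj
    have h2 : φ (r σ i j) = rB σ i j := by rw [← hru]; exact hr' σ i j
    rw [h2, h1]
    by_cases hij : i = j
    · subst hij; simp
    · simp [Matrix.one_apply_ne hij]
  obtain ⟨ρA, hρA⟩ := exists_hasMatrix_of_matCont r hff.matCont
  refine ⟨r, hru, Lifts.of_mapRep φ (hmap ▸ hl), ?_, ρA, hρA, ?_⟩
  · obtain ⟨h1, h2, h3⟩ := hn
    refine ⟨hinj ?_, hinj ?_, hinj ?_⟩
    · rw [← hru, hr', h1, map_zero]
    · rw [← hru, hr', h2, map_one]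
    · rw [← hru, hr', h3]; simp
  · refine h𝒟.of_baseChangeAlong_injective hA hB φ hφ hinj ?_
    refine h𝒟.of_isEquiv hB ?_ hD
    exact hρ.isEquiv (hmap ▸ hρA.baseChangeAlong _ hφ)

theorem repN_of_fibreProduct {C P : Type} [CommRing C] [IsLocalRing C] [Algebra 𝒪 C]
    [CommRing P] [IsLocalRing P] [Algebra 𝒪 P]
    (h𝒟 : IsDeformationCondition 𝒪 𝒟) (hA : IsArtinianTestAlgebra 𝒪 A)
    (hB : IsArtinianTestAlgebra 𝒪 B) (hC : IsArtinianTestAlgebra 𝒪 C)
    (hP : IsArtinianTestAlgebra 𝒪 P)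
    (f : A →ₐ[𝒪] C) (g : B →ₐ[𝒪] C) (pA : P →ₐ[𝒪] A) (pB : P →ₐ[𝒪] B)
    (hcomp : f.comp pA = g.comp pB)
    (hinj : Function.Injective (fun x => (pA x, pB x)))
    (hsurj : ∀ a b, f a = g b → ∃ x, pA x = a ∧ pB x = b)
    (u : Coord → P) (huA : repN 𝒟 NF (pA ∘ u)) (huB : repN 𝒟 NF (pB ∘ u)) : repN 𝒟 NF u := by
  obtain ⟨rA, hrA, hlA, hnA, ρA, hρA, hDA⟩ := huA
  obtain ⟨rB, hrB, hlB, hnB, ρB, hρB, hDB⟩ := huB
  have hpA : IsLocalHom (pA : P →+* A) :=
    isLocalHom_of_residue_surjective hA.isLocalHom hA.residue_surjective pA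
  have hpB : IsLocalHom (pB : P →+* B) :=
    isLocalHom_of_residue_surjective hB.isLocalHom hB.residue_surjective pB
  have hrA' : ∀ σ i j, pA (u (σ, i, j)) = rA σ i j := hrA
  have hrB' : ∀ σ i j, pB (u (σ, i, j)) = rB σ i j := hrB
  have hinj' : ∀ x y : P, pA x = pA y → pB x = pB y → x = y := fun x y h1 h2 =>
    hinj (Prod.ext h1 h2)
  obtain ⟨r, hru⟩ : ∃ r : GQ →* M2 P, ∀ σ i j, u (σ, i, j) = r σ i j := by
    refine exists_rep_of_coord u (fun i j => hinj' _ _ ?_ ?_) (fun σ τ i j => hinj' _ _ ?_ ?_)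
    · rw [hrA', map_one]
      by_cases hij : i = j
      · subst hij; simp
      · simp [Matrix.one_apply_ne hij]
    · rw [hrB', map_one]
      by_cases hij : i = j
      · subst hij; simp
      · simp [Matrix.one_apply_ne hij]
    · rw [hrA', map_mul, Matrix.mul_apply, map_sum]
      refine Finset.sum_congr rfl fun k _ => ?_
      rw [map_mul, hrA', hrA']
    · rw [hrB', map_mul, Matrix.mul_apply, map_sum]
      refine Finset.sum_congr rfl fun k _ => ?_
      rw [map_mul, hrB', hrB']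
  have hmapA : mapRep (pA : P →+* A) r = rA := by
    ext σ i j
    rw [mapRep_apply, ← hru]; exact hrA' σ i j
  have hmapB : mapRep (pB : P →+* B) r = rB := by
    ext σ i j
    rw [mapRep_apply, ← hru]; exact hrB' σ i j
  have := hA.isArtinian
  have := hB.isArtinian
  have hff : FactorsFinite r := by
    obtain ⟨L, hL, h⟩ := hρA.matCont.factorsFinite
    obtain ⟨L', hL', h'⟩ := hρB.matCont.factorsFinite
    refine ⟨L ⊔ L', IntermediateField.finiteDimensional_sup L L', fun σ hσ => ?_⟩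
    have h1 := h σ (fun x hx => hσ x ((le_sup_left : L ≤ L ⊔ L') hx))
    have h1' := h' σ (fun x hx => hσ x ((le_sup_right : L' ≤ L ⊔ L') hx))
    ext i j
    apply hinj'
    · have h2 : pA (r σ i j) = rA σ i j := by rw [← hru]; exact hrA' σ i j
      rw [h2, h1]
      by_cases hij : i = j
      · subst hij; simp
      · simp [Matrix.one_apply_ne hij]
    · have h2 : pB (r σ i j) = rB σ i j := by rw [← hru]; exact hrB' σ i j
      rw [h2, h1']
      by_cases hij : i = j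
      · subst hij; simp
      · simp [Matrix.one_apply_ne hij]
  obtain ⟨ρP, hρP⟩ := exists_hasMatrix_of_matCont r hff.matCont
  refine ⟨r, hru, Lifts.of_mapRep pA (hmapA ▸ hlA), ?_, ρP, hρP, ?_⟩
  · obtain ⟨h1, h2, h3⟩ := hnA
    obtain ⟨h1', h2', h3'⟩ := hnB
    refine ⟨hinj' _ _ ?_ ?_, hinj' _ _ ?_ ?_, hinj' _ _ ?_ ?_⟩
    · rw [← hru, hrA', h1, map_zero]
    · rw [← hru, hrB', h1', map_zero]
    · rw [← hru, hrA', h2, map_one]
    · rw [← hru, hrB', h2', map_one]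
    · rw [← hru, hrA', h3]; simp
    · rw [← hru, hrB', h3']; simp
  · refine h𝒟.of_fibreProduct hA hB hC hP f g pA pB hpA hpB hcomp hinj hsurj ?_ ?_
    · exact h𝒟.of_isEquiv hA (hρA.isEquiv (hmapA ▸ hρP.baseChangeAlong _ hpA)) hDA
    · exact h𝒟.of_isEquiv hB (hρB.isEquiv (hmapB ▸ hρP.baseChangeAlong _ hpB)) hDB

variable {ρbar : ResidualGaloisRep (ResidueField 𝒪)}
  (b : Module.Basis (Fin 2) (ResidueField 𝒪) ρbar.V)
  (hb : ∀ σ, LinearMap.toMatrix b b (ρbar.ρ σ) = rbar σ)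

include hb in
theorem repN_finite_tangent (hfin : TangentFinite 𝒪 ρbar 𝒟) :
    letI := dualAlg 𝒪
    Finite {u : Coord → DualNumber (ResidueField 𝒪) // repN 𝒟 NF u} := by
  letI := dualAlg 𝒪
  letI : Algebra (ResidueField 𝒪) (ResidueField (DualNumber (ResidueField 𝒪))) :=
    ((IsLocalRing.residue (DualNumber (ResidueField 𝒪))).comp
      (algebraMap (ResidueField 𝒪) (DualNumber (ResidueField 𝒪)))).toAlgebra
  let S : Setoid {ρ : GaloisRepAdic (DualNumber (ResidueField 𝒪)) //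
      𝒟 ρ ∧ ρ.residual.IsEquiv (ρbar.baseChange (ResidueField (DualNumber (ResidueField 𝒪)))) } :=
    ⟨fun ρ ρ' => ρ.1.IsEquiv ρ'.1, ⟨fun ρ => ⟨GaloisRepAdic.Equiv.refl ρ.1⟩,
        fun ⟨e⟩ => ⟨e.symm⟩, fun ⟨e⟩ ⟨e'⟩ => ⟨e.trans e'⟩⟩⟩
  have hfin' : Finite (Quotient S) := hfin
  have key : ∀ u : {u : Coord → DualNumber (ResidueField 𝒪) // repN 𝒟 NF u},
      ∃ (x : {ρ : GaloisRepAdic (DualNumber (ResidueField 𝒪)) //
      𝒟 ρ ∧ ρ.residual.IsEquiv (ρbar.baseChange (ResidueField (DualNumber (ResidueField 𝒪)))) })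
        (r : GQ →* M2 (DualNumber (ResidueField 𝒪))),
        (∀ σ i j, u.1 (σ, i, j) = r σ i j) ∧ Lifts rbar r ∧ IsNormal NF r ∧ HasMatrix x.1 r := by
    rintro ⟨u, r, hr, hl, hn, ρ, hρ, hD⟩
    refine ⟨⟨ρ, hD, ?_⟩, r, hr, hl, hn, hρ⟩
    exact hρ.residual_isEquiv b hb hl
      ((IsLocalRing.residue (DualNumber (ResidueField 𝒪))).comp
        (algebraMap (ResidueField 𝒪) (DualNumber (ResidueField 𝒪)))) (fun c => rfl)
  choose F R hR using key
  refine Finite.of_injective (fun u => (Quotient.mk S (F u))) ?_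
  intro u u' huu
  have he : (F u).1.IsEquiv (F u').1 := Quotient.exact huu
  obtain ⟨h1, h2, h3, h4⟩ := hR u
  obtain ⟨h1', h2', h3', h4'⟩ := hR u'
  obtain ⟨M, hM⟩ := (h4.of_isEquiv he).exists_conj h4'
  have hrr : R u = R u' := normal_unique NF h2 h2' h3 h3' M hM
  apply Subtype.ext
  funext ⟨σ, i, j⟩
  rw [h1, h1', hrr]

include hb in
theorem repN_nonempty_residue (hbar : 𝒟 (GaloisRepAdic.ofResidualGaloisRep ρbar)) :
    ∃ u : Coord → ResidueField 𝒪, repN 𝒟 NF u := by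
  refine ⟨fun x => rbar x.1 x.2.1 x.2.2, rbar, fun σ i j => rfl, ?_, ?_,
    GaloisRepAdic.ofResidualGaloisRep ρbar, ⟨b, hb⟩, hbar⟩
  · intro σ i j c hc
    rw [← hc, IsLocalRing.ResidueField.algebraMap_eq, sub_self]
    exact Ideal.zero_mem _
  · exact ⟨NF.h00, NF.h10, by rw [IsLocalRing.ResidueField.algebraMap_eq]; exact NF.hc.symm⟩

include hb in
theorem isRepFunctor_repN (h𝒟 : IsDeformationCondition 𝒪 𝒟)
    (hbar : 𝒟 (GaloisRepAdic.ofResidualGaloisRep ρbar)) (hfin : TangentFinite 𝒪 ρbar 𝒟) :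
    IsRepFunctor 𝒪 (baseCoord rbar) (repN 𝒟 NF) where
  lifts := fun _ _ _ _ _ u hu x => repN_lifts 𝒟 NF u hu x
  map := fun _ _ _ _ _ _ _ _ hA hB φ u hu => repN_map NF h𝒟 hA hB φ u hu
  of_injective := fun _ _ _ _ _ _ _ _ hA hB φ hφ u hu => repN_of_injective NF h𝒟 hA hB φ hφ u hu
  of_fibreProduct := fun _ _ _ _ _ _ _ _ _ _ _ _ _ _ _ _ hA hB hC hP f g pA pB h1 h2 h3 u hu hu' =>
    repN_of_fibreProduct NF h𝒟 hA hB hC hP f g pA pB h1 h2 h3 u hu hu'
  finite_tangent := repN_finite_tangent NF b hb hfin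
  nonempty_residue := repN_nonempty_residue NF b hb hbar

end RepN

end Fermat.Agent.S53
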